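/-
DS-T, cell [H1] (Hecke / Eichler–Shimura for `Γ₁(M)`), file [R0]: GENERIC REDUCTION DEFINITIONS.

The prelude's `Def_ModularCurve_ReductionModL` (`IsPlaceReductionAlong`, `integralPrincipalDivisors`,
`PrincipalGeneratedByIntegral`, `ReductionInputsAlong`, `reductionAlong`) is written for the pair
`(laurentBaseChange L (modularFunctionFieldFull N), modularFunctionFieldFullC k N)`.  Here the same
definitions for an ARBITRARY pair of `q`-expansion fields

  `F : IntermediateField L (LaurentSeries L)`,  `Ft : IntermediateField k (LaurentSeries k)`,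

`A : ValuationSubring L`, `π : A →+* k`.  At the `Γ₀(N)` pair they are the prelude's definitions
(`dsr_reductionInputs_iff`, `dsr_reduction_eq`: `Iff.rfl` / `rfl`).

* `dsr_IntFun A π F Ft`, `dsr_gen`, `dsr_red` : `q`-integral functions with nonzero reduction;
* `dsr_IsPlaceReduction`, `dsr_PrincipalGeneratedByIntegral`, `dsr_ReductionInputs`;
* `dsr_placeReduction h`, `dsr_reduction A π F Ft : Pic0 L F →+ Pic0 k Ft`, `dsr_reduction_mk`.
Prefix `dsr_`.
-/
import Mathlib
import Fermat.Prelude.Def_ModularCurve_ReductionModL

set_option autoImplicit false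

noncomputable section

namespace Fermat.Agent.DS

open HahnSeries IntermediateField AlgebraicCurve ModularCurve

section Spec

variable {L : Type*} [Field L] (A : ValuationSubring L)
variable {k : Type*} [Field k] (π : A →+* k)
variable (F : IntermediateField L (LaurentSeries L)) (Ft : IntermediateField k (LaurentSeries k))

/-- `q`-integral functions of `F` whose reduction is a nonzero element of `Ft`. -/
def dsr_IntFun : Type _ :=
  {y : LaurentSeries A // coeffMap A.subtype y ∈ F ∧ coeffMap π y ∈ Ft ∧ coeffMap π y ≠ 0}

variable {A π F Ft}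

/-- the function in characteristic zero -/
def dsr_gen (y : dsr_IntFun A π F Ft) : F := ⟨coeffMap A.subtype y.1, y.2.1⟩

/-- its reduction -/
def dsr_red (y : dsr_IntFun A π F Ft) : Ft := ⟨coeffMap π y.1, y.2.2.1⟩

theorem dsr_coe_gen (y : dsr_IntFun A π F Ft) :
    (dsr_gen y : LaurentSeries L) = coeffMap A.subtype y.1 := rfl

theorem dsr_coe_red (y : dsr_IntFun A π F Ft) :
    (dsr_red y : LaurentSeries k) = coeffMap π y.1 := rfl

theorem dsr_red_ne_zero (y : dsr_IntFun A π F Ft) : dsr_red y ≠ 0 := fun h =>
  y.2.2.2 (congrArg Subtype.val h)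

theorem dsr_coeffMap_subtype_injective :
    Function.Injective (coeffMap A.subtype : LaurentSeries A → LaurentSeries L) := by
  intro x y h
  ext n
  have := congrArg (fun s => HahnSeries.coeff s n) h
  simpa [coeffMap_coeff] using this

theorem dsr_gen_ne_zero (y : dsr_IntFun A π F Ft) : dsr_gen y ≠ 0 := by
  intro h
  have h1 : coeffMap A.subtype y.1 = 0 := congrArg Subtype.val h
  have h2 : y.1 = 0 := dsr_coeffMap_subtype_injective (by rw [h1, map_zero])
  exact y.2.2.2 (by rw [h2, map_zero])

variable (A π F Ft)

/-- a place map compatible with degrees and with the divisors of `q`-integral functions -/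
def dsr_IsPlaceReduction (r : Place L F → Place k Ft) : Prop :=
  (∀ P, (r P).deg = P.deg) ∧
    ∀ (y : LaurentSeries A) (hy : coeffMap A.subtype y ∈ F) (hyk : coeffMap π y ∈ Ft),
      coeffMap π y ≠ 0 →
        ∀ D : Divisor L F, (∀ P, D P = P.ord (⟨coeffMap A.subtype y, hy⟩ : F)) →
          ∀ Q, Finsupp.mapDomain r D Q = Q.ord (⟨coeffMap π y, hyk⟩ : Ft)

/-- the divisors of the `q`-integral functions -/
def dsr_integralPrincipalDivisors : Set (Divisor L F) :=
  {D | ∃ (y : LaurentSeries A) (hy : coeffMap A.subtype y ∈ F),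
      coeffMap π y ∈ Ft ∧ coeffMap π y ≠ 0 ∧
        ∀ P, D P = P.ord (⟨coeffMap A.subtype y, hy⟩ : F)}

/-- principal divisors are generated by the divisors of `q`-integral functions -/
def dsr_PrincipalGeneratedByIntegral : Prop :=
  Divisor.principal (K := L) (F := F) ≤ AddSubgroup.closure (dsr_integralPrincipalDivisors A π F Ft)

/-- **the reduction inputs** (generic twin of the prelude's `ReductionInputsAlong`) -/
def dsr_ReductionInputs : Prop :=
  ∃ r, dsr_IsPlaceReduction A π F Ft r ∧ dsr_PrincipalGeneratedByIntegral A π F Ft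

end Spec

section SpecLemmas

variable {L : Type*} [Field L] {A : ValuationSubring L}
variable {k : Type*} [Field k] {π : A →+* k}
variable {F : IntermediateField L (LaurentSeries L)} {Ft : IntermediateField k (LaurentSeries k)}
variable {r : Place L F → Place k Ft}

theorem dsr_IsPlaceReduction.deg_eq (hr : dsr_IsPlaceReduction A π F Ft r) (P : Place L F) :
    (r P).deg = P.deg :=
  hr.1 P

/-- the defining property, for `dsr_IntFun` -/
theorem dsr_IsPlaceReduction.mapDomain_ord (hr : dsr_IsPlaceReduction A π F Ft r)
    (y : dsr_IntFun A π F Ft) (D : Divisor L F) (hD : ∀ P, D P = P.ord (dsr_gen y))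
    (Q : Place k Ft) : Finsupp.mapDomain r D Q = Q.ord (dsr_red y) :=
  hr.2 y.1 y.2.1 y.2.2.1 y.2.2.2 D hD Q

theorem dsr_IsPlaceReduction.isPrincipal_mapDomain (hr : dsr_IsPlaceReduction A π F Ft r)
    {D : Divisor L F} (hD : D ∈ dsr_integralPrincipalDivisors A π F Ft) :
    Divisor.IsPrincipal (Finsupp.mapDomain r D) := by
  obtain ⟨y, hy, hyk, hne, hDy⟩ := hD
  refine ⟨⟨coeffMap π y, hyk⟩, fun h => hne (congrArg Subtype.val h), fun Q => ?_⟩
  exact hr.2 y hy hyk hne D hDy Q

theorem dsr_degree_mapDomain (hdeg : ∀ P, (r P).deg = P.deg) (D : Divisor L F) :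
    Divisor.degree (Finsupp.mapDomain r D) = Divisor.degree D := by
  induction D using Finsupp.induction with
  | zero => simp
  | single_add P n D _ _ ih =>
    rw [Finsupp.mapDomain_add, map_add, map_add, ih, Finsupp.mapDomain_single,
      Divisor.degree_single, Divisor.degree_single, hdeg]

theorem dsr_mapDomain_mem_degZero (hdeg : ∀ P, (r P).deg = P.deg) {D : Divisor L F}
    (hD : D ∈ Divisor.degZero (K := L) (F := F)) :
    Finsupp.mapDomain r D ∈ Divisor.degZero (K := k) (F := Ft) := by
  rw [Divisor.mem_degZero] at hD ⊢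
  rw [dsr_degree_mapDomain hdeg, hD]

theorem dsr_IsPlaceReduction.mapDomain_mem_principal (hr : dsr_IsPlaceReduction A π F Ft r)
    (hgen : dsr_PrincipalGeneratedByIntegral A π F Ft) {D : Divisor L F}
    (hD : D ∈ Divisor.principal (K := L) (F := F)) :
    Finsupp.mapDomain r D ∈ Divisor.principal (K := k) (F := Ft) := by
  have hD' := hgen hD
  clear hD
  induction hD' using AddSubgroup.closure_induction with
  | mem E hE => exact hr.isPrincipal_mapDomain hE
  | zero => rw [Finsupp.mapDomain_zero]; exact AddSubgroup.zero_mem _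
  | add E E' _ _ hE hE' => rw [Finsupp.mapDomain_add]; exact AddSubgroup.add_mem _ hE hE'
  | neg E _ hE =>
    rw [← Finsupp.mapDomain.addMonoidHom_apply, map_neg, Finsupp.mapDomain.addMonoidHom_apply]
    exact AddSubgroup.neg_mem _ hE

end SpecLemmas

section Descent

variable {L : Type*} [Field L] {A : ValuationSubring L}
variable {k : Type*} [Field k] {π : A →+* k}
variable {F : IntermediateField L (LaurentSeries L)} {Ft : IntermediateField k (LaurentSeries k)}
variable (r : Place L F → Place k Ft)

/-- the reduction of divisors along a place map -/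
def dsr_reductionDiv : Divisor L F →+ Divisor k Ft :=
  Finsupp.mapDomain.addMonoidHom r

@[simp]
theorem dsr_reductionDiv_apply (D : Divisor L F) :
    dsr_reductionDiv r D = Finsupp.mapDomain r D :=
  rfl

theorem dsr_reductionDiv_single (P : Place L F) (n : ℤ) :
    dsr_reductionDiv r (Finsupp.single P n) = Finsupp.single (r P) n :=
  Finsupp.mapDomain_single

/-- the reduction of divisors of degree zero -/
def dsr_reductionDegZero (hdeg : ∀ P, (r P).deg = P.deg) :
    Divisor.degZero (K := L) (F := F) →+ Divisor.degZero (K := k) (F := Ft) :=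
  ((dsr_reductionDiv r).domRestrict _).codRestrict _ fun D => dsr_mapDomain_mem_degZero hdeg D.2

@[simp]
theorem dsr_coe_reductionDegZero (hdeg : ∀ P, (r P).deg = P.deg)
    (D : Divisor.degZero (K := L) (F := F)) :
    (dsr_reductionDegZero r hdeg D : Divisor k Ft) = Finsupp.mapDomain r (D : Divisor L F) :=
  rfl

/-- the reduction of divisor classes along a place reduction -/
def dsr_reductionPic0 (hr : dsr_IsPlaceReduction A π F Ft r)
    (hgen : dsr_PrincipalGeneratedByIntegral A π F Ft) : Pic0 L F →+ Pic0 k Ft :=
  QuotientAddGroup.map _ _ (dsr_reductionDegZero r hr.1) (by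
    rintro ⟨D, hD0⟩ hD
    simp only [AddSubgroup.mem_addSubgroupOf] at hD ⊢
    exact hr.mapDomain_mem_principal hgen hD)

theorem dsr_reductionPic0_mk (hr : dsr_IsPlaceReduction A π F Ft r)
    (hgen : dsr_PrincipalGeneratedByIntegral A π F Ft)
    (D : Divisor.degZero (K := L) (F := F)) :
    dsr_reductionPic0 r hr hgen (Pic0.mk D) = Pic0.mk (dsr_reductionDegZero r hr.1 D) :=
  rfl

end Descent

section Total

variable {L : Type*} [Field L] (A : ValuationSubring L)
variable {k : Type*} [Field k] (π : A →+* k)
variable (F : IntermediateField L (LaurentSeries L)) (Ft : IntermediateField k (LaurentSeries k))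

open Classical in
/-- **the reduction map** `Pic⁰(F) → Pic⁰(Ft)` (zero if the inputs are missing) -/
def dsr_reduction : Pic0 L F →+ Pic0 k Ft :=
  if h : dsr_ReductionInputs A π F Ft then
    dsr_reductionPic0 h.choose h.choose_spec.1 h.choose_spec.2 else 0

variable {A π F Ft}

/-- the chosen place map -/
def dsr_placeReduction (h : dsr_ReductionInputs A π F Ft) : Place L F → Place k Ft :=
  h.choose

theorem dsr_isPlaceReduction (h : dsr_ReductionInputs A π F Ft) :
    dsr_IsPlaceReduction A π F Ft (dsr_placeReduction h) :=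
  h.choose_spec.1

theorem dsr_principalGenerated (h : dsr_ReductionInputs A π F Ft) :
    dsr_PrincipalGeneratedByIntegral A π F Ft :=
  h.choose_spec.2

theorem dsr_reduction_eq (h : dsr_ReductionInputs A π F Ft) :
    dsr_reduction A π F Ft =
      dsr_reductionPic0 (dsr_placeReduction h) (dsr_isPlaceReduction h)
        (dsr_principalGenerated h) := by
  rw [dsr_reduction, dif_pos h]
  rfl

theorem dsr_reduction_mk (h : dsr_ReductionInputs A π F Ft)
    (D : Divisor.degZero (K := L) (F := F)) :
    dsr_reduction A π F Ft (Pic0.mk D) =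
      Pic0.mk (dsr_reductionDegZero (dsr_placeReduction h) (dsr_isPlaceReduction h).1 D) := by
  rw [dsr_reduction_eq h]
  rfl

theorem dsr_reduction_of_not (h : ¬ dsr_ReductionInputs A π F Ft) :
    dsr_reduction A π F Ft = 0 := by
  rw [dsr_reduction, dif_neg h]

end Total

/-! ### the `Γ₀(N)` pair: the prelude's definitions -/

section GammaZero

variable {L : Type*} [Field L] [Algebra ℚ L] (A : ValuationSubring L)
variable {k : Type*} [Field k] (π : A →+* k) (N : ℕ)

theorem dsr_isPlaceReduction_iff
    (r : Place L (laurentBaseChange L (modularFunctionFieldFull N)) →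
      Place k (modularFunctionFieldFullC k N)) :
    dsr_IsPlaceReduction A π (laurentBaseChange L (modularFunctionFieldFull N))
      (modularFunctionFieldFullC k N) r ↔ IsPlaceReductionAlong A π N r :=
  Iff.rfl

theorem dsr_reductionInputs_iff :
    dsr_ReductionInputs A π (laurentBaseChange L (modularFunctionFieldFull N))
      (modularFunctionFieldFullC k N) ↔ ReductionInputsAlong A π N :=
  Iff.rfl

end GammaZero

end Fermat.Agent.DS

end
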