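/-
DS-T, cell [H1], file [R1]: the TRANSFER PRINCIPLE, generic in the pair of `q`-expansion fields
(twin of `JT3/ES/Transfer.lean`; `est_Riemann` and the rigidity lemma `rg_eq_on_degZero` are
generic and reused).

If two bounded additive maps `Θ₁` on `Div(F)` and `Θ₂` on `Div(Ft)` satisfy
`r_* (Θ₁ (div y)) = Θ₂ (div ȳ)` for every `q`-integral function `y` with `ȳ ≠ 0`, then
`r_* ∘ Θ₁ = Θ₂ ∘ r_*` on divisors of degree `0`, hence `red ∘ θ₁ = θ₂ ∘ red` on `Pic⁰`.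
-/
import Mathlib
import Fermat.Agent.JT3.ES.Transfer
import Fermat.Agent.DS.Hecke.RedDefs

set_option autoImplicit false
set_option synthInstance.maxHeartbeats 400000
set_option maxHeartbeats 1000000

noncomputable section

namespace Fermat.Agent.DS

open ModularCurve AlgebraicCurve HahnSeries Fermat.Agent.JT3

variable {L : Type*} [Field L] {A : ValuationSubring L}
variable {k : Type*} [Field k] {π : A →+* k}
variable {F : IntermediateField L (LaurentSeries L)} {Ft : IntermediateField k (LaurentSeries k)}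

/-- **Transfer, divisor level.** -/
theorem dsh_transfer (h : dsr_ReductionInputs A π F Ft) (hR : est_Riemann L F)
    (Θ₁ : Divisor L F →+ Divisor L F) (Θ₂ : Divisor k Ft →+ Divisor k Ft) (c : ℕ)
    (h₁ : ∀ v, rg_norm (Θ₁ (Finsupp.single v 1)) ≤ c)
    (h₂ : ∀ w, rg_norm (Θ₂ (Finsupp.single w 1)) ≤ c)
    (hS : ∀ (y : dsr_IntFun A π F Ft) (D : Divisor L F) (E : Divisor k Ft),
      (∀ P, D P = P.ord (dsr_gen y)) → (∀ Q, E Q = Q.ord (dsr_red y)) →
        Finsupp.mapDomain (dsr_placeReduction h) (Θ₁ D) = Θ₂ E) :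
    ∀ D ∈ Divisor.degZero (K := L) (F := F),
      Finsupp.mapDomain (dsr_placeReduction h) (Θ₁ D)
        = Θ₂ (Finsupp.mapDomain (dsr_placeReduction h) D) := by
  set r := dsr_placeReduction h with hr
  have hrp : dsr_IsPlaceReduction A π F Ft r := dsr_isPlaceReduction h
  have hgen : dsr_PrincipalGeneratedByIntegral A π F Ft := dsr_principalGenerated h
  obtain ⟨g, hg⟩ := hR.riemann
  obtain ⟨P₀⟩ := hR.nonempty
  have key := rg_eq_on_degZero
    ((Finsupp.mapDomain.addMonoidHom r).comp Θ₁) (Θ₂.comp (Finsupp.mapDomain.addMonoidHom r)) c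
    (fun v => by
      rw [AddMonoidHom.comp_apply, Finsupp.mapDomain.addMonoidHom_apply]
      exact (rg_norm_mapDomain_le r _).trans (h₁ v))
    (fun v => by
      rw [AddMonoidHom.comp_apply, Finsupp.mapDomain.addMonoidHom_apply,
        Finsupp.mapDomain_single]
      exact h₂ _)
    (dsr_integralPrincipalDivisors A π F Ft) hgen
    (by
      rintro D ⟨y, hy, hyk, hne, hDy⟩
      rw [AddMonoidHom.comp_apply, AddMonoidHom.comp_apply, Finsupp.mapDomain.addMonoidHom_apply,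
        Finsupp.mapDomain.addMonoidHom_apply]
      have hE : ∀ Q, Finsupp.mapDomain r D Q
          = Q.ord (dsr_red (⟨y, hy, hyk, hne⟩ : dsr_IntFun A π F Ft)) :=
        fun Q => hrp.2 y hy hyk hne D hDy Q
      exact hS ⟨y, hy, hyk, hne⟩ D (Finsupp.mapDomain r D) hDy hE)
    hR.deg_one P₀ g hR.prin hg
  intro D hD
  have := key D hD
  simpa [AddMonoidHom.comp_apply, Finsupp.mapDomain.addMonoidHom_apply] using this

/-- **Transfer, `Pic⁰` level.**  `θ₁` on `Pic⁰(F)` induced by `Θ₁`, `θ₂` on `Pic⁰(Ft)` induced by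
`Θ₂`: then `red ∘ θ₁ = θ₂ ∘ red`. -/
theorem dsh_transfer_pic0 (h : dsr_ReductionInputs A π F Ft) (hR : est_Riemann L F)
    (Θ₁ : Divisor L F →+ Divisor L F) (Θ₂ : Divisor k Ft →+ Divisor k Ft) (c : ℕ)
    (h₁ : ∀ v, rg_norm (Θ₁ (Finsupp.single v 1)) ≤ c)
    (h₂ : ∀ w, rg_norm (Θ₂ (Finsupp.single w 1)) ≤ c)
    (hS : ∀ (y : dsr_IntFun A π F Ft) (D : Divisor L F) (E : Divisor k Ft),
      (∀ P, D P = P.ord (dsr_gen y)) → (∀ Q, E Q = Q.ord (dsr_red y)) →
        Finsupp.mapDomain (dsr_placeReduction h) (Θ₁ D) = Θ₂ E)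
    (θ₁ : Pic0 L F →+ Pic0 L F)
    (hθ₁ : ∀ D : Divisor.degZero (K := L) (F := F),
      ∃ h' : Θ₁ (D : Divisor _ _) ∈ Divisor.degZero (K := L) (F := F),
        θ₁ (Pic0.mk D) = Pic0.mk ⟨Θ₁ D, h'⟩)
    (θ₂ : Pic0 k Ft →+ Pic0 k Ft)
    (hθ₂ : ∀ E : Divisor.degZero (K := k) (F := Ft),
      ∃ h' : Θ₂ (E : Divisor _ _) ∈ Divisor.degZero (K := k) (F := Ft),
        θ₂ (Pic0.mk E) = Pic0.mk ⟨Θ₂ E, h'⟩)
    (x : Pic0 L F) :
    dsr_reduction A π F Ft (θ₁ x) = θ₂ (dsr_reduction A π F Ft x) := by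
  obtain ⟨D, rfl⟩ := Pic0.mk_surjective x
  obtain ⟨h1, e1⟩ := hθ₁ D
  rw [e1, dsr_reduction_mk h, dsr_reduction_mk h]
  obtain ⟨h2, e2⟩ := hθ₂ (dsr_reductionDegZero (dsr_placeReduction h)
    (dsr_isPlaceReduction h).1 D)
  rw [e2]
  congr 1
  apply Subtype.ext
  rw [dsr_coe_reductionDegZero]
  exact dsh_transfer h hR Θ₁ Θ₂ c h₁ h₂ hS D D.2

end Fermat.Agent.DS

end
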