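/-
DS-T, cell [H1]: the TRANSFER PRINCIPLE RELATIVE TO A CLASS `𝒞` OF `q`-INTEGRAL FUNCTIONS.

For a diamond operator `δ = ⟨d⟩`, `d ≢ ±1`, the function `δ y` of a `q`-integral `y` need not be
`q`-integral (helper16, finding #1656: `δ y` is the expansion of `y` at another cusp).  So the
agreement hypothesis of `dsh_transfer` can only be checked on a class `𝒞 ⊆ dsr_IntFun` (e.g. the
functions integral over `A[j]` of Gauss norm one), and the principle needs that the divisors of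
the functions of `𝒞` generate the principal divisors (`dsh_ClassGenerates`).
-/
import Mathlib
import Fermat.Agent.DS.Hecke.Transfer

set_option autoImplicit false
set_option synthInstance.maxHeartbeats 400000
set_option maxHeartbeats 1000000

noncomputable section

namespace Fermat.Agent.DS

open ModularCurve AlgebraicCurve HahnSeries Fermat.Agent.JT3

variable {L : Type*} [Field L] {A : ValuationSubring L}
variable {k : Type*} [Field k] {π : A →+* k}
variable {F : IntermediateField L (LaurentSeries L)} {Ft : IntermediateField k (LaurentSeries k)}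

/-- the divisors of the functions of a class `𝒞` of `q`-integral functions -/
def dsh_classDivisors (𝒞 : Set (dsr_IntFun A π F Ft)) : Set (Divisor L F) :=
  {D | ∃ y ∈ 𝒞, ∀ P, D P = P.ord (dsr_gen y)}

/-- the divisors of the functions of `𝒞` generate the principal divisors -/
def dsh_ClassGenerates (𝒞 : Set (dsr_IntFun A π F Ft)) : Prop :=
  Divisor.principal (K := L) (F := F) ≤ AddSubgroup.closure (dsh_classDivisors 𝒞)

/-- the full class generates (this is part of `dsr_ReductionInputs`) -/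
theorem dsh_classGenerates_univ (h : dsr_ReductionInputs A π F Ft) :
    dsh_ClassGenerates (Set.univ : Set (dsr_IntFun A π F Ft)) := by
  refine (dsr_principalGenerated h).trans (AddSubgroup.closure_mono ?_)
  rintro D ⟨y, hy, hyk, hne, hD⟩
  exact ⟨⟨y, hy, hyk, hne⟩, Set.mem_univ _, hD⟩

theorem dsh_ClassGenerates.mono {𝒞 𝒞' : Set (dsr_IntFun A π F Ft)} (h𝒞 : dsh_ClassGenerates 𝒞)
    (hsub : 𝒞 ⊆ 𝒞') : dsh_ClassGenerates 𝒞' := by
  refine le_trans h𝒞 (AddSubgroup.closure_mono ?_)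
  rintro D ⟨y, hy, hD⟩
  exact ⟨y, hsub hy, hD⟩

/-- **Transfer relative to a class, divisor level.** -/
theorem dsh_transferC (h : dsr_ReductionInputs A π F Ft) (hR : est_Riemann L F)
    (𝒞 : Set (dsr_IntFun A π F Ft)) (h𝒞 : dsh_ClassGenerates 𝒞)
    (Θ₁ : Divisor L F →+ Divisor L F) (Θ₂ : Divisor k Ft →+ Divisor k Ft) (c : ℕ)
    (h₁ : ∀ v, rg_norm (Θ₁ (Finsupp.single v 1)) ≤ c)
    (h₂ : ∀ w, rg_norm (Θ₂ (Finsupp.single w 1)) ≤ c)
    (hS : ∀ y ∈ 𝒞, ∀ (D : Divisor L F) (E : Divisor k Ft),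
      (∀ P, D P = P.ord (dsr_gen y)) → (∀ Q, E Q = Q.ord (dsr_red y)) →
        Finsupp.mapDomain (dsr_placeReduction h) (Θ₁ D) = Θ₂ E) :
    ∀ D ∈ Divisor.degZero (K := L) (F := F),
      Finsupp.mapDomain (dsr_placeReduction h) (Θ₁ D)
        = Θ₂ (Finsupp.mapDomain (dsr_placeReduction h) D) := by
  set r := dsr_placeReduction h with hr
  have hrp : dsr_IsPlaceReduction A π F Ft r := dsr_isPlaceReduction h
  obtain ⟨g, hg⟩ := hR.riemann
  obtain ⟨P₀⟩ := hR.nonempty
  have key := rg_eq_on_degZero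
    ((Finsupp.mapDomain.addMonoidHom r).comp Θ₁) (Θ₂.comp (Finsupp.mapDomain.addMonoidHom r)) c
    (fun v => by
      rw [AddMonoidHom.comp_apply, Finsupp.mapDomain.addMonoidHom_apply]
      exact (rg_norm_mapDomain_le r _).trans (h₁ v))
    (fun v => by
      rw [AddMonoidHom.comp_apply, Finsupp.mapDomain.addMonoidHom_apply,
        Finsupp.mapDomain_single]
      exact h₂ _)
    (dsh_classDivisors 𝒞) h𝒞
    (by
      rintro D ⟨y, hy, hDy⟩
      rw [AddMonoidHom.comp_apply, AddMonoidHom.comp_apply, Finsupp.mapDomain.addMonoidHom_apply,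
        Finsupp.mapDomain.addMonoidHom_apply]
      have hE : ∀ Q, Finsupp.mapDomain r D Q = Q.ord (dsr_red y) :=
        fun Q => hrp.mapDomain_ord y D hDy Q
      exact hS y hy D (Finsupp.mapDomain r D) hDy hE)
    hR.deg_one P₀ g hR.prin hg
  intro D hD
  have := key D hD
  simpa [AddMonoidHom.comp_apply, Finsupp.mapDomain.addMonoidHom_apply] using this

/-- **Transfer relative to a class, `Pic⁰` level.** -/
theorem dsh_transferC_pic0 (h : dsr_ReductionInputs A π F Ft) (hR : est_Riemann L F)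
    (𝒞 : Set (dsr_IntFun A π F Ft)) (h𝒞 : dsh_ClassGenerates 𝒞)
    (Θ₁ : Divisor L F →+ Divisor L F) (Θ₂ : Divisor k Ft →+ Divisor k Ft) (c : ℕ)
    (h₁ : ∀ v, rg_norm (Θ₁ (Finsupp.single v 1)) ≤ c)
    (h₂ : ∀ w, rg_norm (Θ₂ (Finsupp.single w 1)) ≤ c)
    (hS : ∀ y ∈ 𝒞, ∀ (D : Divisor L F) (E : Divisor k Ft),
      (∀ P, D P = P.ord (dsr_gen y)) → (∀ Q, E Q = Q.ord (dsr_red y)) →
        Finsupp.mapDomain (dsr_placeReduction h) (Θ₁ D) = Θ₂ E)
    (θ₁ : Pic0 L F →+ Pic0 L F)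
    (hθ₁ : ∀ D : Divisor.degZero (K := L) (F := F),
      ∃ h' : Θ₁ (D : Divisor _ _) ∈ Divisor.degZero (K := L) (F := F),
        θ₁ (Pic0.mk D) = Pic0.mk ⟨Θ₁ D, h'⟩)
    (θ₂ : Pic0 k Ft →+ Pic0 k Ft)
    (hθ₂ : ∀ E : Divisor.degZero (K := k) (F := Ft),
      ∃ h' : Θ₂ (E : Divisor _ _) ∈ Divisor.degZero (K := k) (F := Ft),
        θ₂ (Pic0.mk E) = Pic0.mk ⟨Θ₂ E, h'⟩)
    (x : Pic0 L F) :
    dsr_reduction A π F Ft (θ₁ x) = θ₂ (dsr_reduction A π F Ft x) := by
  obtain ⟨D, rfl⟩ := Pic0.mk_surjective x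
  obtain ⟨h1, e1⟩ := hθ₁ D
  rw [e1, dsr_reduction_mk h, dsr_reduction_mk h]
  obtain ⟨h2, e2⟩ := hθ₂ (dsr_reductionDegZero (dsr_placeReduction h)
    (dsr_isPlaceReduction h).1 D)
  rw [e2]
  congr 1
  apply Subtype.ext
  rw [dsr_coe_reductionDegZero]
  exact dsh_transferC h hR 𝒞 h𝒞 Θ₁ Θ₂ c h₁ h₂ hS D D.2

end Fermat.Agent.DS

end
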