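/-
DS-T, cell [H1], files [H0]+[H1]: GENERIC DEGENERACY MAPS, HECKE CORRESPONDENCE, GALOIS COMMUTATION.

A *tower at `p`* is a pair `F₀ ≤ F₁` of `q`-expansion fields over `ℚ` with `f(q) ∈ F₀ ⟹ f(q^p) ∈ F₁`
(`Γ₀`: `F_N ⊂ F_{Np}`; `Γ₁`: `F1_M ⊂ F1_{M,p}`).  Over any `L ⊇ ℚ`:

* `dsh_alpha L T`, `dsh_beta L T : F →ₐ[L] F'` (inclusion, `q ↦ q^p`);
* `dsh_HeckeInputs L T`, `dsh_hecke L T : Pic0 L F →+ Pic0 L F` (`= α_* β^*`, zero if the inputs are
  missing), `dsh_hecke_eq`, `dsh_heckeDiv`, `dsh_hecke_mk`;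
* `dsh_intertwines_alpha/beta`, **`dsh_hecke_smul`** : `σ • T x = T (σ • x)` for the coefficientwise
  Galois action;
* `dsh_towerZero N ℓ` : the `Γ₀` tower; there `dsh_alpha = heckeAlphaBar`, `dsh_beta = heckeBetaBar`.
Prefix `dsh_`.
-/
import Mathlib
import Fermat.Prelude.Def_ModularCurve_HeckeOperatorTotal
import Fermat.Agent.JT3.ES.GaloisHecke

set_option autoImplicit false
set_option linter.unusedSectionVars false
set_option linter.style.haveILetI false

noncomputable section

namespace Fermat.Agent.DS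

open HahnSeries IntermediateField AlgebraicCurve ModularCurve Fermat.Agent.JT3

/-- a tower of `q`-expansion fields at `p` -/
structure dsh_Tower (p : ℕ) [NeZero p] where
  /-- the lower field -/
  F₀ : IntermediateField ℚ (LaurentSeries ℚ)
  /-- the upper field -/
  F₁ : IntermediateField ℚ (LaurentSeries ℚ)
  le : F₀ ≤ F₁
  qexp : ∀ y ∈ F₀, qExpand ℚ p y ∈ F₁

section Supply

variable {L : Type*} [Field L] [Algebra ℚ L]

theorem dsh_coeffMap_qExpand {R S : Type*} [CommRing R] [CommRing S] (f : R →+* S) (n : ℕ)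
    [NeZero n] (x : LaurentSeries R) : coeffMap f (qExpand R n x) = qExpand S n (coeffMap f x) := by
  ext k
  by_cases hk : (n : ℤ) ∣ k
  · obtain ⟨m, rfl⟩ := hk
    rw [coeffMap_coeff, qExpand_coeff_mul, qExpand_coeff_mul, coeffMap_coeff]
  · rw [coeffMap_coeff, qExpand_coeff_of_not_dvd n _ hk, qExpand_coeff_of_not_dvd n _ hk,
      map_zero]

variable (L) in
theorem dsh_laurentBaseChange_mono {F₀ F₁ : IntermediateField ℚ (LaurentSeries ℚ)}
    (h : F₀ ≤ F₁) : laurentBaseChange L F₀ ≤ laurentBaseChange L F₁ := by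
  rw [laurentBaseChange, IntermediateField.adjoin_le_iff]
  rintro _ ⟨y, hy, rfl⟩
  exact coeffEmb_mem_laurentBaseChange L (h hy)

theorem dsh_qExpand_mem_laurentBaseChange {F₀ : IntermediateField ℚ (LaurentSeries ℚ)} (n : ℕ)
    [NeZero n] {F₁ : IntermediateField ℚ (LaurentSeries ℚ)} (hF : ∀ y ∈ F₀, qExpand ℚ n y ∈ F₁)
    {x : LaurentSeries L} (hx : x ∈ laurentBaseChange L F₀) :
    qExpand L n x ∈ laurentBaseChange L F₁ := by
  rw [mem_laurentBaseChange_iff] at hx
  induction hx using Subfield.closure_induction with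
  | mem y hy =>
      rcases hy with ⟨a, rfl⟩ | ⟨z, hz, rfl⟩
      · rw [algebraMap_laurentSeries_eq_single, qExpand_single, mul_zero,
          ← algebraMap_laurentSeries_eq_single]
        exact (laurentBaseChange L F₁).algebraMap_mem _
      · have : qExpand L n (coeffEmb L z) = coeffEmb L (qExpand ℚ n z) :=
          (dsh_coeffMap_qExpand _ n z).symm
        rw [this]
        exact coeffEmb_mem_laurentBaseChange L (hF z hz)
  | one => simp
  | add x y _ _ hx hy => simpa using add_mem hx hy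
  | neg x _ hx => simpa using neg_mem hx
  | inv x _ hx => simpa using inv_mem hx
  | mul x y _ _ hx hy => simpa using mul_mem hx hy

end Supply

section Maps

variable (L : Type*) [Field L] [Algebra ℚ L] {p : ℕ} [NeZero p] (T : dsh_Tower p)

/-- the degeneracy map `α`: the inclusion -/
def dsh_alpha : laurentBaseChange L T.F₀ →ₐ[L] laurentBaseChange L T.F₁ :=
  IntermediateField.inclusion (dsh_laurentBaseChange_mono L T.le)

@[simp]
theorem dsh_coe_alpha (x : laurentBaseChange L T.F₀) :
    (dsh_alpha L T x : LaurentSeries L) = (x : LaurentSeries L) :=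
  IntermediateField.coe_inclusion _ x

/-- the degeneracy map `β`: `q ↦ q^p`, as a ring homomorphism -/
def dsh_betaRingHom : laurentBaseChange L T.F₀ →+* laurentBaseChange L T.F₁ where
  toFun x := ⟨qExpand L p (x : LaurentSeries L), dsh_qExpand_mem_laurentBaseChange p T.qexp x.2⟩
  map_one' := Subtype.ext (map_one (qExpand L p))
  map_mul' _ _ := Subtype.ext (map_mul (qExpand L p) _ _)
  map_zero' := Subtype.ext (map_zero (qExpand L p))
  map_add' _ _ := Subtype.ext (map_add (qExpand L p) _ _)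

/-- the degeneracy map `β`: `q ↦ q^p` -/
def dsh_beta : laurentBaseChange L T.F₀ →ₐ[L] laurentBaseChange L T.F₁ :=
  { dsh_betaRingHom L T with
    commutes' := fun a => Subtype.ext <| by
      show qExpand L p (algebraMap L (LaurentSeries L) a) = algebraMap L (LaurentSeries L) a
      rw [algebraMap_laurentSeries_eq_single, qExpand_single, mul_zero] }

@[simp]
theorem dsh_coe_beta (x : laurentBaseChange L T.F₀) :
    (dsh_beta L T x : LaurentSeries L) = qExpand L p (x : LaurentSeries L) :=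
  rfl

/-- the inputs of the prelude's correspondence calculus for `T_p = α_* β^*` -/
def dsh_HeckeInputs : Prop :=
  ∃ (_ : (dsh_alpha L T).toRingHom.IsIntegral) (hβ : (dsh_beta L T).toRingHom.IsIntegral)
    (_ : HasPrincipalDivisors L (laurentBaseChange L T.F₁))
    (hfin : FiniteAlong L (dsh_alpha L T)),
    FundamentalIdentityAlong L (dsh_beta L T) hβ ∧ NormFormulaAlong L (dsh_alpha L T) hfin

variable {L T}

theorem dsh_heckeInputs_intro (hα : (dsh_alpha L T).toRingHom.IsIntegral)
    (hβ : (dsh_beta L T).toRingHom.IsIntegral)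
    [hP : HasPrincipalDivisors L (laurentBaseChange L T.F₁)]
    (hFI : FundamentalIdentityAlong L (dsh_beta L T) hβ)
    (hfin : FiniteAlong L (dsh_alpha L T))
    (hN : NormFormulaAlong L (dsh_alpha L T) hfin) : dsh_HeckeInputs L T :=
  ⟨hα, hβ, hP, hfin, hFI, hN⟩

section Ops

variable (hα : (dsh_alpha L T).toRingHom.IsIntegral) (hβ : (dsh_beta L T).toRingHom.IsIntegral)
variable [HasPrincipalDivisors L (laurentBaseChange L T.F₁)]

/-- `T_p` on divisors -/
def dsh_heckeDiv : Divisor L (laurentBaseChange L T.F₀) →+ Divisor L (laurentBaseChange L T.F₀) :=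
  Divisor.correspondence (dsh_beta L T) (dsh_alpha L T) hβ hα

/-- `T_p` on `Pic⁰` -/
def dsh_heckePic0 (hFI : FundamentalIdentityAlong L (dsh_beta L T) hβ)
    (hfin : FiniteAlong L (dsh_alpha L T)) (hN : NormFormulaAlong L (dsh_alpha L T) hfin) :
    Pic0 L (laurentBaseChange L T.F₀) →+ Pic0 L (laurentBaseChange L T.F₀) :=
  Pic0.correspondence (dsh_beta L T) (dsh_alpha L T) hβ hα hFI hfin hN

end Ops

variable (L T)

open Classical in
/-- **the Hecke operator `T_p`** of a tower (zero if the inputs are missing) -/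
def dsh_hecke : Pic0 L (laurentBaseChange L T.F₀) →+ Pic0 L (laurentBaseChange L T.F₀) :=
  if h : dsh_HeckeInputs L T then
    haveI := h.snd.snd.fst
    dsh_heckePic0 h.fst h.snd.fst h.snd.snd.snd.snd.1 h.snd.snd.snd.fst h.snd.snd.snd.snd.2
  else 0

variable {L T}

theorem dsh_hecke_eq (hα : (dsh_alpha L T).toRingHom.IsIntegral)
    (hβ : (dsh_beta L T).toRingHom.IsIntegral)
    [HasPrincipalDivisors L (laurentBaseChange L T.F₁)]
    (hFI : FundamentalIdentityAlong L (dsh_beta L T) hβ)
    (hfin : FiniteAlong L (dsh_alpha L T))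
    (hN : NormFormulaAlong L (dsh_alpha L T) hfin) :
    dsh_hecke L T = dsh_heckePic0 hα hβ hFI hfin hN := by
  have h : dsh_HeckeInputs L T := dsh_heckeInputs_intro hα hβ hFI hfin hN
  rw [dsh_hecke, dif_pos h]

theorem dsh_hecke_of_not (h : ¬ dsh_HeckeInputs L T) : dsh_hecke L T = 0 := by
  rw [dsh_hecke, dif_neg h]

end Maps

/-! ### Galois commutation -/

section Galois

variable {L : Type*} [Field L] [Algebra ℚ L] {p : ℕ} [NeZero p] (T : dsh_Tower p)

/-- the coefficientwise Galois action commutes with the inclusion -/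
theorem dsh_intertwines_alpha (σ : L ≃ₐ[ℚ] L) :
    SemilinearAut.IntertwinesAlong
      ((dsh_alpha L T : laurentBaseChange L T.F₀ →ₐ[L] laurentBaseChange L T.F₁) :
        laurentBaseChange L T.F₀ →+* laurentBaseChange L T.F₁)
      (arithmeticGalois T.F₀ σ) (arithmeticGalois T.F₁ σ) := by
  intro x
  apply Subtype.ext
  show coeffMap (σ : L →+* L) ((dsh_alpha L T x : laurentBaseChange L T.F₁) : LaurentSeries L)
    = ((dsh_alpha L T (arithmeticGalois T.F₀ σ • x) : laurentBaseChange L T.F₁) :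
        LaurentSeries L)
  rw [dsh_coe_alpha, dsh_coe_alpha, coe_arithmeticGalois_smul]

/-- the coefficientwise Galois action commutes with `q ↦ q^p` -/
theorem dsh_intertwines_beta (σ : L ≃ₐ[ℚ] L) :
    SemilinearAut.IntertwinesAlong
      ((dsh_beta L T : laurentBaseChange L T.F₀ →ₐ[L] laurentBaseChange L T.F₁) :
        laurentBaseChange L T.F₀ →+* laurentBaseChange L T.F₁)
      (arithmeticGalois T.F₀ σ) (arithmeticGalois T.F₁ σ) := by
  intro x
  apply Subtype.ext
  show coeffMap (σ : L →+* L) ((dsh_beta L T x : laurentBaseChange L T.F₁) : LaurentSeries L)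
    = ((dsh_beta L T (arithmeticGalois T.F₀ σ • x) : laurentBaseChange L T.F₁) :
        LaurentSeries L)
  rw [dsh_coe_beta, dsh_coe_beta, coe_arithmeticGalois_smul, dsh_coeffMap_qExpand]

/-- **the Galois action commutes with `T_p`** (places of nonzero degree) -/
theorem dsh_hecke_smul (hdeg : ∀ v : Place L (laurentBaseChange L T.F₀), v.deg ≠ 0)
    (σ : L ≃ₐ[ℚ] L) (x : Pic0 L (laurentBaseChange L T.F₀)) :
    σ • dsh_hecke L T x = dsh_hecke L T (σ • x) := by
  by_cases hH : dsh_HeckeInputs L T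
  · obtain ⟨hα, hβ, hP, hfin, hFI, hN⟩ := hH
    haveI := hP
    rw [dsh_hecke_eq hα hβ hFI hfin hN]
    obtain ⟨D, rfl⟩ := Pic0.mk_surjective x
    set G := arithmeticGalois (L := L) T.F₀ σ with hG
    show G • dsh_heckePic0 hα hβ hFI hfin hN (Pic0.mk D)
      = dsh_heckePic0 hα hβ hFI hfin hN (G • Pic0.mk D)
    rw [SemilinearAut.pic0_smul_mk]
    show G • Pic0.mk (Pic0.degZeroCorrespondence _ _ hβ hα hFI D)
      = Pic0.mk (Pic0.degZeroCorrespondence _ _ hβ hα hFI (SemilinearAut.degZeroSMulHom G D))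
    rw [SemilinearAut.pic0_smul_mk]
    congr 1
    apply Subtype.ext
    show G • (Divisor.correspondence _ _ hβ hα (D : Divisor L (laurentBaseChange L T.F₀)))
      = Divisor.correspondence _ _ hβ hα (G • (D : Divisor L (laurentBaseChange L T.F₀)))
    exact (egh_correspondence_smul hβ hα (dsh_intertwines_beta T σ)
      (dsh_intertwines_alpha T σ) hdeg (D : Divisor L (laurentBaseChange L T.F₀))).symm
  · rw [dsh_hecke_of_not hH, AddMonoidHom.zero_apply, AddMonoidHom.zero_apply, smul_zero]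

end Galois

/-! ### the `Γ₀` tower -/

section GammaZero

variable (N ℓ : ℕ) [NeZero N] [NeZero ℓ]

/-- the tower `F_N ⊂ F_{Nℓ}` of `X₀` -/
def dsh_towerZero : dsh_Tower ℓ where
  F₀ := modularFunctionFieldFull N
  F₁ := modularFunctionFieldFull (N * ℓ)
  le := full_degeneracy_le (dvd_mul_right N ℓ)
  qexp := fun y hy => full_degeneracy_map_le (N := N) ℓ ⟨y, hy, rfl⟩

variable (L : Type*) [Field L] [Algebra ℚ L]

theorem dsh_alpha_towerZero : dsh_alpha L (dsh_towerZero N ℓ) = heckeAlphaBar L N ℓ := rfl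

theorem dsh_beta_towerZero : dsh_beta L (dsh_towerZero N ℓ) = heckeBetaBar L N ℓ := rfl

theorem dsh_heckeInputs_towerZero_iff :
    dsh_HeckeInputs L (dsh_towerZero N ℓ) ↔ HeckeInputsAlong L N ℓ := Iff.rfl

end GammaZero

end Fermat.Agent.DS

end
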