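/-
DS (Deligne–Serre) / DS-T / cell [H1], leaf [H0]-producers (helper24): THE INPUTS OF THE
CORRESPONDENCE CALCULUS, GENERICALLY.

Generic twin of `JT3/Hecke/InputsBar.lean` + `JT3/ES/RiemannFbar.lean`.  `K` algebraically closed of
characteristic zero; `F`, `F'` function fields over `K`; `φ : F →ₐ[K] F'`; `x : F` transcendental
with `F` finite over `K(x)` and `x' : F'` with `F'` finite over `K(x')`.  Then `φ` is finite,
integral, separable, and the prelude's `FundamentalIdentityAlong`, `NormFormulaAlong`,
`HasPrincipalDivisors` hold (relative place calculus `JT3/Places/{Tower,TowerNorm,TowerAlong}`,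
Riemann's theorem `JT3/Riemann/*` — both already generic).  For a tower `T : dsh_Tower p` this is
`dsh_HeckeInputs L T` (**`dsh_inp_heckeInputs`**), and `est_Riemann L F` (**`dsh_inp_riemann`**).
Prefix `dsh_inp_`.
-/
import Mathlib
import Fermat.Agent.DS.Hecke.Degeneracy
import Fermat.Agent.JT3.Places.TowerAlong
import Fermat.Agent.JT3.Places.CharFree
import Fermat.Agent.JT3.Riemann.Main
import Fermat.Agent.JT3.ES.Transfer

set_option autoImplicit false
set_option linter.unusedSectionVars false
set_option linter.style.haveILetI false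

namespace Fermat.Agent.DS

open AlgebraicCurve IntermediateField ModularCurve Fermat.Agent.JT3 Fermat.Agent.S24

section Generic

universe u v w

variable {K : Type u} {F : Type v} {F' : Type w} [Field K] [Field F] [Field F']
  [Algebra K F] [Algebra K F']

/-- the image of a transcendental element under a `K`-algebra homomorphism of fields is
transcendental -/
theorem dsh_inp_transcendental_map (φ : F →ₐ[K] F') {x : F} (hx : Transcendental K x) :
    Transcendental K (φ x) := fun h =>
  hx ((isAlgebraic_algHom_iff φ φ.injective).mp h)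

/-- `φ` is finite as soon as `F'` is a function field (finite over `K(x')` for some `x'`) and
`x : F` is transcendental. -/
theorem dsh_inp_finiteAlong (φ : F →ₐ[K] F') {x : F} (hx : Transcendental K x) (x' : F')
    [FiniteDimensional K⟮x'⟯ F'] : FiniteAlong K φ := by
  haveI : FiniteDimensional K⟮φ x⟯ F' :=
    hw_finiteDimensional_adjoin x' (dsh_inp_transcendental_map φ hx)
  exact ptw_finiteAlong_of_adjoin φ x

theorem dsh_inp_isIntegral (φ : F →ₐ[K] F') {x : F} (hx : Transcendental K x) (x' : F')
    [FiniteDimensional K⟮x'⟯ F'] : φ.toRingHom.IsIntegral :=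
  ptw_isIntegral_of_finiteAlong φ (dsh_inp_finiteAlong φ hx x')

variable [IsAlgClosed K] [CharZero K]

/-- `HasPrincipalDivisors` for a function field over an algebraically closed field of
characteristic zero -/
theorem dsh_inp_hasPrincipalDivisors {x : F} (hx : Transcendental K x)
    [FiniteDimensional K⟮x⟯ F] : HasPrincipalDivisors K F :=
  rt_hasPrincipalDivisors (rt_isSepGen_of_charZero hx)

/-- **`FundamentalIdentityAlong`**, generically -/
theorem dsh_inp_fundamentalIdentityAlong [HasPrincipalDivisors K F'] (φ : F →ₐ[K] F') {x : F}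
    (hx : Transcendental K x) [FiniteDimensional K⟮x⟯ F] (x' : F')
    [FiniteDimensional K⟮x'⟯ F'] :
    FundamentalIdentityAlong K φ (dsh_inp_isIntegral φ hx x') := by
  haveI : Algebra.IsAlgebraic K⟮x⟯ F := Algebra.IsAlgebraic.of_finite _ _
  haveI : Algebra.IsAlgebraic K⟮x'⟯ F' := Algebra.IsAlgebraic.of_finite _ _
  exact ptw_fundamentalIdentityAlong φ _ (dsh_inp_finiteAlong φ hx x')
    (ptw_separableAlong_of_charZero φ (dsh_inp_finiteAlong φ hx x')) x x'

/-- **`NormFormulaAlong`**, generically -/
theorem dsh_inp_normFormulaAlong [HasPrincipalDivisors K F'] (φ : F →ₐ[K] F') {x : F}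
    (hx : Transcendental K x) [FiniteDimensional K⟮x⟯ F] (x' : F')
    [FiniteDimensional K⟮x'⟯ F'] :
    NormFormulaAlong K φ (dsh_inp_finiteAlong φ hx x') := by
  haveI : Algebra.IsAlgebraic K⟮x⟯ F := Algebra.IsAlgebraic.of_finite _ _
  haveI : Algebra.IsAlgebraic K⟮x'⟯ F' := Algebra.IsAlgebraic.of_finite _ _
  exact ptw_normFormulaAlong φ (dsh_inp_finiteAlong φ hx x')
    (ptw_separableAlong_of_charZero φ (dsh_inp_finiteAlong φ hx x')) x x'

/-- **the Riemann package** `est_Riemann K F` of a function field over an algebraically closed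
field of characteristic zero (generic twin of `est_riemann_fbar`) -/
theorem dsh_inp_riemann {x : F} (hx : Transcendental K x) [FiniteDimensional K⟮x⟯ F] :
    est_Riemann K F := by
  have hsg : rt_IsSepGen K x := rt_isSepGen_of_charZero hx
  have : Algebra.IsSeparable K⟮x⟯ F := hsg.2.2
  refine ⟨fun v => rt_deg_eq_one hsg v, ?_, ?_, ?_⟩
  · obtain ⟨v, _⟩ := pcf_exists_pole (K := K) (F := F) hx
    exact ⟨v⟩
  · intro f hf
    exact (rt_hasPrincipalDivisors hsg).exists_divisor f hf
  · obtain ⟨g, hg⟩ := rt_exists_effective hsg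
    refine ⟨g, fun E hE => ?_⟩
    obtain ⟨D, hD0, _, f, hf, hDf⟩ := hg E (le_of_eq hE.symm)
    refine ⟨f, hf, fun v => ?_⟩
    have h1 := hDf v
    have h2 : (0 : ℤ) ≤ D v := Finsupp.le_def.mp hD0 v
    rw [Finsupp.sub_apply] at h1
    rw [← h1]
    linarith

end Generic

/-! ### towers -/

section Tower

variable (L : Type*) [Field L] [Algebra ℚ L] [IsAlgClosed L] [CharZero L]
  {p : ℕ} [NeZero p] (T : dsh_Tower p)

/-- **`dsh_HeckeInputs L T`** for a tower of function fields: `x` a transcendental element of the
lower field `F` with `F` finite over `L(x)`, `x'` an element of the upper field `F'` with `F'`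
finite over `L(x')` (e.g. `x = j`, `x' = j`). -/
theorem dsh_inp_heckeInputs {x : laurentBaseChange L T.F₀} (hx : Transcendental L x)
    [FiniteDimensional L⟮x⟯ (laurentBaseChange L T.F₀)] (x' : laurentBaseChange L T.F₁)
    [FiniteDimensional L⟮x'⟯ (laurentBaseChange L T.F₁)] : dsh_HeckeInputs L T := by
  have hx' : Transcendental L (dsh_alpha L T x) := dsh_inp_transcendental_map _ hx
  haveI : FiniteDimensional L⟮dsh_alpha L T x⟯ (laurentBaseChange L T.F₁) :=
    hw_finiteDimensional_adjoin x' hx'
  haveI : HasPrincipalDivisors L (laurentBaseChange L T.F₁) :=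
    dsh_inp_hasPrincipalDivisors hx'
  exact dsh_heckeInputs_intro (dsh_inp_isIntegral (dsh_alpha L T) hx x')
    (dsh_inp_isIntegral (dsh_beta L T) hx x')
    (dsh_inp_fundamentalIdentityAlong (dsh_beta L T) hx x')
    (dsh_inp_finiteAlong (dsh_alpha L T) hx x')
    (dsh_inp_normFormulaAlong (dsh_alpha L T) hx x')

/-- the Riemann package of the lower field of a tower -/
theorem dsh_inp_riemann_tower {x : laurentBaseChange L T.F₀} (hx : Transcendental L x)
    [FiniteDimensional L⟮x⟯ (laurentBaseChange L T.F₀)] :
    est_Riemann L (laurentBaseChange L T.F₀) :=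
  dsh_inp_riemann hx

end Tower

end Fermat.Agent.DS
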