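/-
DS-T, cell [H1]: THE `Γ₁(M)` INSTANCE OF THE TOWER, and `T_p` on `J₁(M)`.

The tower `F₁(M) = g1f_F M M ⊂ g1f_F M (M p)` (`X₁(M) ← X(Γ₁(M) ∩ Γ₀(p))`) of helper17's
`Gam1/Defs.lean`; `g1h_TJ M p : g1f_J M M →+ g1f_J M M` is the Hecke operator `α_* β^*`.
-/
import Mathlib
import Fermat.Agent.DS.Hecke.Degeneracy
import Fermat.Agent.DS.Gam1.Defs

set_option autoImplicit false
set_option synthInstance.maxHeartbeats 400000
set_option maxHeartbeats 1000000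

noncomputable section

namespace Fermat.Agent.DS

open ModularCurve AlgebraicCurve HahnSeries

/-- the tower `X(Γ₁(M) ∩ Γ₀(p)) → X₁(M)` -/
def dsh_towerOne (M p : ℕ) [NeZero p] : dsh_Tower p where
  F₀ := g1f_F M M
  F₁ := g1f_F M (M * p)
  le := g1f_FC_mono ℚ M (dvd_mul_right M p)
  qexp := fun _ hy => g1f_qExpand_mem ℚ M M hy

theorem dsh_towerOne_F₀ (M p : ℕ) [NeZero p] : (dsh_towerOne M p).F₀ = g1f_F M M := rfl

theorem dsh_towerOne_F₁ (M p : ℕ) [NeZero p] : (dsh_towerOne M p).F₁ = g1f_F M (M * p) := rfl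

theorem dsh_towerOne_Fbar (M p : ℕ) [NeZero p] :
    laurentBaseChange (AlgebraicClosure ℚ) (dsh_towerOne M p).F₀ = g1f_Fbar M M := rfl

/-- the coefficientwise Galois action on `g1f_J M N` (the prelude's, through the definition of
`g1f_Fbar`) -/
instance g1h_instGalois (M N : ℕ) :
    DistribMulAction (AlgebraicClosure ℚ ≃ₐ[ℚ] AlgebraicClosure ℚ) (g1f_J M N) :=
  inferInstanceAs (DistribMulAction (AlgebraicClosure ℚ ≃ₐ[ℚ] AlgebraicClosure ℚ)
    (Pic0 (AlgebraicClosure ℚ) (laurentBaseChange (AlgebraicClosure ℚ) (g1f_F M N))))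

theorem g1h_smul_def (M N : ℕ) (σ : AlgebraicClosure ℚ ≃ₐ[ℚ] AlgebraicClosure ℚ)
    (x : Pic0 (AlgebraicClosure ℚ) (laurentBaseChange (AlgebraicClosure ℚ) (g1f_F M N))) :
    (σ • (x : g1f_J M N) : g1f_J M N) = arithmeticGalois (g1f_F M N) σ • x := rfl

/-- **the Hecke operator `T_p` on `J₁(M)`** -/
def g1h_TJ (M p : ℕ) [NeZero p] : g1f_J M M →+ g1f_J M M :=
  dsh_hecke (AlgebraicClosure ℚ) (dsh_towerOne M p)

/-- the Galois action commutes with `T_p` on `J₁(M)` -/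
theorem g1h_TJ_smul (M p : ℕ) [NeZero p]
    (hdeg : ∀ v : Place (AlgebraicClosure ℚ) (g1f_Fbar M M), v.deg ≠ 0)
    (σ : AlgebraicClosure ℚ ≃ₐ[ℚ] AlgebraicClosure ℚ) (x : g1f_J M M) :
    σ • g1h_TJ M p x = g1h_TJ M p (σ • x) :=
  dsh_hecke_smul (dsh_towerOne M p) hdeg σ x

end Fermat.Agent.DS

end
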