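/-
DS (Deligne–Serre) / DS-T / cell [H1], leaf "Γ₁ swap" (helper24), MATRIX HALF.

For `p d − M k = 1` the matrix `W = [[p, k], [M p, p d]]` (determinant `p`) satisfies, for `e e' = M`,
  `diag(e,1) W   = γ₁ diag(p e,1)`,  `γ₁ = [[1, e k], [e', p d]] ∈ SL(2,ℤ)`,
  `diag(p e,1) W = p · γ₂ diag(e,1)`, `γ₂ = [[p, e k], [e', d]] ∈ SL(2,ℤ)`.
For `e = 1`: `γ₁ = [[1,k],[M,p d]] ∈ Γ₁(M)` and `γ₂ = σ = [[p,k],[M,d]] ∈ Γ₀(M)` with `σ₀₀ = p`.  Hence

* `dsh_sw_jd_comp1/2` : `j(e · Wτ) = j(p e τ)`, `j(p e · Wτ) = j(e τ)`;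
* `dsh_sw_W_comp1`    : `W_a(Wτ) = W_a(p τ)`;
* `dsh_sw_W_comp2`    : `W_a(p · Wτ) = W_{a p}(τ)` (the diamond `⟨p⟩`).
Prefix `dsh_sw_`.
-/
import Mathlib
import Fermat.Agent.DS.Gam1.GenAn
import Fermat.Agent.S24.WeakModFun

set_option autoImplicit false
set_option linter.unusedSectionVars false
set_option linter.style.haveILetI false
set_option linter.unusedVariables false

namespace Fermat.Agent.DS

open UpperHalfPlane Matrix ModularCurve CongruenceSubgroup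
open Fermat.Agent.S24 Fermat.Agent.S23
open scoped MatrixGroups

noncomputable section

section Matrix

variable (M p : ℕ) [NeZero p] (k d : ℤ)

/-- the swap matrix `[[p, k], [M p, p d]]` (`p d - M k = 1`), of determinant `p` -/
def dsh_sw_mat (h : (p : ℤ) * d - M * k = 1) : GL (Fin 2) ℝ :=
  Matrix.GeneralLinearGroup.mkOfDetNeZero !![(p : ℝ), (k : ℝ); (M : ℝ) * p, (p : ℝ) * d] (by
    rw [Matrix.det_fin_two_of]
    have h' : (p : ℝ) * d - M * k = 1 := by exact_mod_cast h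
    have hp : (p : ℝ) ≠ 0 := by exact_mod_cast NeZero.ne p
    have : (p : ℝ) * (p * d) - k * (M * p) = p := by linear_combination (p : ℝ) * h'
    rw [this]; exact hp)

variable {M p k d}

theorem dsh_sw_det_mat (h : (p : ℤ) * d - M * k = 1) : (dsh_sw_mat M p k d h).det.val = (p : ℝ) := by
  have h' : (p : ℝ) * d - M * k = 1 := by exact_mod_cast h
  simp only [dsh_sw_mat, Matrix.GeneralLinearGroup.mkOfDetNeZero,
    Matrix.GeneralLinearGroup.val_det_apply]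
  change (!![(p : ℝ), (k : ℝ); (M : ℝ) * p, (p : ℝ) * d]).det = p
  rw [Matrix.det_fin_two_of]
  linear_combination (p : ℝ) * h'

theorem dsh_sw_coe_mat_smul (h : (p : ℤ) * d - M * k = 1) (z : ℍ) :
    ((dsh_sw_mat M p k d h • z : ℍ) : ℂ) =
      ((p : ℂ) * z + k) / ((M : ℂ) * p * z + (p : ℂ) * d) := by
  have hdet : 0 < (dsh_sw_mat M p k d h).det.val := by
    rw [dsh_sw_det_mat]; exact_mod_cast Nat.pos_of_ne_zero (NeZero.ne p)
  rw [UpperHalfPlane.coe_smul_of_det_pos hdet]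
  simp [UpperHalfPlane.num, UpperHalfPlane.denom, dsh_sw_mat]

theorem dsh_sw_denom_ne_zero (h : (p : ℤ) * d - M * k = 1) (z : ℍ) :
    (M : ℂ) * p * z + (p : ℂ) * d ≠ 0 := by
  have := UpperHalfPlane.denom_ne_zero (dsh_sw_mat M p k d h) z
  simpa [UpperHalfPlane.denom, dsh_sw_mat] using this

/-- `γ₁ = [[1, e k], [e', p d]] ∈ SL(2,ℤ)` -/
def dsh_sw_gam1 (e e' : ℕ) (hM : M = e * e') (h : (p : ℤ) * d - M * k = 1) : SL(2, ℤ) :=
  mkSL 1 ((e : ℤ) * k) (e' : ℤ) ((p : ℤ) * d) (by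
    subst hM
    push_cast at h
    linear_combination h)

/-- `γ₂ = [[p, e k], [e', d]] ∈ SL(2,ℤ)` -/
def dsh_sw_gam2 (e e' : ℕ) (hM : M = e * e') (h : (p : ℤ) * d - M * k = 1) : SL(2, ℤ) :=
  mkSL (p : ℤ) ((e : ℤ) * k) (e' : ℤ) d (by
    subst hM
    push_cast at h
    linear_combination h)

theorem dsh_sw_smul_eq1 (e e' : ℕ) [NeZero e] [NeZero (p * e)] (hM : M = e * e')
    (h : (p : ℤ) * d - M * k = 1) (z : ℍ) :
    alphaN e • (dsh_sw_mat M p k d h • z) = dsh_sw_gam1 e e' hM h • (alphaN (p * e) • z) := by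
  apply UpperHalfPlane.ext
  have hden := dsh_sw_denom_ne_zero h z
  rw [coe_alphaN_smul, dsh_sw_coe_mat_smul, UpperHalfPlane.coe_specialLinearGroup_apply,
    coe_alphaN_smul]
  simp only [dsh_sw_gam1, mkSL, Matrix.SpecialLinearGroup.coe_mk, Matrix.of_apply,
    Matrix.cons_val', Matrix.cons_val_zero, Matrix.cons_val_one, Matrix.empty_val',
    Matrix.cons_val_fin_one, algebraMap_int_eq, Int.coe_castRingHom]
  have hM' : (M : ℂ) = e * e' := by exact_mod_cast hM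
  rw [hM'] at hden ⊢
  push_cast
  have hden' : (e' : ℂ) * ((p : ℂ) * e * (z : ℂ)) + (p : ℂ) * d ≠ 0 := by
    have : (e' : ℂ) * ((p : ℂ) * e * (z : ℂ)) + (p : ℂ) * d
        = (e : ℂ) * e' * p * z + (p : ℂ) * d := by
      ring
    rw [this]; exact hden
  rw [mul_div_assoc', div_eq_div_iff hden hden']
  ring

theorem dsh_sw_smul_eq2 (e e' : ℕ) [NeZero e] [NeZero (p * e)] (hM : M = e * e')
    (h : (p : ℤ) * d - M * k = 1) (z : ℍ) :
    alphaN (p * e) • (dsh_sw_mat M p k d h • z) = dsh_sw_gam2 e e' hM h • (alphaN e • z) := by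
  apply UpperHalfPlane.ext
  have hden := dsh_sw_denom_ne_zero h z
  rw [coe_alphaN_smul, dsh_sw_coe_mat_smul, UpperHalfPlane.coe_specialLinearGroup_apply,
    coe_alphaN_smul]
  simp only [dsh_sw_gam2, mkSL, Matrix.SpecialLinearGroup.coe_mk, Matrix.of_apply,
    Matrix.cons_val', Matrix.cons_val_zero, Matrix.cons_val_one, Matrix.empty_val',
    Matrix.cons_val_fin_one, algebraMap_int_eq, Int.coe_castRingHom]
  have hM' : (M : ℂ) = e * e' := by exact_mod_cast hM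
  rw [hM'] at hden ⊢
  have hp0 : (p : ℂ) ≠ 0 := by exact_mod_cast NeZero.ne p
  push_cast
  have hden' : (e' : ℂ) * ((e : ℂ) * (z : ℂ)) + (d : ℂ) ≠ 0 := by
    intro h0
    apply hden
    linear_combination (p : ℂ) * h0
  rw [mul_div_assoc', div_eq_div_iff hden hden']
  ring

theorem dsh_sw_jd_comp1 (e e' : ℕ) [NeZero e] [NeZero (p * e)] (hM : M = e * e')
    (h : (p : ℤ) * d - M * k = 1) (z : ℍ) :
    jd e (dsh_sw_mat M p k d h • z) = jd (p * e) z := by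
  rw [jd, dsh_sw_smul_eq1 e e' hM h z, kleinJ_smul, jd]

theorem dsh_sw_jd_comp2 (e e' : ℕ) [NeZero e] [NeZero (p * e)] (hM : M = e * e')
    (h : (p : ℤ) * d - M * k = 1) (z : ℍ) :
    jd (p * e) (dsh_sw_mat M p k d h • z) = jd e z := by
  rw [jd, dsh_sw_smul_eq2 e e' hM h z, kleinJ_smul, jd]

theorem dsh_sw_alphaN_one_smul (z : ℍ) : (alphaN 1 • z : ℍ) = z := by
  apply UpperHalfPlane.ext
  rw [coe_alphaN_smul]; simp

/-- `γ₁` at `e = 1` lies in `Γ₀(M)` with upper left entry `1` -/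
theorem dsh_sw_gam1_mem (h : (p : ℤ) * d - M * k = 1) :
    dsh_sw_gam1 1 M (by simp) h ∈ Gamma0 M := by
  rw [Gamma0_mem]
  simp [dsh_sw_gam1, mkSL]

/-- `γ₂` at `e = 1` lies in `Γ₀(M)` with upper left entry `p` -/
theorem dsh_sw_gam2_mem (h : (p : ℤ) * d - M * k = 1) :
    dsh_sw_gam2 1 M (by simp) h ∈ Gamma0 M := by
  rw [Gamma0_mem]
  simp [dsh_sw_gam2, mkSL]

/-- `W_a(Wτ) = W_a(p τ)` -/
theorem dsh_sw_W_comp1 (a : ZMod M) (h : (p : ℤ) * d - M * k = 1) (z : ℍ) :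
    g1a_Wq M a 1 (dsh_sw_mat M p k d h • z) = g1a_Wq M a p z := by
  haveI : NeZero (p * 1) := ⟨by rw [mul_one]; exact NeZero.ne p⟩
  have h1 := dsh_sw_smul_eq1 (M := M) (p := p) (k := k) (d := d) 1 M (by simp) h z
  rw [g1a_Wq, h1, g1a_W_smul_Gamma0 M a (dsh_sw_gam1_mem h)]
  have h00 : ((dsh_sw_gam1 (M := M) (p := p) (k := k) (d := d) 1 M (by simp) h) 0 0 : ℤ) = 1 := by
    simp [dsh_sw_gam1, mkSL]
  rw [h00, Int.cast_one, mul_one, g1a_Wq]
  congr 2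
  simp

/-- `W_a(p · Wτ) = W_{a p}(τ)` -/
theorem dsh_sw_W_comp2 (a : ZMod M) (h : (p : ℤ) * d - M * k = 1) (z : ℍ) :
    g1a_Wq M a p (dsh_sw_mat M p k d h • z) = g1a_Wq M (a * (p : ZMod M)) 1 z := by
  haveI : NeZero (p * 1) := ⟨by rw [mul_one]; exact NeZero.ne p⟩
  have h1 := dsh_sw_smul_eq2 (M := M) (p := p) (k := k) (d := d) 1 M (by simp) h z
  have e1 : (alphaN p • (dsh_sw_mat M p k d h • z) : ℍ)
      = alphaN (p * 1) • (dsh_sw_mat M p k d h • z) := by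
    congr 2
    simp
  rw [g1a_Wq, e1, h1, g1a_W_smul_Gamma0 M a (dsh_sw_gam2_mem h)]
  have h00 : ((dsh_sw_gam2 (M := M) (p := p) (k := k) (d := d) 1 M (by simp) h) 0 0 : ℤ) = p := by
    simp [dsh_sw_gam2, mkSL]
  rw [h00, Int.cast_natCast, g1a_Wq]

end Matrix

end

end Fermat.Agent.DS
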