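/-
DS (Deligne–Serre) / DS-T / cell [H1], leaf "Γ₁ swap" (helper24): THE SWAP EMBEDDING FOR THE `Γ₁(M)`
TOWER `F̄1_M ⊂ F̄1_{M,p}`, `p ∤ M` prime (twin of `JT3/NL/Swap.lean`).

For `p d − M k = 1` precomposition with `W = [[p, k], [M p, p d]]` (`SwapG1Mat.lean`) permutes the
generators of `A' = Q̄[j(q^e), w_a(q), w_a(q^p)] = g1i_A K M (M p)`:
  `j(q^e) ↦ j(q^{p e})`, `j(q^{p e}) ↦ j(q^e)` (`e ∣ M`), `w_a(q) ↦ w_a(q^p)`, `w_a(q^p) ↦ w_{a p}(q)`.
Through the injective analytic realisation `g1i_an` this defines an injective `Q̄`-algebra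
endomorphism `dsh_sw_W0` of `A'` and `dsh_sw_W` of its fraction field `g1i_F K M (M p)`, with

* `dsh_sw_W_alpha` : `W (x) = x(q^p)` for `x ∈ F̄1_M`;
* `dsh_sw_W_beta`  : `W (y(q^p)) = δ y` for `y ∈ F̄1_M` and EVERY ring endomorphism `δ` of `F̄1_M`
  which fixes `Q̄` and the `j(q^e)`, `e ∣ M`, and maps `w_a ↦ w_{a p}` (the diamond operator `⟨p⟩`);
* `dsh_sw_tower M p : dsh_Tower p` (the `Γ₁` tower) and **`dsh_sw_swap`** : the hypotheses
  `hwα`, `hwβ` of `dsh_nl_seam` for this tower.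
Prefix `dsh_sw_`.
-/
import Mathlib
import Fermat.Agent.DS.Hecke.SwapG1Mat
import Fermat.Agent.DS.Gam1.Inst
import Fermat.Agent.DS.Hecke.Degeneracy

set_option autoImplicit false
set_option linter.unusedSectionVars false
set_option linter.style.haveILetI false
set_option linter.unusedVariables false

namespace Fermat.Agent.DS

open UpperHalfPlane Matrix ModularCurve CongruenceSubgroup
open Fermat.Agent.S24 Fermat.Agent.S24.Br Fermat.Agent.S23
open scoped MatrixGroups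

noncomputable section


/-! ### monotonicity of the coordinate rings -/

variable (K : Type) [Field K] [Algebra ℚ K]

section Mono

theorem dsh_sw_gens_mono (M : ℕ) {N N' : ℕ} (h : N ∣ N') :
    g1f_gens K M N ⊆ g1f_gens K M N' := by
  rintro x (⟨d, hne, hdvd, rfl⟩ | ⟨e, hne, a, he, rfl⟩)
  · exact Or.inl ⟨d, hne, hdvd.trans h, rfl⟩
  · exact Or.inr ⟨e, hne, a, he.trans h, rfl⟩

theorem dsh_sw_A_mono (M : ℕ) {N N' : ℕ} (h : N ∣ N') : g1i_A K M N ≤ g1i_A K M N' :=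
  Algebra.adjoin_mono (dsh_sw_gens_mono K M h)

/-- `q ↦ q^ℓ` maps the coordinate ring of level `N` into the one of level `N ℓ` -/
theorem dsh_sw_qExpand_mem_A (M N ℓ : ℕ) [NeZero ℓ] {x : LaurentSeries K}
    (hx : x ∈ g1i_A K M N) : qExpand K ℓ x ∈ g1i_A K M (N * ℓ) := by
  induction hx using Algebra.adjoin_induction with
  | mem y hy =>
    rcases hy with ⟨d, hne, hdvd, rfl⟩ | ⟨e, hne, a, he, rfl⟩
    · haveI := hne
      rw [qExpand_qExpand]
      exact Algebra.subset_adjoin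
        (g1f_jd_mem_gens (by rw [mul_comm]; exact Nat.mul_dvd_mul_right hdvd ℓ))
    · haveI := hne
      rw [qExpand_qExpand]
      refine Algebra.subset_adjoin (g1f_w_mem_gens ?_ a)
      rw [mul_assoc, mul_comm N ℓ]
      exact Nat.mul_dvd_mul_left ℓ he
  | algebraMap r =>
    rw [algebraMap_laurentSeries_eq_single, qExpand_single, mul_zero,
      ← algebraMap_laurentSeries_eq_single]
    exact Subalgebra.algebraMap_mem _ r
  | add x y _ _ hx hy => rw [map_add]; exact add_mem hx hy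
  | mul x y _ _ hx hy => rw [map_mul]; exact mul_mem hx hy

end Mono

/-! ### the swap on the coordinate ring -/

variable {K} [Algebra K ℂ]

section Swap0

variable {M p : ℕ} [NeZero M] [NeZero p]

theorem dsh_sw_exists_bezout (hp : p.Prime) (hpM : ¬ p ∣ M) :
    ∃ d k : ℤ, (p : ℤ) * d - M * k = 1 := by
  have hcop : Nat.Coprime p M := (Nat.Prime.coprime_iff_not_dvd hp).mpr hpM
  have h := Int.gcd_eq_gcd_ab (p : ℤ) (M : ℤ)
  rw [Int.gcd_natCast_natCast, hcop] at h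
  refine ⟨Int.gcdA p M, -Int.gcdB p M, ?_⟩
  push_cast at h
  linarith

theorem dsh_sw_dvd_cases (hp : p.Prime) (hpM : ¬ p ∣ M) {d : ℕ} (hd : d ∣ M * p) :
    (d ∣ M) ∨ ∃ e, d = p * e ∧ e ∣ M := by
  by_cases hpd : p ∣ d
  · obtain ⟨e, rfl⟩ := hpd
    right
    refine ⟨e, rfl, ?_⟩
    rw [mul_comm M p] at hd
    exact Nat.dvd_of_mul_dvd_mul_left hp.pos hd
  · left
    have hcop : Nat.Coprime d p := (Nat.Coprime.symm ((Nat.Prime.coprime_iff_not_dvd hp).mpr hpd))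
    exact hcop.dvd_of_dvd_mul_right hd

theorem dsh_sw_w_cases (hp : p.Prime) {e : ℕ} (he : e * M ∣ M * p) : e = 1 ∨ e = p := by
  rw [mul_comm M p] at he
  have : e ∣ p := Nat.dvd_of_mul_dvd_mul_right (Nat.pos_of_ne_zero (NeZero.ne M)) he
  exact (Nat.dvd_prime hp).mp this

theorem dsh_sw_w_level (M : ℕ) [NeZero M] {e : ℕ} (he : e * M ∣ M) : e = 1 := by
  have h1 : e * M ∣ 1 * M := by rwa [one_mul]
  have : e ∣ 1 := Nat.dvd_of_mul_dvd_mul_right (Nat.pos_of_ne_zero (NeZero.ne M)) h1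
  exact Nat.dvd_one.mp this

/-- the class of `p` as a unit modulo `M` -/
def dsh_sw_unit (hp : p.Prime) (hpM : ¬ p ∣ M) : (ZMod M)ˣ :=
  ZMod.unitOfCoprime p ((Nat.Prime.coprime_iff_not_dvd hp).mpr hpM)

theorem dsh_sw_coe_unit (hp : p.Prime) (hpM : ¬ p ∣ M) :
    ((dsh_sw_unit hp hpM : (ZMod M)ˣ) : ZMod M) = (p : ZMod M) :=
  ZMod.coe_unitOfCoprime p _

theorem dsh_sw_one_mul_dvd (M p : ℕ) : 1 * M ∣ M * p := by
  rw [one_mul]; exact dvd_mul_right M p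

theorem dsh_sw_p_mul_dvd (M p : ℕ) : p * M ∣ M * p := by
  rw [mul_comm]

variable {k d : ℤ} (h : (p : ℤ) * d - M * k = 1) (hM : M ≠ 1)

/-- every element of `A'` has a swap transform in `A'` -/
theorem dsh_sw_exists_comp (hp : p.Prime) (hpM : ¬ p ∣ M) {x : LaurentSeries K}
    (hx : x ∈ g1i_A K M (M * p)) :
    ∃ x' : g1i_A K M (M * p), ∀ z : ℍ,
      g1i_an K hM x' z = g1i_an K hM ⟨x, hx⟩ (dsh_sw_mat M p k d h • z) := by
  induction hx using Algebra.adjoin_induction with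
  | mem y hy =>
    rcases hy with ⟨c, hc, hcN, rfl⟩ | ⟨e, he, a, heN, rfl⟩
    · haveI := hc
      rcases dsh_sw_dvd_cases hp hpM hcN with hcM | ⟨e, rfl, heM⟩
      · obtain ⟨e', he'⟩ := hcM
        haveI : NeZero (p * c) := ⟨Nat.mul_ne_zero (NeZero.ne p) (NeZero.ne c)⟩
        have hpc : p * c ∣ M * p := by
          rw [mul_comm M p]; exact Nat.mul_dvd_mul_left p ⟨e', he'⟩
        refine ⟨g1i_jd K M (p * c) hpc, fun z => ?_⟩
        have e2 : g1i_an K hM ⟨qExpand K c (jqModC K),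
            Algebra.subset_adjoin (Or.inl ⟨c, hc, hcN, rfl⟩)⟩ = jd c := g1i_an_jd K hM c hcN
        rw [g1i_an_jd K hM (p * c) hpc, e2, dsh_sw_jd_comp1 c e' he' h z]
      · obtain ⟨e', he'⟩ := heM
        haveI : NeZero e := ⟨fun h0 => by subst h0; exact NeZero.ne (p * 0) (by simp)⟩
        have heN : e ∣ M * p := Dvd.dvd.mul_right ⟨e', he'⟩ p
        refine ⟨g1i_jd K M e heN, fun z => ?_⟩
        have e2 : g1i_an K hM ⟨qExpand K (p * e) (jqModC K),
            Algebra.subset_adjoin (Or.inl ⟨p * e, hc, hcN, rfl⟩)⟩ = jd (p * e) :=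
          g1i_an_jd K hM (p * e) hcN
        rw [g1i_an_jd K hM e heN, e2, dsh_sw_jd_comp2 e e' he' h z]
    · haveI := he
      rcases dsh_sw_w_cases hp heN with rfl | rfl
      · refine ⟨g1i_wq K p (dsh_sw_p_mul_dvd M p) a, fun z => ?_⟩
        have e2 : g1i_an K hM ⟨qExpand K 1 (g1w_w K M (a : ZMod M)),
            Algebra.subset_adjoin (Or.inr ⟨1, he, a, heN, rfl⟩)⟩ = g1a_Wq M (a : ZMod M) 1 :=
          g1i_an_wq K hM 1 heN a
        rw [g1i_an_wq K hM p (dsh_sw_p_mul_dvd M p) a, e2, dsh_sw_W_comp1 (a : ZMod M) h z]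
      · refine ⟨g1i_wq K 1 (dsh_sw_one_mul_dvd M e) (a * dsh_sw_unit hp hpM), fun z => ?_⟩
        have e2 : g1i_an K hM ⟨qExpand K e (g1w_w K M (a : ZMod M)),
            Algebra.subset_adjoin (Or.inr ⟨e, he, a, heN, rfl⟩)⟩ = g1a_Wq M (a : ZMod M) e :=
          g1i_an_wq K hM e heN a
        rw [g1i_an_wq K hM 1 (dsh_sw_one_mul_dvd M e) (a * dsh_sw_unit hp hpM), e2,
          dsh_sw_W_comp2 (a : ZMod M) h z, Units.val_mul, dsh_sw_coe_unit]
  | algebraMap r =>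
    refine ⟨algebraMap K (g1i_A K M (M * p)) r, fun z => ?_⟩
    have e1 := g1i_an_algebraMap K (N := M * p) hM r
    rw [e1]
    change _ = g1i_an K hM (algebraMap K (g1i_A K M (M * p)) r) _
    rw [e1]
  | add x y hx hy ihx ihy =>
    obtain ⟨x', hx'⟩ := ihx
    obtain ⟨y', hy'⟩ := ihy
    refine ⟨x' + y', fun z => ?_⟩
    rw [map_add]
    change g1i_an K hM x' z + g1i_an K hM y' z = _
    rw [hx' z, hy' z]
    change _ = g1i_an K hM (⟨x, hx⟩ + ⟨y, hy⟩) _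
    rw [map_add]
    rfl
  | mul x y hx hy ihx ihy =>
    obtain ⟨x', hx'⟩ := ihx
    obtain ⟨y', hy'⟩ := ihy
    refine ⟨x' * y', fun z => ?_⟩
    rw [map_mul]
    change g1i_an K hM x' z * g1i_an K hM y' z = _
    rw [hx' z, hy' z]
    change _ = g1i_an K hM (⟨x, hx⟩ * ⟨y, hy⟩) _
    rw [map_mul]
    rfl

end Swap0

/-! ### the swap as an endomorphism of the coordinate ring -/

section Swap1

variable {M p : ℕ} [NeZero M] [NeZero p] {k d : ℤ} (h : (p : ℤ) * d - M * k = 1) (hM : M ≠ 1)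
  (hp : p.Prime) (hpM : ¬ p ∣ M)

/-- the swap transform on `A'`, as a function -/
def dsh_sw_W0fun (x : g1i_A K M (M * p)) : g1i_A K M (M * p) :=
  (dsh_sw_exists_comp h hM hp hpM x.2).choose

theorem dsh_sw_W0fun_spec (x : g1i_A K M (M * p)) (z : ℍ) :
    g1i_an K hM (dsh_sw_W0fun h hM hp hpM x) z = g1i_an K hM x (dsh_sw_mat M p k d h • z) :=
  (dsh_sw_exists_comp h hM hp hpM x.2).choose_spec z

theorem dsh_sw_W0fun_eq (x x' : g1i_A K M (M * p))
    (hx' : ∀ z : ℍ, g1i_an K hM x' z = g1i_an K hM x (dsh_sw_mat M p k d h • z)) :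
    dsh_sw_W0fun h hM hp hpM x = x' := by
  apply g1i_an_injective K hM
  funext z
  rw [dsh_sw_W0fun_spec, hx']

/-- the swap transform on `A'`, as an algebra endomorphism -/
def dsh_sw_W0 : g1i_A K M (M * p) →ₐ[K] g1i_A K M (M * p) where
  toFun := dsh_sw_W0fun h hM hp hpM
  map_one' := dsh_sw_W0fun_eq h hM hp hpM _ _ fun z => by
    rw [map_one]; rfl
  map_mul' x y := dsh_sw_W0fun_eq h hM hp hpM _ _ fun z => by
    rw [map_mul, map_mul]
    change g1i_an K hM (dsh_sw_W0fun h hM hp hpM x) z * g1i_an K hM (dsh_sw_W0fun h hM hp hpM y) z = _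
    rw [dsh_sw_W0fun_spec, dsh_sw_W0fun_spec]
    rfl
  map_zero' := dsh_sw_W0fun_eq h hM hp hpM _ _ fun z => by
    rw [map_zero]; rfl
  map_add' x y := dsh_sw_W0fun_eq h hM hp hpM _ _ fun z => by
    rw [map_add, map_add]
    change g1i_an K hM (dsh_sw_W0fun h hM hp hpM x) z + g1i_an K hM (dsh_sw_W0fun h hM hp hpM y) z = _
    rw [dsh_sw_W0fun_spec, dsh_sw_W0fun_spec]
    rfl
  commutes' r := dsh_sw_W0fun_eq h hM hp hpM _ _ fun z => by
    rw [g1i_an_algebraMap]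

theorem dsh_sw_W0_spec (x : g1i_A K M (M * p)) (z : ℍ) :
    g1i_an K hM (dsh_sw_W0 h hM hp hpM x) z = g1i_an K hM x (dsh_sw_mat M p k d h • z) :=
  dsh_sw_W0fun_spec h hM hp hpM x z

theorem dsh_sw_W0_eq (x x' : g1i_A K M (M * p))
    (hx' : ∀ z : ℍ, g1i_an K hM x' z = g1i_an K hM x (dsh_sw_mat M p k d h • z)) :
    dsh_sw_W0 h hM hp hpM x = x' :=
  dsh_sw_W0fun_eq h hM hp hpM x x' hx'

theorem dsh_sw_W0_injective : Function.Injective (dsh_sw_W0 (K := K) h hM hp hpM) := by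
  rw [injective_iff_map_eq_zero]
  intro x hx
  apply g1i_an_injective K hM
  funext z
  have h1 := dsh_sw_W0_spec h hM hp hpM x ((dsh_sw_mat M p k d h)⁻¹ • z)
  rw [hx, smul_inv_smul] at h1
  rw [← h1, map_zero]
  rfl

/-- `W (j(q^c)) = j(q^(p c))` for `c ∣ M` -/
theorem dsh_sw_W0_jd_of_dvd {c : ℕ} [NeZero c] (hc : c ∣ M) (hc1 : c ∣ M * p)
    [NeZero (p * c)] (hc2 : p * c ∣ M * p) :
    dsh_sw_W0 h hM hp hpM (g1i_jd K M c hc1) = g1i_jd K M (p * c) hc2 := by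
  obtain ⟨e', he'⟩ := hc
  refine dsh_sw_W0_eq h hM hp hpM _ _ fun z => ?_
  rw [g1i_an_jd K hM (p * c) hc2, g1i_an_jd K hM c hc1, dsh_sw_jd_comp1 c e' he' h z]

/-- `W (j(q^(p e))) = j(q^e)` for `e ∣ M` -/
theorem dsh_sw_W0_jd_mul {e : ℕ} [NeZero e] (he : e ∣ M) (he1 : e ∣ M * p)
    [NeZero (p * e)] (he2 : p * e ∣ M * p) :
    dsh_sw_W0 h hM hp hpM (g1i_jd K M (p * e) he2) = g1i_jd K M e he1 := by
  obtain ⟨e', he'⟩ := he
  refine dsh_sw_W0_eq h hM hp hpM _ _ fun z => ?_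
  rw [g1i_an_jd K hM (p * e) he2, g1i_an_jd K hM e he1, dsh_sw_jd_comp2 e e' he' h z]

/-- `W (w_a(q)) = w_a(q^p)` -/
theorem dsh_sw_W0_wq_one (a : (ZMod M)ˣ) :
    dsh_sw_W0 h hM hp hpM (g1i_wq K 1 (dsh_sw_one_mul_dvd M p) a)
      = g1i_wq K p (dsh_sw_p_mul_dvd M p) a := by
  refine dsh_sw_W0_eq h hM hp hpM _ _ fun z => ?_
  rw [g1i_an_wq K hM p (dsh_sw_p_mul_dvd M p) a, g1i_an_wq K hM 1 (dsh_sw_one_mul_dvd M p) a,
    dsh_sw_W_comp1 (a : ZMod M) h z]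

/-- `W (w_a(q^p)) = w_{a p}(q)` -/
theorem dsh_sw_W0_wq_p (a : (ZMod M)ˣ) :
    dsh_sw_W0 h hM hp hpM (g1i_wq K p (dsh_sw_p_mul_dvd M p) a)
      = g1i_wq K 1 (dsh_sw_one_mul_dvd M p) (a * dsh_sw_unit hp hpM) := by
  refine dsh_sw_W0_eq h hM hp hpM _ _ fun z => ?_
  rw [g1i_an_wq K hM p (dsh_sw_p_mul_dvd M p) a,
    g1i_an_wq K hM 1 (dsh_sw_one_mul_dvd M p) (a * dsh_sw_unit hp hpM),
    dsh_sw_W_comp2 (a : ZMod M) h z, Units.val_mul, dsh_sw_coe_unit]

end Swap1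

/-! ### `W ∘ α = β` and `W ∘ β = α ∘ ⟨p⟩` on the coordinate ring -/

section Swap2

variable {M p : ℕ} [NeZero M] [NeZero p] {k d : ℤ} (h : (p : ℤ) * d - M * k = 1) (hM : M ≠ 1)
  (hp : p.Prime) (hpM : ¬ p ∣ M)

/-- `W x = x(q^p)` for `x` in the coordinate ring of level `M` -/
theorem dsh_sw_W0_alpha {r : LaurentSeries K} (hr : r ∈ g1i_A K M M) :
    ((dsh_sw_W0 h hM hp hpM ⟨r, dsh_sw_A_mono K M (dvd_mul_right M p) hr⟩ : g1i_A K M (M * p)) :
      LaurentSeries K) = qExpand K p r := by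
  induction hr using Algebra.adjoin_induction with
  | mem y hy =>
    rcases hy with ⟨c, hc, hcM, rfl⟩ | ⟨e, he, a, heM, rfl⟩
    · haveI := hc
      haveI : NeZero (p * c) := ⟨Nat.mul_ne_zero (NeZero.ne p) (NeZero.ne c)⟩
      have hc1 : c ∣ M * p := hcM.trans (dvd_mul_right M p)
      have hc2 : p * c ∣ M * p := by rw [mul_comm M p]; exact Nat.mul_dvd_mul_left p hcM
      have e1 := dsh_sw_W0_jd_of_dvd (K := K) h hM hp hpM hcM hc1 hc2
      change ((dsh_sw_W0 h hM hp hpM (g1i_jd K M c hc1) : g1i_A K M (M * p)) : LaurentSeries K) = _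
      rw [e1, qExpand_qExpand]
      rfl
    · haveI := he
      obtain rfl := dsh_sw_w_level M heM
      have e1 := dsh_sw_W0_wq_one (K := K) h hM hp hpM a
      change ((dsh_sw_W0 h hM hp hpM (g1i_wq K 1 (dsh_sw_one_mul_dvd M p) a) : g1i_A K M (M * p)) :
        LaurentSeries K) = _
      rw [e1, qExpand_one_apply]
      rfl
  | algebraMap c =>
    change ((dsh_sw_W0 h hM hp hpM (algebraMap K (g1i_A K M (M * p)) c) : g1i_A K M (M * p)) :
      LaurentSeries K) = _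
    rw [AlgHom.commutes, algebraMap_laurentSeries_eq_single, qExpand_single, mul_zero,
      ← algebraMap_laurentSeries_eq_single]
    rfl
  | add x y hx hy ihx ihy =>
    change ((dsh_sw_W0 h hM hp hpM (⟨x, dsh_sw_A_mono K M (dvd_mul_right M p) hx⟩
      + ⟨y, dsh_sw_A_mono K M (dvd_mul_right M p) hy⟩) : g1i_A K M (M * p)) : LaurentSeries K) = _
    rw [map_add, map_add, ← ihx, ← ihy]
    rfl
  | mul x y hx hy ihx ihy =>
    change ((dsh_sw_W0 h hM hp hpM (⟨x, dsh_sw_A_mono K M (dvd_mul_right M p) hx⟩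
      * ⟨y, dsh_sw_A_mono K M (dvd_mul_right M p) hy⟩) : g1i_A K M (M * p)) : LaurentSeries K) = _
    rw [map_mul, map_mul, ← ihx, ← ihy]
    rfl

/-- the hypotheses on the diamond operator `⟨p⟩` used by the swap: a ring endomorphism of
`F̄1_M` fixing `Q̄` and the `j(q^c)`, `c ∣ M`, and mapping `w_a ↦ w_{a p}` -/
structure dsh_sw_IsDiamond (M p : ℕ) (δ : g1i_F K M M →+* g1i_F K M M) : Prop where
  const : ∀ c : K, δ (algebraMap K (g1i_F K M M) c) = algebraMap K (g1i_F K M M) c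
  jd : ∀ (c : ℕ) [NeZero c], c ∣ M → ∀ x : g1i_F K M M,
    (x : LaurentSeries K) = qExpand K c (jqModC K) →
      ((δ x : g1i_F K M M) : LaurentSeries K) = qExpand K c (jqModC K)
  w : ∀ (a : (ZMod M)ˣ) (x : g1i_F K M M),
    (x : LaurentSeries K) = g1w_w K M (a : ZMod M) →
      ((δ x : g1i_F K M M) : LaurentSeries K) = g1w_w K M ((a : ZMod M) * (p : ZMod M))

/-- `W (y(q^p)) = ⟨p⟩ y` for `y` in the coordinate ring of level `M` -/
theorem dsh_sw_W0_beta {δ : g1i_F K M M →+* g1i_F K M M} (hδ : dsh_sw_IsDiamond M p δ)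
    {y : LaurentSeries K} (hy : y ∈ g1i_A K M M) :
    ((dsh_sw_W0 h hM hp hpM ⟨qExpand K p y, dsh_sw_qExpand_mem_A K M M p hy⟩ :
      g1i_A K M (M * p)) : LaurentSeries K)
      = ((δ ⟨y, g1i_A_le K M M hy⟩ : g1i_F K M M) : LaurentSeries K) := by
  induction hy using Algebra.adjoin_induction with
  | mem y hy =>
    rcases hy with ⟨c, hc, hcM, rfl⟩ | ⟨e, he, a, heM, rfl⟩
    · haveI := hc
      haveI : NeZero (p * c) := ⟨Nat.mul_ne_zero (NeZero.ne p) (NeZero.ne c)⟩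
      have hc1 : c ∣ M * p := hcM.trans (dvd_mul_right M p)
      have hc2 : p * c ∣ M * p := by rw [mul_comm M p]; exact Nat.mul_dvd_mul_left p hcM
      have e0 : (⟨qExpand K p (qExpand K c (jqModC K)),
          dsh_sw_qExpand_mem_A K M M p (Algebra.subset_adjoin (Or.inl ⟨c, hc, hcM, rfl⟩))⟩ :
            g1i_A K M (M * p)) = g1i_jd K M (p * c) hc2 :=
        Subtype.ext (qExpand_qExpand c p _)
      rw [e0, dsh_sw_W0_jd_mul h hM hp hpM hcM hc1 hc2, hδ.jd c hcM _ rfl]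
      rfl
    · haveI := he
      obtain rfl := dsh_sw_w_level M heM
      have e0 : (⟨qExpand K p (qExpand K 1 (g1w_w K M (a : ZMod M))),
          dsh_sw_qExpand_mem_A K M M p (Algebra.subset_adjoin (Or.inr ⟨1, he, a, heM, rfl⟩))⟩ :
            g1i_A K M (M * p)) = g1i_wq K p (dsh_sw_p_mul_dvd M p) a :=
        Subtype.ext (congrArg (qExpand K p) (qExpand_one_apply _))
      rw [e0, dsh_sw_W0_wq_p h hM hp hpM a, hδ.w a _ (qExpand_one_apply _)]
      change qExpand K 1 (g1w_w K M ((a * dsh_sw_unit hp hpM : (ZMod M)ˣ) : ZMod M)) = _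
      rw [qExpand_one_apply, Units.val_mul, dsh_sw_coe_unit]
  | algebraMap c =>
    have e0 : (⟨qExpand K p (algebraMap K (LaurentSeries K) c),
        dsh_sw_qExpand_mem_A K M M p (Subalgebra.algebraMap_mem _ c)⟩ : g1i_A K M (M * p))
          = algebraMap K (g1i_A K M (M * p)) c := by
      apply Subtype.ext
      change qExpand K p (algebraMap K (LaurentSeries K) c)
        = algebraMap K (LaurentSeries K) c
      rw [algebraMap_laurentSeries_eq_single, qExpand_single, mul_zero]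
    have e1 : (⟨algebraMap K (LaurentSeries K) c,
        g1i_A_le K M M (Subalgebra.algebraMap_mem _ c)⟩ : g1i_F K M M)
          = algebraMap K (g1i_F K M M) c := rfl
    rw [e0, AlgHom.commutes, e1, hδ.const]
    rfl
  | add x y hx hy ihx ihy =>
    have e0 : (⟨qExpand K p (x + y), dsh_sw_qExpand_mem_A K M M p (add_mem hx hy)⟩ :
        g1i_A K M (M * p)) = ⟨qExpand K p x, dsh_sw_qExpand_mem_A K M M p hx⟩
          + ⟨qExpand K p y, dsh_sw_qExpand_mem_A K M M p hy⟩ :=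
      Subtype.ext (map_add _ _ _)
    have e1 : (⟨x + y, g1i_A_le K M M (add_mem hx hy)⟩ : g1i_F K M M)
        = ⟨x, g1i_A_le K M M hx⟩ + ⟨y, g1i_A_le K M M hy⟩ := rfl
    rw [e0, e1, map_add, map_add]
    change ((dsh_sw_W0 h hM hp hpM _ : g1i_A K M (M * p)) : LaurentSeries K)
      + ((dsh_sw_W0 h hM hp hpM _ : g1i_A K M (M * p)) : LaurentSeries K) = _
    rw [ihx, ihy]
    rfl
  | mul x y hx hy ihx ihy =>
    have e0 : (⟨qExpand K p (x * y), dsh_sw_qExpand_mem_A K M M p (mul_mem hx hy)⟩ :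
        g1i_A K M (M * p)) = ⟨qExpand K p x, dsh_sw_qExpand_mem_A K M M p hx⟩
          * ⟨qExpand K p y, dsh_sw_qExpand_mem_A K M M p hy⟩ :=
      Subtype.ext (map_mul _ _ _)
    have e1 : (⟨x * y, g1i_A_le K M M (mul_mem hx hy)⟩ : g1i_F K M M)
        = ⟨x, g1i_A_le K M M hx⟩ * ⟨y, g1i_A_le K M M hy⟩ := rfl
    rw [e0, e1, map_mul, map_mul]
    change ((dsh_sw_W0 h hM hp hpM _ : g1i_A K M (M * p)) : LaurentSeries K)
      * ((dsh_sw_W0 h hM hp hpM _ : g1i_A K M (M * p)) : LaurentSeries K) = _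
    rw [ihx, ihy]
    rfl

end Swap2

/-! ### the swap on the function field -/

section Swap3

variable {M p : ℕ} [NeZero M] [NeZero p] {k d : ℤ} (h : (p : ℤ) * d - M * k = 1) (hM : M ≠ 1)
  (hp : p.Prime) (hpM : ¬ p ∣ M)

/-- `A' → F̄1_{M,p}`, `x ↦ W x` -/
def dsh_sw_Wg : g1i_A K M (M * p) →ₐ[K] g1i_F K M (M * p) :=
  (IsScalarTower.toAlgHom K (g1i_A K M (M * p)) (g1i_F K M (M * p))).comp
    (dsh_sw_W0 h hM hp hpM)

theorem dsh_sw_Wg_apply (x : g1i_A K M (M * p)) :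
    dsh_sw_Wg h hM hp hpM x
      = algebraMap (g1i_A K M (M * p)) (g1i_F K M (M * p)) (dsh_sw_W0 h hM hp hpM x) := rfl

theorem dsh_sw_Wg_injective : Function.Injective (dsh_sw_Wg (K := K) h hM hp hpM) := by
  intro x y hxy
  rw [dsh_sw_Wg_apply, dsh_sw_Wg_apply] at hxy
  exact dsh_sw_W0_injective h hM hp hpM
    (FaithfulSMul.algebraMap_injective (g1i_A K M (M * p)) (g1i_F K M (M * p)) hxy)

/-- **the swap** as an endomorphism of the function field `F̄1_{M,p}` -/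
def dsh_sw_W : g1i_F K M (M * p) →ₐ[K] g1i_F K M (M * p) :=
  IsFractionRing.liftAlgHom (g := dsh_sw_Wg (K := K) h hM hp hpM) (dsh_sw_Wg_injective h hM hp hpM)

theorem dsh_sw_W_algebraMap (x : g1i_A K M (M * p)) :
    dsh_sw_W h hM hp hpM (algebraMap (g1i_A K M (M * p)) (g1i_F K M (M * p)) x)
      = algebraMap (g1i_A K M (M * p)) (g1i_F K M (M * p)) (dsh_sw_W0 h hM hp hpM x) := by
  rw [dsh_sw_W, IsFractionRing.liftAlgHom_apply, IsFractionRing.lift_algebraMap]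
  rfl

theorem dsh_sw_W_coe {r : LaurentSeries K} (hr : r ∈ g1i_A K M (M * p)) :
    ((dsh_sw_W h hM hp hpM ⟨r, g1i_A_le K M (M * p) hr⟩ : g1i_F K M (M * p)) : LaurentSeries K)
      = ((dsh_sw_W0 h hM hp hpM ⟨r, hr⟩ : g1i_A K M (M * p)) : LaurentSeries K) := by
  have e : (⟨r, g1i_A_le K M (M * p) hr⟩ : g1i_F K M (M * p))
      = algebraMap (g1i_A K M (M * p)) (g1i_F K M (M * p)) ⟨r, hr⟩ := rfl
  rw [e, dsh_sw_W_algebraMap]
  rfl

/-- **`W x = x(q^p)`** for `x ∈ F̄1_M` -/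
theorem dsh_sw_W_alpha {x : LaurentSeries K} (hx : x ∈ g1i_F K M M)
    (hx' : x ∈ g1i_F K M (M * p)) :
    ((dsh_sw_W h hM hp hpM ⟨x, hx'⟩ : g1i_F K M (M * p)) : LaurentSeries K)
      = qExpand K p x := by
  obtain ⟨r, hr, s, hs, hs0, rfl⟩ := g1i_exists_div K M M hx
  have hr' := dsh_sw_A_mono K M (dvd_mul_right M p) hr
  have hs' := dsh_sw_A_mono K M (dvd_mul_right M p) hs
  have e : (⟨r / s, hx'⟩ : g1i_F K M (M * p))
      = ⟨r, g1i_A_le K M (M * p) hr'⟩ / ⟨s, g1i_A_le K M (M * p) hs'⟩ := Subtype.ext rfl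
  rw [e, map_div₀, IntermediateField.coe_div, dsh_sw_W_coe h hM hp hpM hr',
    dsh_sw_W_coe h hM hp hpM hs', dsh_sw_W0_alpha h hM hp hpM hr,
    dsh_sw_W0_alpha h hM hp hpM hs, map_div₀]

/-- **`W (y(q^p)) = ⟨p⟩ y`** for `y ∈ F̄1_M` -/
theorem dsh_sw_W_beta {δ : g1i_F K M M →+* g1i_F K M M} (hδ : dsh_sw_IsDiamond M p δ)
    {y : LaurentSeries K} (hy : y ∈ g1i_F K M M)
    (hy' : qExpand K p y ∈ g1i_F K M (M * p)) :
    ((dsh_sw_W h hM hp hpM ⟨qExpand K p y, hy'⟩ : g1i_F K M (M * p)) : LaurentSeries K)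
      = ((δ ⟨y, hy⟩ : g1i_F K M M) : LaurentSeries K) := by
  obtain ⟨r, hr, s, hs, hs0, rfl⟩ := g1i_exists_div K M M hy
  have hr' := dsh_sw_qExpand_mem_A K M M p hr
  have hs' := dsh_sw_qExpand_mem_A K M M p hs
  have e : (⟨qExpand K p (r / s), hy'⟩ : g1i_F K M (M * p))
      = ⟨qExpand K p r, g1i_A_le K M (M * p) hr'⟩ / ⟨qExpand K p s, g1i_A_le K M (M * p) hs'⟩ :=
    Subtype.ext (map_div₀ _ _ _)
  have e' : (⟨r / s, hy⟩ : g1i_F K M M)
      = ⟨r, g1i_A_le K M M hr⟩ / ⟨s, g1i_A_le K M M hs⟩ := Subtype.ext rfl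
  rw [e, e', map_div₀, map_div₀, IntermediateField.coe_div, IntermediateField.coe_div,
    dsh_sw_W_coe h hM hp hpM hr', dsh_sw_W_coe h hM hp hpM hs',
    dsh_sw_W0_beta h hM hp hpM hδ hr, dsh_sw_W0_beta h hM hp hpM hδ hs]

end Swap3

/-! ### the tower and the swap embedding -/

section Tower

/-- **the `Γ₁` tower** `F1_M ⊂ F1_{M,p}` -/
def dsh_sw_tower (M p : ℕ) [NeZero p] : dsh_Tower p where
  F₀ := g1f_F M M
  F₁ := g1f_F M (M * p)
  le := g1f_FC_mono ℚ M (dvd_mul_right M p)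
  qexp := fun y hy => g1f_qExpand_mem ℚ M M hy

variable (M p : ℕ) [NeZero M] [NeZero p]

theorem dsh_sw_tower_F₀ : laurentBaseChange K (dsh_sw_tower M p).F₀ = g1i_F K M M := rfl

theorem dsh_sw_tower_F₁ : laurentBaseChange K (dsh_sw_tower M p).F₁ = g1i_F K M (M * p) :=
  rfl

/-- **The swap endomorphism of `F̄1_{M,p}`**: `W ∘ α = β` and `W ∘ β = α ∘ ⟨p⟩`. -/
theorem dsh_sw_exists (hM : M ≠ 1) (hp : p.Prime) (hpM : ¬ p ∣ M) :
    ∃ W : g1i_F K M (M * p) →ₐ[K] g1i_F K M (M * p),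
      (∀ (x : LaurentSeries K) (_ : x ∈ g1i_F K M M) (hx' : x ∈ g1i_F K M (M * p)),
        ((W ⟨x, hx'⟩ : g1i_F K M (M * p)) : LaurentSeries K) = qExpand K p x) ∧
      (∀ (δ : g1i_F K M M →+* g1i_F K M M), dsh_sw_IsDiamond M p δ →
        ∀ (y : LaurentSeries K) (hy : y ∈ g1i_F K M M)
          (hy' : qExpand K p y ∈ g1i_F K M (M * p)),
          ((W ⟨qExpand K p y, hy'⟩ : g1i_F K M (M * p)) : LaurentSeries K)
            = ((δ ⟨y, hy⟩ : g1i_F K M M) : LaurentSeries K)) := by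
  obtain ⟨d, k, h⟩ := dsh_sw_exists_bezout (M := M) hp hpM
  exact ⟨dsh_sw_W h hM hp hpM, fun x hx hx' => dsh_sw_W_alpha h hM hp hpM hx hx',
    fun δ hδ y hy hy' => dsh_sw_W_beta h hM hp hpM hδ hy hy'⟩

/-- the swap embedding at the level of `g1f_Fbar` -/
theorem dsh_sw_swap' (hM : M ≠ 1) (hp : p.Prime) (hpM : ¬ p ∣ M)
    (δ : g1i_F K M M →+* g1i_F K M M) (hδ : dsh_sw_IsDiamond M p δ) :
    ∃ w : g1i_F K M (M * p) →+* LaurentSeries ℂ,
      (∀ (x : LaurentSeries K) (_ : x ∈ g1i_F K M M) (hx' : x ∈ g1i_F K M (M * p)),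
        w ⟨x, hx'⟩ = coeffMap (algebraMap K ℂ) (qExpand K p x)) ∧
      (∀ (y : LaurentSeries K) (hy : y ∈ g1i_F K M M)
          (hy' : qExpand K p y ∈ g1i_F K M (M * p)),
        w ⟨qExpand K p y, hy'⟩ = coeffMap (algebraMap K ℂ)
          ((δ ⟨y, hy⟩ : g1i_F K M M) : LaurentSeries K)) := by
  obtain ⟨W, hWα, hWβ⟩ := dsh_sw_exists (K := K) M p hM hp hpM
  refine ⟨(coeffMap (algebraMap K ℂ)).comp
    ((g1i_F K M (M * p)).val.toRingHom.comp W.toRingHom), fun x hx hx' => ?_,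
    fun y hy hy' => ?_⟩
  · change coeffMap (algebraMap K ℂ)
      ((W ⟨x, hx'⟩ : g1i_F K M (M * p)) : LaurentSeries K) = _
    rw [hWα x hx hx']
  · change coeffMap (algebraMap K ℂ)
      ((W ⟨qExpand K p y, hy'⟩ : g1i_F K M (M * p)) : LaurentSeries K) = _
    rw [hWβ δ hδ y hy hy']

/-- **The `Γ₁` swap embedding** (the hypotheses `hwα`, `hwβ` of `dsh_nl_seam` for the tower
`dsh_sw_tower M p`): a ring homomorphism `w : F̄1_{M,p} → ℂ((t))` with `w (α x) = x(t^p)` and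
`w (β y) = (⟨p⟩ y)(t)`, for every diamond operator `δ = ⟨p⟩` in the sense of
`dsh_sw_IsDiamond`. -/
theorem dsh_sw_swap (hM : M ≠ 1) (hp : p.Prime) (hpM : ¬ p ∣ M)
    (δ : laurentBaseChange K (dsh_sw_tower M p).F₀ →+*
      laurentBaseChange K (dsh_sw_tower M p).F₀)
    (hδ : dsh_sw_IsDiamond M p δ) :
    ∃ w : laurentBaseChange K (dsh_sw_tower M p).F₁ →+* LaurentSeries ℂ,
      (∀ x : laurentBaseChange K (dsh_sw_tower M p).F₀,
        w (dsh_alpha K (dsh_sw_tower M p) x)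
          = coeffMap (algebraMap K ℂ) (qExpand K p (x : LaurentSeries K))) ∧
      (∀ y : laurentBaseChange K (dsh_sw_tower M p).F₀,
        w (dsh_beta K (dsh_sw_tower M p) y)
          = coeffMap (algebraMap K ℂ) ((δ y : laurentBaseChange K
              (dsh_sw_tower M p).F₀) : LaurentSeries K)) := by
  obtain ⟨w, hwα, hwβ⟩ := dsh_sw_swap' M p hM hp hpM δ hδ
  exact ⟨w, fun x => hwα x.1 x.2 _, fun y => hwβ y.1 y.2 _⟩

/-- `j` as an element of `F̄1_M` -/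
def dsh_sw_jBar : g1i_F K M M :=
  ⟨jqModC K, by rw [g1i_F_eq]; exact g1f_j_mem_FC⟩

theorem dsh_sw_coe_jBar : ((dsh_sw_jBar M : g1i_F K M M) : LaurentSeries K) = jqModC K :=
  rfl

variable {M p}

/-- a diamond operator fixes `j` -/
theorem dsh_sw_IsDiamond.apply_jBar {δ : g1i_F K M M →+* g1i_F K M M}
    (hδ : dsh_sw_IsDiamond M p δ) :
    ((δ (dsh_sw_jBar M) : g1i_F K M M) : LaurentSeries K) = jqModC K := by
  have h1 := hδ.jd 1 (one_dvd M) (dsh_sw_jBar M) (qExpand_one_apply _).symm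
  rw [h1, qExpand_one_apply]

/-- the separating element of `dsh_nl_seam`: `s = j`, `(⟨p⟩ j).coeff (-1) = 1` -/
theorem dsh_sw_IsDiamond.coeff_jBar {δ : g1i_F K M M →+* g1i_F K M M}
    (hδ : dsh_sw_IsDiamond M p δ) :
    ((δ (dsh_sw_jBar M) : g1i_F K M M) : LaurentSeries K).coeff (-1) ≠ 0 := by
  rw [hδ.apply_jBar, ModularCurve.coeff_jqModC_neg_one]
  exact one_ne_zero

/-- an algebra endomorphism with the right values on the generators is a diamond operator -/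
theorem dsh_sw_isDiamond_of_algHom (δ : g1i_F K M M →ₐ[K] g1i_F K M M)
    (hj : ∀ (c : ℕ) [NeZero c], c ∣ M → ∀ x : g1i_F K M M,
      (x : LaurentSeries K) = qExpand K c (jqModC K) →
        ((δ x : g1i_F K M M) : LaurentSeries K) = qExpand K c (jqModC K))
    (hw : ∀ (a : (ZMod M)ˣ) (x : g1i_F K M M),
      (x : LaurentSeries K) = g1w_w K M (a : ZMod M) →
        ((δ x : g1i_F K M M) : LaurentSeries K)
          = g1w_w K M ((a : ZMod M) * (p : ZMod M))) :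
    dsh_sw_IsDiamond M p (δ : g1i_F K M M →+* g1i_F K M M) :=
  ⟨fun c => δ.commutes c, hj, hw⟩

end Tower

end

end Fermat.Agent.DS
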