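/-
DS (Deligne–Serre) / DS-T / cell [H1] (helper24): THE `Γ₁` SWAP EMBEDDING FOR helper17's DIAMOND
OPERATOR `g1dm_F` AND helper1's TOWER `dsh_towerOne` — the consumer shape of `DS/Tower` (the
hypothesis `hsw` of the `diamond` clause of `dst_GoodAt`).

* `dsh_sw_isDiamond_g1dm` : `⟨u⟩ = g1dm_F K hM (dvd_refl M) u` with `u ≡ p (mod M)` is a diamond
  operator in the sense of `dsh_sw_IsDiamond M p`;
* **`dsh_sw_swap_towerOne`** : `∃ w : F̄1_{M,p} →+* ℂ((t))`, `w (α x) = x(t^p)`,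
  `w (β y) = (⟨p⟩ y)(t)` for `T = dsh_towerOne M p`, `⟨p⟩ = g1dm_F Q̄ hM (dvd_refl M) (g1t_pU hpM)`.
Prefix `dsh_sw_`.
-/
import Mathlib
import Fermat.Agent.DS.Hecke.SwapG1
import Fermat.Agent.DS.Gam1.Diamonds
import Fermat.Agent.DS.Hecke.Gam1Tower
import Fermat.Agent.DS.HeckeG1.Coset

set_option autoImplicit false
set_option linter.unusedSectionVars false
set_option linter.style.haveILetI false

namespace Fermat.Agent.DS

open ModularCurve CongruenceSubgroup
open Fermat.Agent.S24 Fermat.Agent.S24.Br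

noncomputable section

local notation "Kbar" => AlgebraicClosure ℚ

/-- helper17's diamond operator `⟨u⟩`, `u ≡ p (mod M)`, is a diamond operator `⟨p⟩` in the sense
of the swap -/
theorem dsh_sw_isDiamond_g1dm (K : Type) [Field K] [Algebra ℚ K] [Algebra K ℂ] {M : ℕ} [NeZero M]
    (hM : M ≠ 1) (p : ℕ) [NeZero p] (u : (ZMod M)ˣ) (hu : (u : ZMod M) = (p : ZMod M)) :
    dsh_sw_IsDiamond M p
      (((g1dm_F K hM (dvd_refl M) u : g1i_F K M M ≃ₐ[K] g1i_F K M M) :
        g1i_F K M M →ₐ[K] g1i_F K M M) : g1i_F K M M →+* g1i_F K M M) := by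
  refine dsh_sw_isDiamond_of_algHom _ ?_ ?_
  · intro c _ hc x hx
    obtain ⟨x, hxm⟩ := x
    change x = _ at hx
    subst hx
    exact g1dm_F_jd_coe K hM (dvd_refl M) u c hc hxm
  · intro a x hx
    obtain ⟨x, hxm⟩ := x
    change x = _ at hx
    subst hx
    have hxm' : qExpand K 1 (g1w_w K M (a : ZMod M)) ∈ g1i_F K M M := by
      rw [qExpand_one_apply]; exact hxm
    have h1 := g1dm_F_wq_coe K hM (dvd_refl M) u 1 (by rw [one_mul]) a hxm'
    have e0 : (⟨g1w_w K M (a : ZMod M), hxm⟩ : g1i_F K M M)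
        = ⟨qExpand K 1 (g1w_w K M (a : ZMod M)), hxm'⟩ :=
      Subtype.ext (qExpand_one_apply _).symm
    rw [e0]
    refine h1.trans ?_
    rw [qExpand_one_apply, Units.val_mul, hu]

variable {M p : ℕ} [NeZero M] [NeZero p] [hp : Fact p.Prime]

/-- **the `Γ₁` swap embedding for the tower `dsh_towerOne M p` and the diamond
`⟨p⟩ = g1dm_F Q̄ hM (dvd_refl M) (g1t_pU hpM)`** -/
theorem dsh_sw_swap_towerOne (hM : M ≠ 1) (hpM : ¬ p ∣ M) :
    ∃ w : laurentBaseChange Kbar (dsh_towerOne M p).F₁ →+* LaurentSeries ℂ,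
      (∀ x : laurentBaseChange Kbar (dsh_towerOne M p).F₀,
        w (dsh_alpha Kbar (dsh_towerOne M p) x)
          = coeffMap (br_iota : Kbar →+* ℂ) (qExpand Kbar p (x : LaurentSeries Kbar))) ∧
      (∀ y : laurentBaseChange Kbar (dsh_towerOne M p).F₀,
        w (dsh_beta Kbar (dsh_towerOne M p) y)
          = coeffMap (br_iota : Kbar →+* ℂ)
              ((g1dm_F Kbar hM (dvd_refl M) (g1t_pU hpM) y : g1i_F Kbar M M) :
                LaurentSeries Kbar)) := by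
  obtain ⟨w, hwα, hwβ⟩ := dsh_sw_swap' (K := Kbar) M p hM hp.out hpM _
    (dsh_sw_isDiamond_g1dm Kbar hM p (g1t_pU hpM) (g1t_pU_coe hpM))
  exact ⟨w, fun x => hwα x.1 x.2 _, fun y => hwβ y.1 y.2 _⟩

end

end Fermat.Agent.DS
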