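/-
DS-T, cell [H1], file [R2]: COEFFICIENTWISE AUTOMORPHISMS of the reduced field and GALOIS
EQUIVARIANCE OF THE REDUCTION MAP, generic in the pair of `q`-expansion fields
(twin of `JT3/ES/CoeffAut.lean` + `JT3/ES/GaloisRed.lean`; the `A`-level lemmas `egr_phi`,
`egr_actSeries`, … are generic and reused).

`F = laurentBaseChange Q̄ F₀` for a field `F₀ ⊂ ℚ((q))`, `A ⊂ Q̄` a valuation ring, `k` its residue
field, `Ft ⊂ k((q))` stable under coefficientwise ring endomorphisms of `k` (`dsh_CoeffStable`).

* `dsh_caut hFt : (k ≃+* k) →* SemilinearAut k Ft`;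
* `dsh_act g y` : the decomposition group acts on `dsr_IntFun`;
* `dsh_red_smul`, `dsh_red_inertia`, `dsh_red_frob`.
-/
import Mathlib
import Fermat.Agent.JT3.ES.GaloisRed
import Fermat.Agent.DS.Hecke.Transfer

set_option autoImplicit false
set_option synthInstance.maxHeartbeats 400000
set_option maxHeartbeats 1000000

noncomputable section

namespace Fermat.Agent.DS

open ModularCurve AlgebraicCurve HahnSeries IntermediateField Fermat.Agent.JT3

/-! ### coefficientwise automorphisms -/

section Aut

variable {K : Type*} [Field K]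

/-- `Ft` is stable under the coefficientwise ring endomorphisms of the constant field -/
def dsh_CoeffStable (Ft : IntermediateField K (LaurentSeries K)) : Prop :=
  ∀ φ : K →+* K, ∀ x ∈ Ft, coeffMap φ x ∈ Ft

theorem dsh_coeffMap_algebraMap (φ : K →+* K) (a : K) :
    coeffMap φ (algebraMap K (LaurentSeries K) a) = algebraMap K (LaurentSeries K) (φ a) := by
  rw [algebraMap_laurentSeries_eq_single, coeffMap_single, algebraMap_laurentSeries_eq_single]

/-- a field generated by series fixed by all coefficientwise endomorphisms is stable -/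
theorem dsh_coeffStable_adjoin (S : Set (LaurentSeries K))
    (hS : ∀ φ : K →+* K, ∀ x ∈ S, coeffMap φ x = x) :
    dsh_CoeffStable (IntermediateField.adjoin K S) := by
  intro φ x hx
  induction hx using IntermediateField.adjoin_induction with
  | mem y hy => rw [hS φ y hy]; exact IntermediateField.subset_adjoin K S hy
  | algebraMap a => rw [dsh_coeffMap_algebraMap]; exact IntermediateField.algebraMap_mem _ _
  | add x y _ _ hx hy => rw [map_add]; exact add_mem hx hy
  | inv x _ hx => rw [map_inv₀]; exact inv_mem hx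
  | mul x y _ _ hx hy => rw [map_mul]; exact mul_mem hx hy

variable {Ft : IntermediateField K (LaurentSeries K)} (hFt : dsh_CoeffStable Ft)

/-- the coefficientwise ring automorphism of `Ft` -/
def dsh_caRingAut (φ : K ≃+* K) : Ft ≃+* Ft where
  toFun x := ⟨coeffMap (φ : K →+* K) (x : LaurentSeries K), hFt _ _ x.2⟩
  invFun x := ⟨coeffMap (φ.symm : K →+* K) (x : LaurentSeries K), hFt _ _ x.2⟩
  left_inv x := Subtype.ext <| by
    show coeffMap (φ.symm : K →+* K) (coeffMap (φ : K →+* K) (x : LaurentSeries K))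
      = (x : LaurentSeries K)
    rw [coeffMap_coeffMap,
      coeffMap_congr (g := RingHom.id K) (RingHom.ext fun a => φ.symm_apply_apply a)
        (x : LaurentSeries K), coeffMap_id]
  right_inv x := Subtype.ext <| by
    show coeffMap (φ : K →+* K) (coeffMap (φ.symm : K →+* K) (x : LaurentSeries K))
      = (x : LaurentSeries K)
    rw [coeffMap_coeffMap,
      coeffMap_congr (g := RingHom.id K) (RingHom.ext fun a => φ.apply_symm_apply a)
        (x : LaurentSeries K), coeffMap_id]
  map_mul' x y :=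
    Subtype.ext (map_mul (coeffMap (φ : K →+* K)) (x : LaurentSeries K) (y : LaurentSeries K))
  map_add' x y :=
    Subtype.ext (map_add (coeffMap (φ : K →+* K)) (x : LaurentSeries K) (y : LaurentSeries K))

@[simp]
theorem dsh_coe_caRingAut_apply (φ : K ≃+* K) (x : Ft) :
    (dsh_caRingAut hFt φ x : LaurentSeries K) = coeffMap (φ : K →+* K) (x : LaurentSeries K) :=
  rfl

theorem dsh_caRingAut_algebraMap (φ : K ≃+* K) (a : K) :
    dsh_caRingAut hFt φ (algebraMap K Ft a) = algebraMap K Ft (φ a) :=
  Subtype.ext (dsh_coeffMap_algebraMap (φ : K →+* K) a)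

/-- **the coefficientwise action** of `Aut(K)` on `Ft`, as semilinear automorphisms -/
def dsh_caut : (K ≃+* K) →* SemilinearAut K Ft where
  toFun φ := ⟨(dsh_caRingAut hFt φ, φ), fun a => dsh_caRingAut_algebraMap hFt φ a⟩
  map_one' := by
    refine Subtype.ext (Prod.ext (RingEquiv.ext fun x => Subtype.ext ?_) rfl)
    show coeffMap ((1 : K ≃+* K) : K →+* K) (x : LaurentSeries K) = (x : LaurentSeries K)
    rw [show ((1 : K ≃+* K) : K →+* K) = RingHom.id K from RingHom.ext fun _ => rfl,
      coeffMap_id]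
  map_mul' φ ψ := by
    refine Subtype.ext (Prod.ext (RingEquiv.ext fun x => Subtype.ext ?_) rfl)
    show coeffMap ((φ * ψ : K ≃+* K) : K →+* K) (x : LaurentSeries K)
      = coeffMap (φ : K →+* K) (coeffMap (ψ : K →+* K) (x : LaurentSeries K))
    rw [coeffMap_coeffMap]
    exact coeffMap_congr (RingHom.ext fun _ => rfl) _

@[simp]
theorem dsh_coe_caut_smul (φ : K ≃+* K) (x : Ft) :
    ((dsh_caut hFt φ • x : Ft) : LaurentSeries K) = coeffMap (φ : K →+* K) (x : LaurentSeries K) :=
  rfl

@[simp]
theorem dsh_baseAut_caut (φ : K ≃+* K) : SemilinearAut.baseAut (dsh_caut hFt φ) = φ := rfl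

end Aut

/-! ### Galois equivariance of the reduction -/

section Red

local notation "Qb" => AlgebraicClosure ℚ

variable {A : ValuationSubring (AlgebraicClosure ℚ)}
variable {F₀ : IntermediateField ℚ (LaurentSeries ℚ)}
variable {Ft : IntermediateField (IsLocalRing.ResidueField A)
  (LaurentSeries (IsLocalRing.ResidueField A))} (hFt : dsh_CoeffStable Ft)

local notation "kA" => IsLocalRing.ResidueField A
local notation "Fb" => laurentBaseChange (AlgebraicClosure ℚ) F₀

/-- the decomposition group acts on the `q`-integral functions -/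
def dsh_act (g : A.decompositionSubgroup ℚ)
    (y : dsr_IntFun A (IsLocalRing.residue A) (laurentBaseChange (AlgebraicClosure ℚ) F₀) Ft) :
    dsr_IntFun A (IsLocalRing.residue A) (laurentBaseChange (AlgebraicClosure ℚ) F₀) Ft :=
  ⟨egr_actSeries g y.1, by
    rw [egr_subtype_actSeries]
    exact coeffMap_mem_laurentBaseChange _ y.2.1, by
    rw [egr_residue_actSeries]
    exact hFt _ _ y.2.2.1, by
    rw [egr_residue_actSeries]
    exact egr_coeffMap_equiv_ne_zero _ y.2.2.2⟩

theorem dsh_gen_act (g : A.decompositionSubgroup ℚ)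
    (y : dsr_IntFun A (IsLocalRing.residue A) (laurentBaseChange (AlgebraicClosure ℚ) F₀) Ft) :
    dsr_gen (dsh_act hFt g y)
      = arithmeticGalois F₀ (g : AlgebraicClosure ℚ ≃ₐ[ℚ] AlgebraicClosure ℚ) • dsr_gen y :=
  Subtype.ext (egr_subtype_actSeries g y.1)

theorem dsh_red_act (g : A.decompositionSubgroup ℚ)
    (y : dsr_IntFun A (IsLocalRing.residue A) (laurentBaseChange (AlgebraicClosure ℚ) F₀) Ft) :
    dsr_red (dsh_act hFt g y) = dsh_caut hFt (egr_phi g) • dsr_red y :=
  Subtype.ext (egr_residue_actSeries g y.1)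

/-- **Galois equivariance of the reduction map.** -/
theorem dsh_red_smul
    (h : dsr_ReductionInputs A (IsLocalRing.residue A)
      (laurentBaseChange (AlgebraicClosure ℚ) F₀) Ft)
    (hR : est_Riemann (AlgebraicClosure ℚ) (laurentBaseChange (AlgebraicClosure ℚ) F₀))
    (g : A.decompositionSubgroup ℚ)
    (x : Pic0 (AlgebraicClosure ℚ) (laurentBaseChange (AlgebraicClosure ℚ) F₀)) :
    dsr_reduction A (IsLocalRing.residue A) (laurentBaseChange (AlgebraicClosure ℚ) F₀) Ft
        ((g : AlgebraicClosure ℚ ≃ₐ[ℚ] AlgebraicClosure ℚ) • x)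
      = dsh_caut hFt (egr_phi g) •
          dsr_reduction A (IsLocalRing.residue A) (laurentBaseChange (AlgebraicClosure ℚ) F₀) Ft
            x := by
  set G₁ := arithmeticGalois (L := AlgebraicClosure ℚ) F₀
    (g : AlgebraicClosure ℚ ≃ₐ[ℚ] AlgebraicClosure ℚ) with hG₁
  set G₂ := dsh_caut hFt (egr_phi g) with hG₂
  have key := dsh_transfer_pic0 h hR
    (DistribSMul.toAddMonoidHom (Divisor (AlgebraicClosure ℚ)
      (laurentBaseChange (AlgebraicClosure ℚ) F₀)) G₁)
    (DistribSMul.toAddMonoidHom (Divisor (IsLocalRing.ResidueField A) Ft) G₂) 1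
    (egr_norm_smul_single G₁) (egr_norm_smul_single G₂)
    (by
      intro y D E hD hE
      ext Q
      show Finsupp.mapDomain (dsr_placeReduction h) (G₁ • D) Q = (G₂ • E) Q
      have hD' : ∀ P, (G₁ • D) P = P.ord (dsr_gen (dsh_act hFt g y)) := by
        intro P
        rw [dsh_gen_act]
        exact egr_div_smul G₁ (dsr_gen y) D hD P
      have h1 := (dsr_isPlaceReduction h).mapDomain_ord (dsh_act hFt g y) (G₁ • D) hD' Q
      rw [h1]
      have h2 := egr_div_smul G₂ (dsr_red y) E hE Q
      rw [h2, ← dsh_red_act])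
    (DistribSMul.toAddMonoidHom (Pic0 (AlgebraicClosure ℚ)
      (laurentBaseChange (AlgebraicClosure ℚ) F₀))
      (g : AlgebraicClosure ℚ ≃ₐ[ℚ] AlgebraicClosure ℚ))
    (fun D => ⟨SemilinearAut.smul_mem_degZero G₁ D.2, rfl⟩)
    (DistribSMul.toAddMonoidHom (Pic0 (IsLocalRing.ResidueField A) Ft) G₂)
    (fun E => ⟨SemilinearAut.smul_mem_degZero G₂ E.2, rfl⟩) x
  exact key

include hFt in
/-- inertia acts trivially after reduction -/
theorem dsh_red_inertia
    (h : dsr_ReductionInputs A (IsLocalRing.residue A)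
      (laurentBaseChange (AlgebraicClosure ℚ) F₀) Ft)
    (hR : est_Riemann (AlgebraicClosure ℚ) (laurentBaseChange (AlgebraicClosure ℚ) F₀))
    (τ : AlgebraicClosure ℚ ≃ₐ[ℚ] AlgebraicClosure ℚ) (hτ : τ ∈ A.inertiaSubgroupIn ℚ)
    (x : Pic0 (AlgebraicClosure ℚ) (laurentBaseChange (AlgebraicClosure ℚ) F₀)) :
    dsr_reduction A (IsLocalRing.residue A) (laurentBaseChange (AlgebraicClosure ℚ) F₀) Ft (τ • x)
      = dsr_reduction A (IsLocalRing.residue A) (laurentBaseChange (AlgebraicClosure ℚ) F₀) Ft
          x := by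
  rw [ValuationSubring.inertiaSubgroupIn, Subgroup.mem_map] at hτ
  obtain ⟨g, hg, rfl⟩ := hτ
  have h1 : egr_phi g = 1 := by
    rw [ValuationSubring.inertiaSubgroup, MonoidHom.mem_ker] at hg
    exact hg
  have := dsh_red_smul hFt h hR g x
  rw [h1, map_one, one_smul] at this
  exact this

/-- a Frobenius element acts after reduction through the coefficientwise automorphism `φ` of
`Ft`, where `φ x = x ^ p` on the residue field (`egr_phi_frob`) -/
theorem dsh_red_frob
    (h : dsr_ReductionInputs A (IsLocalRing.residue A)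
      (laurentBaseChange (AlgebraicClosure ℚ) F₀) Ft)
    (hR : est_Riemann (AlgebraicClosure ℚ) (laurentBaseChange (AlgebraicClosure ℚ) F₀)) {p : ℕ}
    (σ : AlgebraicClosure ℚ ≃ₐ[ℚ] AlgebraicClosure ℚ) (hσ : A.IsFrobeniusAt σ p)
    (x : Pic0 (AlgebraicClosure ℚ) (laurentBaseChange (AlgebraicClosure ℚ) F₀)) :
    dsr_reduction A (IsLocalRing.residue A) (laurentBaseChange (AlgebraicClosure ℚ) F₀) Ft (σ • x)
      = dsh_caut hFt (egr_phi ⟨σ, hσ.mem_decompositionSubgroup⟩) •
          dsr_reduction A (IsLocalRing.residue A) (laurentBaseChange (AlgebraicClosure ℚ) F₀) Ft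
            x :=
  dsh_red_smul hFt h hR ⟨σ, hσ.mem_decompositionSubgroup⟩ x

end Red

end Fermat.Agent.DS

end
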