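/-
DS-T, cell [H1], file [H2]: THE CONGRUENCE RELATION WITH DIAMOND
`red ∘ T_p = (Fr ∘ δt + p Fr⁻¹) ∘ red` AND THE EICHLER–SHIMURA RELATION AFTER REDUCTION,
generic in the tower of `q`-expansion fields (twin of `JT3/ES/ES.lean`).

Input: the seam `dsh_NL` ([NL1], produced by `dsh_nl_seam` of `NormRed.lean`): for a `q`-integral
function `y` with nonzero reduction `ȳ`, the norm `N_α (β y)` is `q`-integral with reduction
`Frob(δt ȳ) · ȳ(q^p)`, where `δt` is the reduction of the diamond operator `⟨p⟩`.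

* `dsh_Theta g₁ g₂ n`, `dsh_theta g₁ g₂ n` : the operator `g₁ + n g₂` on divisors / `Pic⁰`;
* `dsh_red_hecke` : `red (T_p x) = (Fr δt + p Fr⁻¹) (red x)`;
* `dsh_red_diamond` : `red (δ x) = δt (red x)`;
* `dsh_relation` : `red (σ₀ δ σ₀ x) - red (T_p σ₀ x) + p red x = 0` for a Frobenius element `σ₀`.
-/
import Mathlib
import Fermat.Agent.JT3.ES.ES
import Fermat.Agent.DS.Hecke.GaloisRed
import Fermat.Agent.DS.Hecke.Degeneracy

set_option autoImplicit false
set_option synthInstance.maxHeartbeats 400000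
set_option maxHeartbeats 1000000
set_option linter.style.haveILetI false
set_option linter.unusedSectionVars false

noncomputable section

namespace Fermat.Agent.DS

open ModularCurve AlgebraicCurve HahnSeries Fermat.Agent.JT3

/-! ### the operator `g₁ + n g₂` for semilinear automorphisms -/

section Aut

variable {K F : Type*} [Field K] [Field F] [Algebra K F]

/-- `g₁ + n g₂` on divisors -/
def dsh_Theta (g₁ g₂ : SemilinearAut K F) (n : ℕ) : Divisor K F →+ Divisor K F :=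
  DistribSMul.toAddMonoidHom (Divisor K F) g₁ + n • DistribSMul.toAddMonoidHom (Divisor K F) g₂

/-- `g₁ + n g₂` on `Pic⁰` -/
def dsh_theta (g₁ g₂ : SemilinearAut K F) (n : ℕ) : Pic0 K F →+ Pic0 K F :=
  DistribSMul.toAddMonoidHom (Pic0 K F) g₁ + n • DistribSMul.toAddMonoidHom (Pic0 K F) g₂

theorem dsh_Theta_apply (g₁ g₂ : SemilinearAut K F) (n : ℕ) (E : Divisor K F) :
    dsh_Theta g₁ g₂ n E = g₁ • E + n • (g₂ • E) := rfl

theorem dsh_theta_apply (g₁ g₂ : SemilinearAut K F) (n : ℕ) (x : Pic0 K F) :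
    dsh_theta g₁ g₂ n x = g₁ • x + n • (g₂ • x) := rfl

theorem dsh_norm_Theta_single (g₁ g₂ : SemilinearAut K F) (n : ℕ) (w : Place K F) :
    rg_norm (dsh_Theta g₁ g₂ n (Finsupp.single w 1)) ≤ n + 1 := by
  rw [dsh_Theta_apply]
  refine (rg_norm_add_le _ _).trans ?_
  rw [rg_norm_nsmul]
  have h1 : rg_norm (g₁ • Finsupp.single w (1 : ℤ)) ≤ 1 := egr_norm_smul_single g₁ w
  have h2 : rg_norm (g₂ • Finsupp.single w (1 : ℤ)) ≤ 1 := egr_norm_smul_single g₂ w
  nlinarith

theorem dsh_Theta_mem_degZero (g₁ g₂ : SemilinearAut K F) (n : ℕ) {E : Divisor K F}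
    (hE : E ∈ Divisor.degZero (K := K) (F := F)) :
    dsh_Theta g₁ g₂ n E ∈ Divisor.degZero (K := K) (F := F) := by
  rw [dsh_Theta_apply]
  exact add_mem (SemilinearAut.smul_mem_degZero g₁ hE)
    (nsmul_mem (SemilinearAut.smul_mem_degZero g₂ hE) n)

theorem dsh_theta_mk (g₁ g₂ : SemilinearAut K F) (n : ℕ)
    (E : Divisor.degZero (K := K) (F := F)) :
    dsh_theta g₁ g₂ n (Pic0.mk E)
      = Pic0.mk ⟨dsh_Theta g₁ g₂ n E, dsh_Theta_mem_degZero g₁ g₂ n E.2⟩ := rfl

/-- the divisor of `(g₁ f) (g₂ f)^n` is `(g₁ + n g₂) (div f)` -/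
theorem dsh_ord_Theta (g₁ g₂ : SemilinearAut K F) (n : ℕ) (f zf : F) (hf : f ≠ 0)
    (hz : zf = (g₁ • f) * (g₂ • f) ^ n) (E : Divisor K F) (hE : ∀ Q, E Q = Q.ord f)
    (Q : Place K F) : (dsh_Theta g₁ g₂ n E) Q = Q.ord zf := by
  have hne1 : g₁ • f ≠ 0 := (smul_ne_zero_iff_ne g₁).mpr hf
  have hne2 : g₂ • f ≠ 0 := (smul_ne_zero_iff_ne g₂).mpr hf
  rw [hz, Q.ord_mul hne1 (pow_ne_zero _ hne2), ← zpow_natCast, Q.ord_zpow, dsh_Theta_apply,
    Finsupp.add_apply, Finsupp.smul_apply, egr_div_smul g₁ f E hE Q, egr_div_smul g₂ f E hE Q,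
    nsmul_eq_mul]

/-- the formal cancellation behind the Eichler–Shimura relation -/
theorem dsh_theta_cancel (g d : SemilinearAut K F) (n : ℕ) (r : Pic0 K F) :
    g • (d • (g • r)) - dsh_theta (g * d) g⁻¹ n (g • r) + n • r = 0 := by
  rw [dsh_theta_apply, inv_smul_smul, mul_smul]
  exact ese_sub_add_cancel _ _

/-- an automorphism (as the operator on divisors) -/
def dsh_Smul (g : SemilinearAut K F) : Divisor K F →+ Divisor K F :=
  DistribSMul.toAddMonoidHom (Divisor K F) g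

theorem dsh_Smul_apply (g : SemilinearAut K F) (E : Divisor K F) : dsh_Smul g E = g • E := rfl

end Aut

/-! ### the seam [NL1] and the congruence relation -/

section Congruence

variable {L : Type*} [Field L] [Algebra ℚ L] (A : ValuationSubring L)
  {k : Type*} [Field k] (π : A →+* k) {p : ℕ} [NeZero p] (T : dsh_Tower p)
  (Ft : IntermediateField k (LaurentSeries k))

/-- **Seam [NL1]**: the norm of `y(q^p)` along `α` is `q`-integral and reduces to
`Frob(δt ȳ) · ȳ(q^p)`. -/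
def dsh_NL [Fact p.Prime] [CharP k p] (δt : Ft → Ft) : Prop :=
  ∀ y : dsr_IntFun A π (laurentBaseChange L T.F₀) Ft,
    ∃ z : dsr_IntFun A π (laurentBaseChange L T.F₀) Ft,
      dsr_gen z = (letI := algebraAlong (dsh_alpha L T);
        Algebra.norm (laurentBaseChange L T.F₀) (dsh_beta L T (dsr_gen y))) ∧
      ((dsr_red z : Ft) : LaurentSeries k)
        = coeffMap (frobenius k p) ((δt (dsr_red y) : Ft) : LaurentSeries k)
          * qExpand k p ((dsr_red y : Ft) : LaurentSeries k)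

variable {A π T Ft}
variable [hp : Fact p.Prime] [CharP k p] (hFt : dsh_CoeffStable Ft)

/-- under `[NL1]`: the reduction of the norm is `Fr (δt ȳ) · (Fr⁻¹ ȳ)^p` -/
theorem dsh_red_norm (φ : k ≃+* k) (hφ : ∀ x, φ x = x ^ p) (δt : Ft ≃ₐ[k] Ft)
    (y z : dsr_IntFun A π (laurentBaseChange L T.F₀) Ft)
    (hz : ((dsr_red z : Ft) : LaurentSeries k)
      = coeffMap (frobenius k p) ((δt (dsr_red y) : Ft) : LaurentSeries k)
        * qExpand k p ((dsr_red y : Ft) : LaurentSeries k)) :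
    dsr_red z = ((dsh_caut hFt φ * SemilinearAut.ofAlgAut δt) • dsr_red y)
      * ((dsh_caut hFt φ)⁻¹ • dsr_red y) ^ p := by
  have hfr : (φ : k →+* k) = frobenius k p := RingHom.ext fun x => by
    rw [frobenius_def]; exact hφ x
  apply Subtype.ext
  rw [hz]
  push_cast
  rw [mul_smul, dsh_coe_caut_smul, hfr, SemilinearAut.ofAlgAut_smul]
  congr 1
  have h1 := ca_pow_eq_qExpand_frobenius k p
    ((((dsh_caut hFt φ)⁻¹ • dsr_red y : Ft)) : LaurentSeries k)
  rw [h1, ← hfr, ← dsh_coe_caut_smul hFt, smul_inv_smul]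

variable [HasPrincipalDivisors L (laurentBaseChange L T.F₁)]

/-- **The congruence relation** `red ∘ T_p = (Fr δt + p Fr⁻¹) ∘ red`. -/
theorem dsh_red_hecke (h : dsr_ReductionInputs A π (laurentBaseChange L T.F₀) Ft)
    (hR : est_Riemann L (laurentBaseChange L T.F₀))
    (δt : Ft ≃ₐ[k] Ft) (hNL : dsh_NL A π T Ft δt) (φ : k ≃+* k) (hφ : ∀ x, φ x = x ^ p)
    (hα : (dsh_alpha L T).toRingHom.IsIntegral) (hβ : (dsh_beta L T).toRingHom.IsIntegral)
    (hFI : FundamentalIdentityAlong L (dsh_beta L T) hβ)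
    (hfin : FiniteAlong L (dsh_alpha L T))
    (hN : NormFormulaAlong L (dsh_alpha L T) hfin)
    (x : Pic0 L (laurentBaseChange L T.F₀)) :
    dsr_reduction A π (laurentBaseChange L T.F₀) Ft (dsh_heckePic0 hα hβ hFI hfin hN x)
      = dsh_theta (dsh_caut hFt φ * SemilinearAut.ofAlgAut δt) (dsh_caut hFt φ)⁻¹ p
          (dsr_reduction A π (laurentBaseChange L T.F₀) Ft x) := by
  set g₁ : SemilinearAut k Ft := dsh_caut hFt φ * SemilinearAut.ofAlgAut δt with hg₁
  set g₂ : SemilinearAut k Ft := (dsh_caut hFt φ)⁻¹ with hg₂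
  have hS : ∀ (y : dsr_IntFun A π (laurentBaseChange L T.F₀) Ft)
      (D : Divisor L (laurentBaseChange L T.F₀)) (E : Divisor k Ft),
      (∀ P, D P = P.ord (dsr_gen y)) → (∀ Q, E Q = Q.ord (dsr_red y)) →
        Finsupp.mapDomain (dsr_placeReduction h) (dsh_heckeDiv hα hβ D)
          = dsh_Theta g₁ g₂ p E := by
    intro y D E hD hE
    obtain ⟨z, hz1, hz2⟩ := hNL y
    have hzr := dsh_red_norm hFt φ hφ δt y z hz2
    ext Q
    have hD' : ∀ P, (dsh_heckeDiv hα hβ D) P = P.ord (dsr_gen z) := by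
      intro P
      rw [hz1, dsh_heckeDiv]
      exact ese_correspondence_ord _ _ hβ hα hfin hN (dsr_gen y) (dsr_gen_ne_zero y) D hD P
    have h1 : Finsupp.mapDomain (dsr_placeReduction h) (dsh_heckeDiv hα hβ D) Q
        = Q.ord (dsr_red z) :=
      (dsr_isPlaceReduction h).mapDomain_ord z _ hD' Q
    rw [h1]
    exact (dsh_ord_Theta g₁ g₂ p (dsr_red y) (dsr_red z) (dsr_red_ne_zero y) hzr E hE Q).symm
  exact dsh_transfer_pic0 h hR (dsh_heckeDiv hα hβ) (dsh_Theta g₁ g₂ p)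
    (max (finrankAlong L (dsh_beta L T)) (p + 1))
    (fun v => by
      rw [dsh_heckeDiv, ese_norm_correspondence_single _ _ hβ hα hFI hR.deg_one v]
      exact le_max_left _ _)
    (fun w => (dsh_norm_Theta_single _ _ p w).trans (le_max_right _ _))
    hS
    (dsh_heckePic0 hα hβ hFI hfin hN)
    (fun D => ⟨Divisor.correspondence_mem_degZero _ _ hβ hα hFI D.2, rfl⟩)
    (dsh_theta g₁ g₂ p)
    (fun E => ⟨dsh_Theta_mem_degZero _ _ p E.2, dsh_theta_mk _ _ p E⟩) x

end Congruence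

/-! ### reduction of a diamond automorphism -/

section Diamond

variable {L : Type*} [Field L] {A : ValuationSubring L}
  {k : Type*} [Field k] {π : A →+* k}
  {F : IntermediateField L (LaurentSeries L)} {Ft : IntermediateField k (LaurentSeries k)}

/-- **`red (δ x) = δt (red x)`** for an automorphism `δ` of `F` over `L` which preserves
`q`-integrality and reduces to `δt`. -/
theorem dsh_red_diamond (h : dsr_ReductionInputs A π F Ft) (hR : est_Riemann L F)
    (δ : F ≃ₐ[L] F) (δt : Ft ≃ₐ[k] Ft)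
    (hδ : ∀ y : dsr_IntFun A π F Ft, ∃ z : dsr_IntFun A π F Ft,
      dsr_gen z = δ (dsr_gen y) ∧ dsr_red z = δt (dsr_red y))
    (x : Pic0 L F) :
    dsr_reduction A π F Ft (SemilinearAut.ofAlgAut δ • x)
      = SemilinearAut.ofAlgAut δt • dsr_reduction A π F Ft x := by
  set g : SemilinearAut L F := SemilinearAut.ofAlgAut δ with hg
  set gt : SemilinearAut k Ft := SemilinearAut.ofAlgAut δt with hgt
  have hS : ∀ (y : dsr_IntFun A π F Ft) (D : Divisor L F) (E : Divisor k Ft),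
      (∀ P, D P = P.ord (dsr_gen y)) → (∀ Q, E Q = Q.ord (dsr_red y)) →
        Finsupp.mapDomain (dsr_placeReduction h) (dsh_Smul g D) = dsh_Smul gt E := by
    intro y D E hD hE
    obtain ⟨z, hz1, hz2⟩ := hδ y
    ext Q
    have hD' : ∀ P, (dsh_Smul g D) P = P.ord (dsr_gen z) := by
      intro P
      rw [hz1, dsh_Smul_apply]
      exact egr_div_smul g (dsr_gen y) D hD P
    have h1 : Finsupp.mapDomain (dsr_placeReduction h) (dsh_Smul g D) Q
        = Q.ord (dsr_red z) :=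
      (dsr_isPlaceReduction h).mapDomain_ord z _ hD' Q
    rw [h1, hz2, dsh_Smul_apply]
    exact (egr_div_smul gt (dsr_red y) E hE Q).symm
  exact dsh_transfer_pic0 h hR (dsh_Smul g) (dsh_Smul gt) 1
    (fun v => egr_norm_smul_single g v)
    (fun w => egr_norm_smul_single gt w)
    hS
    (DistribSMul.toAddMonoidHom (Pic0 L F) g)
    (fun D => ⟨SemilinearAut.smul_mem_degZero g D.2, rfl⟩)
    (DistribSMul.toAddMonoidHom (Pic0 k Ft) gt)
    (fun E => ⟨SemilinearAut.smul_mem_degZero gt E.2, rfl⟩) x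

end Diamond

/-! ### the Eichler–Shimura relation after reduction -/

section Relation

variable {A : ValuationSubring (AlgebraicClosure ℚ)} {p : ℕ} [NeZero p] [hp : Fact p.Prime]
  {T : dsh_Tower p}
  {Ft : IntermediateField (IsLocalRing.ResidueField A)
    (LaurentSeries (IsLocalRing.ResidueField A))}
  [CharP (IsLocalRing.ResidueField A) p]

local notation "kA" => IsLocalRing.ResidueField A
local notation "Qb" => AlgebraicClosure ℚ
local notation "Fb" => laurentBaseChange (AlgebraicClosure ℚ) T.F₀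

/-- **The Eichler–Shimura relation after reduction, with diamond**:
`red (σ₀ δ σ₀ x) - red (T_p (σ₀ x)) + p red x = 0` for a Frobenius element `σ₀` at `A`,
`δ = ⟨p⟩` a diamond automorphism with reduction `δt`. -/
theorem dsh_relation (hFt : dsh_CoeffStable Ft)
    (h : dsr_ReductionInputs A (IsLocalRing.residue A) Fb Ft)
    (hR : est_Riemann Qb Fb)
    (δ : Fb ≃ₐ[Qb] Fb) (δt : Ft ≃ₐ[kA] Ft)
    (hδ : ∀ y : dsr_IntFun A (IsLocalRing.residue A) Fb Ft,
      ∃ z : dsr_IntFun A (IsLocalRing.residue A) Fb Ft,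
        dsr_gen z = δ (dsr_gen y) ∧ dsr_red z = δt (dsr_red y))
    (hNL : dsh_NL A (IsLocalRing.residue A) T Ft δt) (hH : dsh_HeckeInputs Qb T)
    (σ₀ : Qb ≃ₐ[ℚ] Qb) (hσ₀ : A.IsFrobeniusAt σ₀ p) (x : Pic0 Qb Fb) :
    dsr_reduction A (IsLocalRing.residue A) Fb Ft
        (σ₀ • (SemilinearAut.ofAlgAut δ • (σ₀ • x)))
      - dsr_reduction A (IsLocalRing.residue A) Fb Ft (dsh_hecke Qb T (σ₀ • x))
      + p • dsr_reduction A (IsLocalRing.residue A) Fb Ft x = 0 := by
  obtain ⟨hα, hβ, hP, hfin, hFI, hN⟩ := hH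
  haveI := hP
  have e : dsh_hecke Qb T (σ₀ • x) = dsh_heckePic0 hα hβ hFI hfin hN (σ₀ • x) := by
    rw [dsh_hecke_eq hα hβ hFI hfin hN]
  set φ := egr_phi (⟨σ₀, hσ₀.mem_decompositionSubgroup⟩ : A.decompositionSubgroup ℚ) with hφdef
  have hφ : ∀ y, φ y = y ^ p := egr_phi_frob σ₀ hσ₀
  have hfr : ∀ y : Pic0 Qb Fb, dsr_reduction A (IsLocalRing.residue A) Fb Ft (σ₀ • y)
      = dsh_caut hFt φ • dsr_reduction A (IsLocalRing.residue A) Fb Ft y :=
    fun y => dsh_red_frob hFt h hR σ₀ hσ₀ y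
  have hd : ∀ y : Pic0 Qb Fb,
      dsr_reduction A (IsLocalRing.residue A) Fb Ft (SemilinearAut.ofAlgAut δ • y)
      = SemilinearAut.ofAlgAut δt • dsr_reduction A (IsLocalRing.residue A) Fb Ft y :=
    fun y => dsh_red_diamond h hR δ δt hδ y
  have hT : dsr_reduction A (IsLocalRing.residue A) Fb Ft (dsh_hecke Qb T (σ₀ • x))
      = dsh_theta (dsh_caut hFt φ * SemilinearAut.ofAlgAut δt) (dsh_caut hFt φ)⁻¹ p
          (dsh_caut hFt φ • dsr_reduction A (IsLocalRing.residue A) Fb Ft x) :=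
    (congrArg (dsr_reduction A (IsLocalRing.residue A) Fb Ft) e).trans
      ((dsh_red_hecke hFt h hR δt hNL φ hφ hα hβ hFI hfin hN (σ₀ • x)).trans
        (congrArg (dsh_theta (dsh_caut hFt φ * SemilinearAut.ofAlgAut δt)
          (dsh_caut hFt φ)⁻¹ p) (hfr x)))
  have h2 : dsr_reduction A (IsLocalRing.residue A) Fb Ft
        (σ₀ • (SemilinearAut.ofAlgAut δ • (σ₀ • x)))
      = dsh_caut hFt φ • (SemilinearAut.ofAlgAut δt •
          (dsh_caut hFt φ • dsr_reduction A (IsLocalRing.residue A) Fb Ft x)) :=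
    (hfr _).trans (congrArg (dsh_caut hFt φ • ·)
      ((hd _).trans (congrArg (SemilinearAut.ofAlgAut δt • ·) (hfr x))))
  rw [hT, h2]
  exact dsh_theta_cancel _ _ p _

end Relation

end Fermat.Agent.DS

end
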