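/-
DS-T, cell [H1]: THE CONGRUENCE RELATION WITH DIAMOND, RELATIVE TO A CLASS `𝒞` OF `q`-INTEGRAL
FUNCTIONS (the satisfiable form of `ES.lean`, see `TransferC.lean` and finding #1656).

`𝒞 ⊆ dsr_IntFun` generates the principal divisors (`dsh_ClassGenerates 𝒞`); the diamond
hypothesis `hδ` and the seam `dsh_NLC` are only required on `𝒞` (the functions `δ y`, `N_α (β y)`
must be `q`-integral, but need not lie in `𝒞`).

* `dsh_red_heckeC`   : `red (T_p x) = (Fr δt + p Fr⁻¹) (red x)`;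
* `dsh_red_diamondC` : `red (δ x) = δt (red x)`;
* `dsh_relationC`    : `red (σ₀ δ σ₀ x) - red (T_p σ₀ x) + p red x = 0`.
-/
import Mathlib
import Fermat.Agent.DS.Hecke.ES
import Fermat.Agent.DS.Hecke.TransferC

set_option autoImplicit false
set_option synthInstance.maxHeartbeats 400000
set_option maxHeartbeats 1000000
set_option linter.style.haveILetI false
set_option linter.unusedSectionVars false

noncomputable section

namespace Fermat.Agent.DS

open ModularCurve AlgebraicCurve HahnSeries Fermat.Agent.JT3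

/-! ### the seam [NL1] on a class and the congruence relation -/

section Congruence

variable {L : Type*} [Field L] [Algebra ℚ L] (A : ValuationSubring L)
  {k : Type*} [Field k] (π : A →+* k) {p : ℕ} [NeZero p] (T : dsh_Tower p)
  (Ft : IntermediateField k (LaurentSeries k))

/-- **Seam [NL1] on a class `𝒞`**: for `y ∈ 𝒞` the norm of `y(q^p)` along `α` is `q`-integral and
reduces to `Frob(δt ȳ) · ȳ(q^p)`. -/
def dsh_NLC [Fact p.Prime] [CharP k p]
    (𝒞 : Set (dsr_IntFun A π (laurentBaseChange L T.F₀) Ft)) (δt : Ft → Ft) : Prop :=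
  ∀ y ∈ 𝒞, ∃ z : dsr_IntFun A π (laurentBaseChange L T.F₀) Ft,
      dsr_gen z = (letI := algebraAlong (dsh_alpha L T);
        Algebra.norm (laurentBaseChange L T.F₀) (dsh_beta L T (dsr_gen y))) ∧
      ((dsr_red z : Ft) : LaurentSeries k)
        = coeffMap (frobenius k p) ((δt (dsr_red y) : Ft) : LaurentSeries k)
          * qExpand k p ((dsr_red y : Ft) : LaurentSeries k)

variable {A π T Ft}
variable [hp : Fact p.Prime] [CharP k p] (hFt : dsh_CoeffStable Ft)

theorem dsh_NLC_of_NL {δt : Ft → Ft} (h : dsh_NL A π T Ft δt)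
    (𝒞 : Set (dsr_IntFun A π (laurentBaseChange L T.F₀) Ft)) : dsh_NLC A π T Ft 𝒞 δt :=
  fun y _ => h y

variable [HasPrincipalDivisors L (laurentBaseChange L T.F₁)]

/-- **The congruence relation** `red ∘ T_p = (Fr δt + p Fr⁻¹) ∘ red`, relative to a class. -/
theorem dsh_red_heckeC (h : dsr_ReductionInputs A π (laurentBaseChange L T.F₀) Ft)
    (hR : est_Riemann L (laurentBaseChange L T.F₀))
    (𝒞 : Set (dsr_IntFun A π (laurentBaseChange L T.F₀) Ft)) (h𝒞 : dsh_ClassGenerates 𝒞)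
    (δt : Ft ≃ₐ[k] Ft) (hNL : dsh_NLC A π T Ft 𝒞 δt) (φ : k ≃+* k) (hφ : ∀ x, φ x = x ^ p)
    (hα : (dsh_alpha L T).toRingHom.IsIntegral) (hβ : (dsh_beta L T).toRingHom.IsIntegral)
    (hFI : FundamentalIdentityAlong L (dsh_beta L T) hβ)
    (hfin : FiniteAlong L (dsh_alpha L T))
    (hN : NormFormulaAlong L (dsh_alpha L T) hfin)
    (x : Pic0 L (laurentBaseChange L T.F₀)) :
    dsr_reduction A π (laurentBaseChange L T.F₀) Ft (dsh_heckePic0 hα hβ hFI hfin hN x)
      = dsh_theta (dsh_caut hFt φ * SemilinearAut.ofAlgAut δt) (dsh_caut hFt φ)⁻¹ p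
          (dsr_reduction A π (laurentBaseChange L T.F₀) Ft x) := by
  set g₁ : SemilinearAut k Ft := dsh_caut hFt φ * SemilinearAut.ofAlgAut δt with hg₁
  set g₂ : SemilinearAut k Ft := (dsh_caut hFt φ)⁻¹ with hg₂
  have hS : ∀ y ∈ 𝒞, ∀ (D : Divisor L (laurentBaseChange L T.F₀)) (E : Divisor k Ft),
      (∀ P, D P = P.ord (dsr_gen y)) → (∀ Q, E Q = Q.ord (dsr_red y)) →
        Finsupp.mapDomain (dsr_placeReduction h) (dsh_heckeDiv hα hβ D)
          = dsh_Theta g₁ g₂ p E := by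
    intro y hy D E hD hE
    obtain ⟨z, hz1, hz2⟩ := hNL y hy
    have hzr := dsh_red_norm hFt φ hφ δt y z hz2
    ext Q
    have hD' : ∀ P, (dsh_heckeDiv hα hβ D) P = P.ord (dsr_gen z) := by
      intro P
      rw [hz1, dsh_heckeDiv]
      exact ese_correspondence_ord _ _ hβ hα hfin hN (dsr_gen y) (dsr_gen_ne_zero y) D hD P
    have h1 : Finsupp.mapDomain (dsr_placeReduction h) (dsh_heckeDiv hα hβ D) Q
        = Q.ord (dsr_red z) :=
      (dsr_isPlaceReduction h).mapDomain_ord z _ hD' Q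
    rw [h1]
    exact (dsh_ord_Theta g₁ g₂ p (dsr_red y) (dsr_red z) (dsr_red_ne_zero y) hzr E hE Q).symm
  exact dsh_transferC_pic0 h hR 𝒞 h𝒞 (dsh_heckeDiv hα hβ) (dsh_Theta g₁ g₂ p)
    (max (finrankAlong L (dsh_beta L T)) (p + 1))
    (fun v => by
      rw [dsh_heckeDiv, ese_norm_correspondence_single _ _ hβ hα hFI hR.deg_one v]
      exact le_max_left _ _)
    (fun w => (dsh_norm_Theta_single _ _ p w).trans (le_max_right _ _))
    hS
    (dsh_heckePic0 hα hβ hFI hfin hN)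
    (fun D => ⟨Divisor.correspondence_mem_degZero _ _ hβ hα hFI D.2, rfl⟩)
    (dsh_theta g₁ g₂ p)
    (fun E => ⟨dsh_Theta_mem_degZero _ _ p E.2, dsh_theta_mk _ _ p E⟩) x

end Congruence

/-! ### reduction of a diamond automorphism -/

section Diamond

variable {L : Type*} [Field L] {A : ValuationSubring L}
  {k : Type*} [Field k] {π : A →+* k}
  {F : IntermediateField L (LaurentSeries L)} {Ft : IntermediateField k (LaurentSeries k)}

/-- **`red (δ x) = δt (red x)`** for an automorphism `δ` of `F` over `L` which, on a generating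
class `𝒞`, preserves `q`-integrality and reduces to `δt`. -/
theorem dsh_red_diamondC (h : dsr_ReductionInputs A π F Ft) (hR : est_Riemann L F)
    (𝒞 : Set (dsr_IntFun A π F Ft)) (h𝒞 : dsh_ClassGenerates 𝒞)
    (δ : F ≃ₐ[L] F) (δt : Ft ≃ₐ[k] Ft)
    (hδ : ∀ y ∈ 𝒞, ∃ z : dsr_IntFun A π F Ft,
      dsr_gen z = δ (dsr_gen y) ∧ dsr_red z = δt (dsr_red y))
    (x : Pic0 L F) :
    dsr_reduction A π F Ft (SemilinearAut.ofAlgAut δ • x)
      = SemilinearAut.ofAlgAut δt • dsr_reduction A π F Ft x := by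
  set g : SemilinearAut L F := SemilinearAut.ofAlgAut δ with hg
  set gt : SemilinearAut k Ft := SemilinearAut.ofAlgAut δt with hgt
  have hS : ∀ y ∈ 𝒞, ∀ (D : Divisor L F) (E : Divisor k Ft),
      (∀ P, D P = P.ord (dsr_gen y)) → (∀ Q, E Q = Q.ord (dsr_red y)) →
        Finsupp.mapDomain (dsr_placeReduction h) (dsh_Smul g D) = dsh_Smul gt E := by
    intro y hy D E hD hE
    obtain ⟨z, hz1, hz2⟩ := hδ y hy
    ext Q
    have hD' : ∀ P, (dsh_Smul g D) P = P.ord (dsr_gen z) := by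
      intro P
      rw [hz1, dsh_Smul_apply]
      exact egr_div_smul g (dsr_gen y) D hD P
    have h1 : Finsupp.mapDomain (dsr_placeReduction h) (dsh_Smul g D) Q
        = Q.ord (dsr_red z) :=
      (dsr_isPlaceReduction h).mapDomain_ord z _ hD' Q
    rw [h1, hz2, dsh_Smul_apply]
    exact (egr_div_smul gt (dsr_red y) E hE Q).symm
  exact dsh_transferC_pic0 h hR 𝒞 h𝒞 (dsh_Smul g) (dsh_Smul gt) 1
    (fun v => egr_norm_smul_single g v)
    (fun w => egr_norm_smul_single gt w)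
    hS
    (DistribSMul.toAddMonoidHom (Pic0 L F) g)
    (fun D => ⟨SemilinearAut.smul_mem_degZero g D.2, rfl⟩)
    (DistribSMul.toAddMonoidHom (Pic0 k Ft) gt)
    (fun E => ⟨SemilinearAut.smul_mem_degZero gt E.2, rfl⟩) x

end Diamond

/-! ### the Eichler–Shimura relation after reduction -/

section Relation

variable {A : ValuationSubring (AlgebraicClosure ℚ)} {p : ℕ} [NeZero p] [hp : Fact p.Prime]
  {T : dsh_Tower p}
  {Ft : IntermediateField (IsLocalRing.ResidueField A)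
    (LaurentSeries (IsLocalRing.ResidueField A))}
  [CharP (IsLocalRing.ResidueField A) p]

local notation "kA" => IsLocalRing.ResidueField A
local notation "Qb" => AlgebraicClosure ℚ
local notation "Fb" => laurentBaseChange (AlgebraicClosure ℚ) T.F₀

/-- **The Eichler–Shimura relation after reduction, with diamond, relative to a class**:
`red (σ₀ δ σ₀ x) - red (T_p (σ₀ x)) + p red x = 0` for a Frobenius element `σ₀` at `A`. -/
theorem dsh_relationC (hFt : dsh_CoeffStable Ft)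
    (h : dsr_ReductionInputs A (IsLocalRing.residue A) Fb Ft)
    (hR : est_Riemann Qb Fb)
    (𝒞 : Set (dsr_IntFun A (IsLocalRing.residue A) Fb Ft)) (h𝒞 : dsh_ClassGenerates 𝒞)
    (δ : Fb ≃ₐ[Qb] Fb) (δt : Ft ≃ₐ[kA] Ft)
    (hδ : ∀ y ∈ 𝒞, ∃ z : dsr_IntFun A (IsLocalRing.residue A) Fb Ft,
        dsr_gen z = δ (dsr_gen y) ∧ dsr_red z = δt (dsr_red y))
    (hNL : dsh_NLC A (IsLocalRing.residue A) T Ft 𝒞 δt) (hH : dsh_HeckeInputs Qb T)
    (σ₀ : Qb ≃ₐ[ℚ] Qb) (hσ₀ : A.IsFrobeniusAt σ₀ p) (x : Pic0 Qb Fb) :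
    dsr_reduction A (IsLocalRing.residue A) Fb Ft
        (σ₀ • (SemilinearAut.ofAlgAut δ • (σ₀ • x)))
      - dsr_reduction A (IsLocalRing.residue A) Fb Ft (dsh_hecke Qb T (σ₀ • x))
      + p • dsr_reduction A (IsLocalRing.residue A) Fb Ft x = 0 := by
  obtain ⟨hα, hβ, hP, hfin, hFI, hN⟩ := hH
  haveI := hP
  have e : dsh_hecke Qb T (σ₀ • x) = dsh_heckePic0 hα hβ hFI hfin hN (σ₀ • x) := by
    rw [dsh_hecke_eq hα hβ hFI hfin hN]
  set φ := egr_phi (⟨σ₀, hσ₀.mem_decompositionSubgroup⟩ : A.decompositionSubgroup ℚ) with hφdef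
  have hφ : ∀ y, φ y = y ^ p := egr_phi_frob σ₀ hσ₀
  have hfr : ∀ y : Pic0 Qb Fb, dsr_reduction A (IsLocalRing.residue A) Fb Ft (σ₀ • y)
      = dsh_caut hFt φ • dsr_reduction A (IsLocalRing.residue A) Fb Ft y :=
    fun y => dsh_red_frob hFt h hR σ₀ hσ₀ y
  have hd : ∀ y : Pic0 Qb Fb,
      dsr_reduction A (IsLocalRing.residue A) Fb Ft (SemilinearAut.ofAlgAut δ • y)
      = SemilinearAut.ofAlgAut δt • dsr_reduction A (IsLocalRing.residue A) Fb Ft y :=
    fun y => dsh_red_diamondC h hR 𝒞 h𝒞 δ δt hδ y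
  have hT : dsr_reduction A (IsLocalRing.residue A) Fb Ft (dsh_hecke Qb T (σ₀ • x))
      = dsh_theta (dsh_caut hFt φ * SemilinearAut.ofAlgAut δt) (dsh_caut hFt φ)⁻¹ p
          (dsh_caut hFt φ • dsr_reduction A (IsLocalRing.residue A) Fb Ft x) :=
    (congrArg (dsr_reduction A (IsLocalRing.residue A) Fb Ft) e).trans
      ((dsh_red_heckeC hFt h hR 𝒞 h𝒞 δt hNL φ hφ hα hβ hFI hfin hN (σ₀ • x)).trans
        (congrArg (dsh_theta (dsh_caut hFt φ * SemilinearAut.ofAlgAut δt)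
          (dsh_caut hFt φ)⁻¹ p) (hfr x)))
  have h2 : dsr_reduction A (IsLocalRing.residue A) Fb Ft
        (σ₀ • (SemilinearAut.ofAlgAut δ • (σ₀ • x)))
      = dsh_caut hFt φ • (SemilinearAut.ofAlgAut δt •
          (dsh_caut hFt φ • dsr_reduction A (IsLocalRing.residue A) Fb Ft x)) :=
    (hfr _).trans (congrArg (dsh_caut hFt φ • ·)
      ((hd _).trans (congrArg (SemilinearAut.ofAlgAut δt • ·) (hfr x))))
  rw [hT, h2]
  exact dsh_theta_cancel _ _ p _

end Relation

end Fermat.Agent.DS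

end
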