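/-
DS-T, cell [H1], file [H3]: CONSEQUENCES ON PRIME-TO-`p` TORSION, generic in the tower
(twin of `JT3/ES/Torsion.lean`).  `A ⊂ Q̄` a place of residue characteristic `p`,
`F̄ = laurentBaseChange Q̄ T.F₀`, `red : Pic⁰ F̄ → Pic⁰ Ft` the reduction map, and the S18-twin
hypothesis `hinj` (`red` is injective on `m`-torsion):

* `dsh_unramified`     : the inertia group at `A` fixes every `m`-torsion point;
* `dsh_frobQuadratic`  : `σ δ σ x - T_p (σ x) + p x = 0` for every Frobenius element `σ` at `A`;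
* `dsh_frobQuadratic'` : `δ σ² x - T_p (σ x) + p x = 0` when `δ` commutes with the Galois action
  (`dsh_smul_comm_of_field`: e.g. when `δ` commutes with coefficientwise automorphisms).
-/
import Mathlib
import Fermat.Agent.DS.Hecke.ES

set_option autoImplicit false
set_option synthInstance.maxHeartbeats 400000
set_option maxHeartbeats 1000000
set_option linter.style.haveILetI false
set_option linter.unusedSectionVars false

noncomputable section

namespace Fermat.Agent.DS

open ModularCurve AlgebraicCurve HahnSeries Fermat.Agent.JT3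

section Aux

variable {G H M : Type*} [Group G] [Group H] [AddCommGroup M] [DistribMulAction G M]
  [DistribMulAction H M]

theorem dsh_nsmul_smul (g : G) (m : ℕ) (x : M) : m • (g • x) = g • (m • x) :=
  (map_nsmul (DistribSMul.toAddMonoidHom M g) m x).symm

theorem dsh_aux_inertia (τ : G) (x : M) (m : ℕ) (h : m • x = 0) : m • (τ • x - x) = 0 := by
  rw [nsmul_sub, dsh_nsmul_smul, h, smul_zero, sub_zero]

theorem dsh_aux_frob (σ : G) (d : H) (T : M →+ M) (x : M) (m ℓ : ℕ) (h : m • x = 0) :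
    m • (σ • (d • (σ • x)) - T (σ • x) + ℓ • x) = 0 := by
  rw [nsmul_add, nsmul_sub, dsh_nsmul_smul, dsh_nsmul_smul, dsh_nsmul_smul, ← map_nsmul T,
    dsh_nsmul_smul, nsmul_left_comm, h]
  simp

end Aux

section Comm

variable {L : Type*} [Field L] [Algebra ℚ L] (F₀ : IntermediateField ℚ (LaurentSeries ℚ))

/-- an `L`-automorphism of `F̄` that commutes with the coefficientwise Galois action on functions
commutes with it on `Pic⁰` -/
theorem dsh_smul_comm_of_field (δ : laurentBaseChange L F₀ ≃ₐ[L] laurentBaseChange L F₀)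
    (σ : L ≃ₐ[ℚ] L)
    (hδσ : ∀ x : laurentBaseChange L F₀,
      δ (arithmeticGalois F₀ σ • x) = arithmeticGalois F₀ σ • δ x)
    (x : Pic0 L (laurentBaseChange L F₀)) :
    σ • (SemilinearAut.ofAlgAut δ • x) = SemilinearAut.ofAlgAut δ • (σ • x) := by
  rw [galois_smul_pic0_def, galois_smul_pic0_def, ← mul_smul, ← mul_smul]
  congr 1
  refine Subtype.ext (Prod.ext (RingEquiv.ext fun y => ?_) ?_)
  · exact (hδσ y).symm
  · show (σ.toRingEquiv * 1 : RingAut L) = 1 * σ.toRingEquiv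
    rw [mul_one, one_mul]

end Comm

section Torsion

variable {A : ValuationSubring (AlgebraicClosure ℚ)} {p : ℕ} [NeZero p] [hp : Fact p.Prime]
  {T : dsh_Tower p}
  {Ft : IntermediateField (IsLocalRing.ResidueField A)
    (LaurentSeries (IsLocalRing.ResidueField A))}
  [CharP (IsLocalRing.ResidueField A) p]

local notation "kA" => IsLocalRing.ResidueField A
local notation "Qb" => AlgebraicClosure ℚ

/-- **unramified at `A`** on `m`-torsion -/
theorem dsh_unramified {F₀ : IntermediateField ℚ (LaurentSeries ℚ)}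
    (hFt : dsh_CoeffStable Ft)
    (h : dsr_ReductionInputs A (IsLocalRing.residue A) (laurentBaseChange Qb F₀) Ft)
    (hR : est_Riemann Qb (laurentBaseChange Qb F₀))
    (m : ℕ)
    (hinj : ∀ z : Pic0 Qb (laurentBaseChange Qb F₀), m • z = 0 →
      dsr_reduction A (IsLocalRing.residue A) (laurentBaseChange Qb F₀) Ft z = 0 → z = 0)
    (τ : Qb ≃ₐ[ℚ] Qb) (hτ : τ ∈ A.inertiaSubgroupIn ℚ)
    (x : Pic0 Qb (laurentBaseChange Qb F₀)) (hx : m • x = 0) : τ • x = x := by
  have h0 : τ • x - x = 0 := by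
    refine hinj _ (dsh_aux_inertia τ x _ hx) ?_
    rw [map_sub, dsh_red_inertia hFt h hR τ hτ x, sub_self]
  exact sub_eq_zero.mp h0

local notation "Fb" => laurentBaseChange (AlgebraicClosure ℚ) T.F₀

/-- **the Eichler–Shimura relation with diamond** on `m`-torsion -/
theorem dsh_frobQuadratic (hFt : dsh_CoeffStable Ft)
    (h : dsr_ReductionInputs A (IsLocalRing.residue A) Fb Ft)
    (hR : est_Riemann Qb Fb)
    (δ : Fb ≃ₐ[Qb] Fb) (δt : Ft ≃ₐ[kA] Ft)
    (hδ : ∀ y : dsr_IntFun A (IsLocalRing.residue A) Fb Ft,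
      ∃ z : dsr_IntFun A (IsLocalRing.residue A) Fb Ft,
        dsr_gen z = δ (dsr_gen y) ∧ dsr_red z = δt (dsr_red y))
    (hNL : dsh_NL A (IsLocalRing.residue A) T Ft δt) (hH : dsh_HeckeInputs Qb T)
    (m : ℕ)
    (hinj : ∀ z : Pic0 Qb Fb, m • z = 0 →
      dsr_reduction A (IsLocalRing.residue A) Fb Ft z = 0 → z = 0)
    (σ : Qb ≃ₐ[ℚ] Qb) (hσ : A.IsFrobeniusAt σ p) (x : Pic0 Qb Fb) (hx : m • x = 0) :
    σ • (SemilinearAut.ofAlgAut δ • (σ • x)) - dsh_hecke Qb T (σ • x) + p • x = 0 := by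
  refine hinj _ (dsh_aux_frob σ (SemilinearAut.ofAlgAut δ) (dsh_hecke Qb T) x m p hx) ?_
  rw [map_add, map_sub, map_nsmul]
  exact dsh_relation hFt h hR δ δt hδ hNL hH σ hσ x

/-- the same with `δ` in front, when `δ` commutes with the Frobenius element -/
theorem dsh_frobQuadratic' (hFt : dsh_CoeffStable Ft)
    (h : dsr_ReductionInputs A (IsLocalRing.residue A) Fb Ft)
    (hR : est_Riemann Qb Fb)
    (δ : Fb ≃ₐ[Qb] Fb) (δt : Ft ≃ₐ[kA] Ft)
    (hδ : ∀ y : dsr_IntFun A (IsLocalRing.residue A) Fb Ft,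
      ∃ z : dsr_IntFun A (IsLocalRing.residue A) Fb Ft,
        dsr_gen z = δ (dsr_gen y) ∧ dsr_red z = δt (dsr_red y))
    (hNL : dsh_NL A (IsLocalRing.residue A) T Ft δt) (hH : dsh_HeckeInputs Qb T)
    (m : ℕ)
    (hinj : ∀ z : Pic0 Qb Fb, m • z = 0 →
      dsr_reduction A (IsLocalRing.residue A) Fb Ft z = 0 → z = 0)
    (σ : Qb ≃ₐ[ℚ] Qb) (hσ : A.IsFrobeniusAt σ p)
    (hδσ : ∀ y : Fb, δ (arithmeticGalois T.F₀ σ • y) = arithmeticGalois T.F₀ σ • δ y)
    (x : Pic0 Qb Fb) (hx : m • x = 0) :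
    SemilinearAut.ofAlgAut δ • (σ • (σ • x)) - dsh_hecke Qb T (σ • x) + p • x = 0 := by
  rw [← dsh_smul_comm_of_field T.F₀ δ σ hδσ (σ • x)]
  exact dsh_frobQuadratic hFt h hR δ δt hδ hNL hH m hinj σ hσ x hx

end Torsion

end Fermat.Agent.DS

end
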