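/-
DS-T, cell [H1]: THE EICHLER–SHIMURA RELATION WITH DIAMOND ON TORSION, RELATIVE TO A CLASS `𝒞` OF
`q`-INTEGRAL FUNCTIONS (the satisfiable form of `Torsion.lean`; see `TransferC.lean`).

* `dsh_frobQuadraticC`  : `σ δ σ x - T_p (σ x) + p x = 0` on `m`-torsion, `σ` a Frobenius element;
* `dsh_frobQuadraticC'` : `δ σ² x - T_p (σ x) + p x = 0` when `δ` commutes with the coefficientwise
  Galois action on functions.
(`dsh_unramified` of `Torsion.lean` does not involve diamonds and needs no change.)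
-/
import Mathlib
import Fermat.Agent.DS.Hecke.ESC
import Fermat.Agent.DS.Hecke.Torsion

set_option autoImplicit false
set_option synthInstance.maxHeartbeats 400000
set_option maxHeartbeats 1000000
set_option linter.style.haveILetI false
set_option linter.unusedSectionVars false

noncomputable section

namespace Fermat.Agent.DS

open ModularCurve AlgebraicCurve HahnSeries Fermat.Agent.JT3

section Torsion

variable {A : ValuationSubring (AlgebraicClosure ℚ)} {p : ℕ} [NeZero p] [hp : Fact p.Prime]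
  {T : dsh_Tower p}
  {Ft : IntermediateField (IsLocalRing.ResidueField A)
    (LaurentSeries (IsLocalRing.ResidueField A))}
  [CharP (IsLocalRing.ResidueField A) p]

local notation "kA" => IsLocalRing.ResidueField A
local notation "Qb" => AlgebraicClosure ℚ
local notation "Fb" => laurentBaseChange (AlgebraicClosure ℚ) T.F₀

/-- **the Eichler–Shimura relation with diamond** on `m`-torsion, relative to a class -/
theorem dsh_frobQuadraticC (hFt : dsh_CoeffStable Ft)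
    (h : dsr_ReductionInputs A (IsLocalRing.residue A) Fb Ft)
    (hR : est_Riemann Qb Fb)
    (𝒞 : Set (dsr_IntFun A (IsLocalRing.residue A) Fb Ft)) (h𝒞 : dsh_ClassGenerates 𝒞)
    (δ : Fb ≃ₐ[Qb] Fb) (δt : Ft ≃ₐ[kA] Ft)
    (hδ : ∀ y ∈ 𝒞, ∃ z : dsr_IntFun A (IsLocalRing.residue A) Fb Ft,
        dsr_gen z = δ (dsr_gen y) ∧ dsr_red z = δt (dsr_red y))
    (hNL : dsh_NLC A (IsLocalRing.residue A) T Ft 𝒞 δt) (hH : dsh_HeckeInputs Qb T)
    (m : ℕ)
    (hinj : ∀ z : Pic0 Qb Fb, m • z = 0 →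
      dsr_reduction A (IsLocalRing.residue A) Fb Ft z = 0 → z = 0)
    (σ : Qb ≃ₐ[ℚ] Qb) (hσ : A.IsFrobeniusAt σ p) (x : Pic0 Qb Fb) (hx : m • x = 0) :
    σ • (SemilinearAut.ofAlgAut δ • (σ • x)) - dsh_hecke Qb T (σ • x) + p • x = 0 := by
  refine hinj _ (dsh_aux_frob σ (SemilinearAut.ofAlgAut δ) (dsh_hecke Qb T) x m p hx) ?_
  rw [map_add, map_sub, map_nsmul]
  exact dsh_relationC hFt h hR 𝒞 h𝒞 δ δt hδ hNL hH σ hσ x

/-- the same with `δ` in front, when `δ` commutes with the Frobenius element -/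
theorem dsh_frobQuadraticC' (hFt : dsh_CoeffStable Ft)
    (h : dsr_ReductionInputs A (IsLocalRing.residue A) Fb Ft)
    (hR : est_Riemann Qb Fb)
    (𝒞 : Set (dsr_IntFun A (IsLocalRing.residue A) Fb Ft)) (h𝒞 : dsh_ClassGenerates 𝒞)
    (δ : Fb ≃ₐ[Qb] Fb) (δt : Ft ≃ₐ[kA] Ft)
    (hδ : ∀ y ∈ 𝒞, ∃ z : dsr_IntFun A (IsLocalRing.residue A) Fb Ft,
        dsr_gen z = δ (dsr_gen y) ∧ dsr_red z = δt (dsr_red y))
    (hNL : dsh_NLC A (IsLocalRing.residue A) T Ft 𝒞 δt) (hH : dsh_HeckeInputs Qb T)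
    (m : ℕ)
    (hinj : ∀ z : Pic0 Qb Fb, m • z = 0 →
      dsr_reduction A (IsLocalRing.residue A) Fb Ft z = 0 → z = 0)
    (σ : Qb ≃ₐ[ℚ] Qb) (hσ : A.IsFrobeniusAt σ p)
    (hδσ : ∀ y : Fb, δ (arithmeticGalois T.F₀ σ • y) = arithmeticGalois T.F₀ σ • δ y)
    (x : Pic0 Qb Fb) (hx : m • x = 0) :
    SemilinearAut.ofAlgAut δ • (σ • (σ • x)) - dsh_hecke Qb T (σ • x) + p • x = 0 := by
  rw [← dsh_smul_comm_of_field T.F₀ δ σ hδσ (σ • x)]
  exact dsh_frobQuadraticC hFt h hR 𝒞 h𝒞 δ δt hδ hNL hH m hinj σ hσ x hx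

end Torsion

end Fermat.Agent.DS

end
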