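/-
DS (Deligne–Serre) / DS-T / cell [H1] (Hecke, Eichler–Shimura for `Γ₁(M)`), leaf [NL1]-generic,
part (B1) (helper24): THE NORM OF `y(q^p)` ALONG THE DEGENERACY MAP `α`, AS A PRODUCT OF SERIES,
GENERIC IN THE PAIR OF FUNCTION FIELDS AND WITH A DIAMOND TWIST.

Generic twin of `JT3/NL/Norm.lean` (`nln_norm`).  `F`, `F'` are fields over `L` with
`q`-expansion maps `e : F → L((q))`, `e' : F' → L((q))`; `α β : F →ₐ[L] F'` are the degeneracy maps
(`e' ∘ α = e`, `e' ∘ β = (q ↦ q^p) ∘ e`), `[F' : α F] = p + 1`, and `w : F' → Ω((t))` is a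
"swap embedding":  `w ∘ α = (q ↦ t^p)`, `w ∘ β = δ` at `t`, where `δ : F → F` is the diamond
operator `⟨p⟩` (for `Γ₀`: `δ = id` and `w` is the Atkin–Lehner swap `nls_exists_swap`).  Then
  `(N_α (β y)) (q^p) = y(q^{p²}) · ∏_{b<p} (δ y)(ζ^b q)`.
The `p + 1` embeddings of `F'` over `F` (embedded by `q ↦ t^p`) into `Ω((t))` are `z ↦ z(t^p)` and
`z ↦ (w z)(ζ^b t)`, `b < p`; they are separated by `β s` for any `s` with `(δ s)` having a nonzero
coefficient at `q^{-1}` (`s = j`).
Prefix `dsh_nl_`.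
-/
import Mathlib
import Fermat.Agent.JT3.NL.NormProd
import Fermat.Agent.S28.Formal.Subst
import Fermat.Prelude.Def_AlgebraicCurve_Correspondence

set_option autoImplicit false
set_option linter.style.haveILetI false
set_option linter.unusedSectionVars false

noncomputable section

namespace Fermat.Agent.DS

open ModularCurve AlgebraicCurve Fermat.Agent.JT3 Fermat.Agent.S28

/-- `coeffMap` along an injective ring homomorphism is injective -/
theorem dsh_nl_coeffMap_injective {R S : Type*} [CommRing R] [CommRing S] (φ : R →+* S)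
    (hφ : Function.Injective φ) : Function.Injective (coeffMap φ) := by
  intro x y hxy
  ext k
  apply hφ
  rw [← coeffMap_coeff, ← coeffMap_coeff, hxy]

/-- a twist by a `p`-th root of unity fixes the series in `t^p` -/
theorem dsh_nl_twist_qExpand {R : Type*} [CommRing R] (p : ℕ) [NeZero p] (c : Rˣ) (hc : c ^ p = 1)
    (f : LaurentSeries R) :
    fs_twist c (qExpand R p f) = qExpand R p f := by
  rw [← fs_qExpand_twist, hc, fs_twist_one]

section main

variable {L Ω F F' : Type*} [Field L] [Field Ω] [Field F] [Field F'] [Algebra L F] [Algebra L F']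
  (e : F →+* LaurentSeries L) (e' : F' →+* LaurentSeries L) (ι : L →+* Ω) (p : ℕ) [NeZero p]

/-- the base embedding `x ↦ x(t^p)` of `F` into `Ω((t))` -/
def dsh_nl_i₀ : F →+* LaurentSeries Ω :=
  (coeffMap ι).comp ((qExpand L p).comp e)

theorem dsh_nl_i₀_apply (x : F) : dsh_nl_i₀ e ι p x = coeffMap ι (qExpand L p (e x)) := rfl

/-- the `p + 1` embeddings of `F'` into `Ω((t))` -/
def dsh_nl_σ (w : F' →+* LaurentSeries Ω) (ζ : Lˣ) : Option (Fin p) → (F' →+* LaurentSeries Ω)
  | none => dsh_nl_i₀ e' ι p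
  | some b => (fs_twist (Units.map (ι : L →* Ω) ζ ^ (b : ℕ))).comp w

theorem dsh_nl_σ_none (w : F' →+* LaurentSeries Ω) (ζ : Lˣ) (z : F') :
    dsh_nl_σ e' ι p w ζ none z = coeffMap ι (qExpand L p (e' z)) := rfl

theorem dsh_nl_σ_some (w : F' →+* LaurentSeries Ω) (ζ : Lˣ) (b : Fin p) (z : F') :
    dsh_nl_σ e' ι p w ζ (some b) z = fs_twist (Units.map (ι : L →* Ω) ζ ^ (b : ℕ)) (w z) := rfl

theorem dsh_nl_coeff_none (hp : 2 ≤ p) (w : F' →+* LaurentSeries Ω) (ζ : Lˣ) (z : F') :
    (dsh_nl_σ e' ι p w ζ none z).coeff (-1) = 0 := by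
  rw [dsh_nl_σ_none, coeffMap_coeff, qExpand_coeff_of_not_dvd, map_zero]
  intro h
  have h1 : (p : ℤ) ∣ 1 := (Int.dvd_neg).1 h
  have h2 : (p : ℤ) ≤ 1 := Int.le_of_dvd one_pos h1
  omega

theorem dsh_nl_coeff_some (β : F →ₐ[L] F') (δ : F → F) (w : F' →+* LaurentSeries Ω)
    (hwβ : ∀ y : F, w (β y) = coeffMap ι (e (δ y))) (ζ : Lˣ) (b : Fin p) (s : F) :
    (dsh_nl_σ e' ι p w ζ (some b) (β s)).coeff (-1) =
      (((Units.map (ι : L →* Ω) ζ ^ (b : ℕ)) ^ (-1 : ℤ) : Ωˣ) : Ω) *
        ι ((e (δ s)).coeff (-1)) := by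
  rw [dsh_nl_σ_some, hwβ, fs_twist_coeff, coeffMap_coeff]

/-- **[NL1]-generic (B1): the norm of `y(q^p)` along `α`, as a product of series.** -/
theorem dsh_nl_norm [CharZero L] (hp : p.Prime) (α β : F →ₐ[L] F') (δ : F → F)
    (hα : ∀ x : F, e' (α x) = e x) (hβ : ∀ y : F, e' (β y) = qExpand L p (e y))
    (hdeg : finrankAlong L α = p + 1)
    (w : F' →+* LaurentSeries Ω)
    (hwα : ∀ x : F, w (α x) = coeffMap ι (qExpand L p (e x)))
    (hwβ : ∀ y : F, w (β y) = coeffMap ι (e (δ y)))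
    (s : F) (hs : (e (δ s)).coeff (-1) ≠ 0)
    (ζ : Lˣ) (hζ : IsPrimitiveRoot ζ p) (y : F) :
    qExpand L p (e (letI := algebraAlong α; Algebra.norm F (β y))) =
      qExpand L (p ^ 2) (e y) * ∏ b ∈ Finset.range p, fs_twist (ζ ^ b) (e (δ y)) := by
  classical
  letI : Algebra F F' := algebraAlong α
  have hfr : Module.finrank F F' = p + 1 := hdeg
  haveI : FiniteDimensional F F' := Module.finite_of_finrank_pos (by rw [hfr]; omega)
  haveI : CharZero F := charZero_of_injective_algebraMap (algebraMap L F).injective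
  haveI : Algebra.IsSeparable F F' := Algebra.IsAlgebraic.isSeparable_of_perfectField
  have hιinj : Function.Injective ι := ι.injective
  set ζC : Ωˣ := Units.map (ι : L →* Ω) ζ with hζC
  have hζCprim : IsPrimitiveRoot ζC p := hζ.map_of_injective (Units.map_injective hιinj)
  have hp2 : 2 ≤ p := hp.two_le
  have hsΩ : ι ((e (δ s)).coeff (-1)) ≠ 0 := (map_ne_zero ι).mpr hs
  -- the embeddings restrict to `i₀`
  have hσ : ∀ i (x : F), dsh_nl_σ e' ι p w ζ i (algebraMap F F' x) = dsh_nl_i₀ e ι p x := by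
    intro i x
    have hx : algebraMap F F' x = α x := rfl
    rw [hx]
    cases i with
    | none => rw [dsh_nl_σ_none, dsh_nl_i₀_apply, hα]
    | some b =>
      rw [dsh_nl_σ_some, hwα, dsh_nl_i₀_apply, fs_coeffMap_qExpand]
      apply dsh_nl_twist_qExpand
      rw [← pow_mul, mul_comm, pow_mul, hζCprim.pow_eq_one, one_pow]
  -- the embeddings are pairwise distinct
  have hinj : Function.Injective (dsh_nl_σ e' ι p w ζ) := by
    intro i j hij
    have hc : (dsh_nl_σ e' ι p w ζ i (β s)).coeff (-1) =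
        (dsh_nl_σ e' ι p w ζ j (β s)).coeff (-1) := by rw [hij]
    cases i with
    | none =>
      cases j with
      | none => rfl
      | some b =>
        rw [dsh_nl_coeff_none e' ι p hp2, dsh_nl_coeff_some e e' ι p β δ w hwβ] at hc
        exact absurd hc.symm (mul_ne_zero (Units.ne_zero _) hsΩ)
    | some a =>
      cases j with
      | none =>
        rw [dsh_nl_coeff_none e' ι p hp2, dsh_nl_coeff_some e e' ι p β δ w hwβ] at hc
        exact absurd hc (mul_ne_zero (Units.ne_zero _) hsΩ)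
      | some b =>
        rw [dsh_nl_coeff_some e e' ι p β δ w hwβ, dsh_nl_coeff_some e e' ι p β δ w hwβ] at hc
        have hc' := mul_right_cancel₀ hsΩ hc
        have h1 : ζC ^ (a : ℕ) = ζC ^ (b : ℕ) := by
          have := Units.ext hc'
          rwa [zpow_neg_one, zpow_neg_one, inv_inj] at this
        have h2 : (a : ℕ) = (b : ℕ) := hζCprim.pow_inj a.2 b.2 h1
        rw [Fin.ext h2]
  have hcard : Fintype.card (Option (Fin p)) = Module.finrank F F' := by
    rw [hfr, Fintype.card_option, Fintype.card_fin]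
  have key := nlp_norm_eq_prod (dsh_nl_i₀ e ι p) (dsh_nl_σ e' ι p w ζ) hσ hinj hcard (β y)
  have hR : ∏ i, dsh_nl_σ e' ι p w ζ i (β y) =
      coeffMap ι (qExpand L (p ^ 2) (e y) *
        ∏ b ∈ Finset.range p, fs_twist (ζ ^ b) (e (δ y))) := by
    rw [Fintype.prod_option, map_mul, map_prod, dsh_nl_σ_none, hβ, qExpand_qExpand,
      qExpand_congr (show p * p = p ^ 2 by ring)]
    congr 1
    rw [← Fin.prod_univ_eq_prod_range
      (fun b => coeffMap ι (fs_twist (ζ ^ b) (e (δ y)))) p]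
    refine Finset.prod_congr rfl fun b _ => ?_
    rw [dsh_nl_σ_some, hwβ, fs_coeffMap_twist, map_pow]
  rw [dsh_nl_i₀_apply, hR] at key
  exact dsh_nl_coeffMap_injective _ hιinj key

end main

end Fermat.Agent.DS

end
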