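/-
DS (Deligne–Serre) / DS-T / cell [H1] (Hecke, Eichler–Shimura for `Γ₁(M)`), leaf [NL1]-generic,
part (B2) (helper24): REDUCTION MOD `p` OF THE NORM FORMULA = THE SEAM [NL1] (KRONECKER'S CONGRUENCE
FOR FUNCTIONS, WITH DIAMOND).

Generic twin of `JT3/ES/NLRed.lean` (`nlr_NL`).  From `dsh_nl_norm` (`NormProdGen.lean`):
  `N_α(β y)(q^p) = y(q^{p²}) · ∏_{b<p} (δ y)(ζ^b q)`,
for a `q`-integral `y` (in the sense of `dsr_IntFun A π F Ft`) with reduction `ȳ`, and a diamond `δ`
that preserves `q`-integrality and reduces to `δt` (`hδ`): the norm is `q`-integral (`ζ ∈ A`) and,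
because `π ζ = 1` in characteristic `p`, its reduction is `Frob(δt ȳ) · ȳ(q^p)`.
Prefix `dsh_nl_`.
-/
import Mathlib
import Fermat.Agent.DS.Hecke.NormProdGen
import Fermat.Agent.DS.Hecke.RedDefs
import Fermat.Agent.JT3.ES.CoeffAut
import Fermat.Agent.JT.Kronecker

set_option autoImplicit false
set_option synthInstance.maxHeartbeats 400000
set_option maxHeartbeats 1000000
set_option linter.style.haveILetI false
set_option linter.unusedSectionVars false

noncomputable section

namespace Fermat.Agent.DS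

open ModularCurve AlgebraicCurve HahnSeries Fermat.Agent.S28 Fermat.Agent.JT Fermat.Agent.JT3

/-! ### generic lemmas on Laurent series over a valuation subring -/

section Series

/-- a Laurent series over a field all of whose coefficients lie in a valuation subring comes from
a Laurent series over the subring -/
theorem dsh_nl_exists_coeff_lift {K : Type*} [Field K] (A : ValuationSubring K)
    (Z : LaurentSeries K) (h : ∀ n, Z.coeff n ∈ A) :
    ∃ z : LaurentSeries A, coeffMap A.subtype z = Z := by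
  refine ⟨⟨fun n => ⟨Z.coeff n, h n⟩, Z.isPWO_support.mono ?_⟩, ?_⟩
  · intro n hn
    rw [Function.mem_support] at hn
    rw [HahnSeries.mem_support]
    intro h0
    exact hn (Subtype.ext h0)
  · ext n
    rfl

/-- a root of unity lies in every valuation subring -/
theorem dsh_nl_root_mem {K : Type*} [Field K] (A : ValuationSubring K) {n : ℕ} (hn : n ≠ 0)
    {ζ : K} (hζ : ζ ^ n = 1) : ζ ∈ A := by
  rcases A.mem_or_inv_mem ζ with h | h
  · exact h
  · have h1 : ζ ^ (n - 1) * ζ = 1 := by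
      rw [← pow_succ, Nat.sub_add_cancel (Nat.one_le_iff_ne_zero.mpr hn), hζ]
    have h2 : ζ ^ (n - 1) = ζ⁻¹ := eq_inv_of_mul_eq_one_left h1
    have h3 : ζ = (ζ⁻¹) ^ (n - 1) := by
      rw [inv_pow, h2, inv_inv]
    rw [h3]
    exact pow_mem h _

/-- a root of unity as a unit of a valuation subring -/
def dsh_nl_unit {K : Type*} [Field K] (A : ValuationSubring K) {n : ℕ} (hn : n ≠ 0)
    (ζ : Kˣ) (hζ : ζ ^ n = 1) : Aˣ where
  val := ⟨(ζ : K), dsh_nl_root_mem A hn (by rw [← Units.val_pow_eq_pow_val, hζ, Units.val_one])⟩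
  inv := ⟨((ζ⁻¹ : Kˣ) : K), dsh_nl_root_mem A hn (by
    rw [← Units.val_pow_eq_pow_val, inv_pow, hζ, inv_one, Units.val_one])⟩
  val_inv := Subtype.ext (by simp)
  inv_val := Subtype.ext (by simp)

theorem dsh_nl_map_unit {K : Type*} [Field K] (A : ValuationSubring K) {n : ℕ} (hn : n ≠ 0)
    (ζ : Kˣ) (hζ : ζ ^ n = 1) :
    Units.map (A.subtype : A →* K) (dsh_nl_unit A hn ζ hζ) = ζ :=
  Units.ext rfl

theorem dsh_nl_unit_pow {K : Type*} [Field K] (A : ValuationSubring K) {n : ℕ} (hn : n ≠ 0)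
    (ζ : Kˣ) (hζ : ζ ^ n = 1) : dsh_nl_unit A hn ζ hζ ^ n = 1 := by
  apply Units.ext
  apply Subtype.ext
  rw [Units.val_pow_eq_pow_val, Units.val_one]
  show (((dsh_nl_unit A hn ζ hζ : A) ^ n : A) : K) = 1
  rw [SubmonoidClass.coe_pow]
  show (ζ : K) ^ n = 1
  rw [← Units.val_pow_eq_pow_val, hζ, Units.val_one]

end Series

/-! ### the seam [NL1] -/

section Main

variable {L : Type*} [Field L] [CharZero L] {A : ValuationSubring L}
  {k : Type*} [Field k] {π : A →+* k} {p : ℕ} [NeZero p] [hp : Fact p.Prime] [CharP k p]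
  {F F' : IntermediateField L (LaurentSeries L)} {Ft : IntermediateField k (LaurentSeries k)}
  {Ω : Type*} [Field Ω]

/-- **[NL1]-generic (B2): the seam `[NL1]` from the norm formula.**
`α`, `β` the degeneracy maps (inclusion and `q ↦ q^p`), `δ` the diamond operator `⟨p⟩` on `F`
with reduction `δt` on `Ft` (`hδ`), `w` the swap embedding, `s` a separating element (`s = j`),
`ζ` a primitive `p`-th root of unity; `Ft` stable under Frobenius on coefficients and under
`q ↦ q^p`. -/
theorem dsh_nl_seam (α β : F →ₐ[L] F') (δ : F → F) (δt : Ft → Ft)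
    (hα : ∀ x : F, ((α x : F') : LaurentSeries L) = x)
    (hβ : ∀ y : F, ((β y : F') : LaurentSeries L) = qExpand L p (y : LaurentSeries L))
    (hδ : ∀ y : dsr_IntFun A π F Ft, ∃ z : dsr_IntFun A π F Ft,
      dsr_gen z = δ (dsr_gen y) ∧ dsr_red z = δt (dsr_red y))
    (hdeg : finrankAlong L α = p + 1)
    (ι : L →+* Ω) (w : F' →+* LaurentSeries Ω)
    (hwα : ∀ x : F, w (α x) = coeffMap ι (qExpand L p (x : LaurentSeries L)))
    (hwβ : ∀ y : F, w (β y) = coeffMap ι ((δ y : F) : LaurentSeries L))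
    (s : F) (hs : ((δ s : F) : LaurentSeries L).coeff (-1) ≠ 0)
    (ζ : Lˣ) (hζ : IsPrimitiveRoot ζ p)
    (hfrob : ∀ x : LaurentSeries k, x ∈ Ft → coeffMap (frobenius k p) x ∈ Ft)
    (hqexp : ∀ x : LaurentSeries k, x ∈ Ft → qExpand k p x ∈ Ft)
    (y : dsr_IntFun A π F Ft) :
    ∃ z : dsr_IntFun A π F Ft,
      dsr_gen z = (letI := algebraAlong α; Algebra.norm F (β (dsr_gen y))) ∧
      ((dsr_red z : Ft) : LaurentSeries k) =
        coeffMap (frobenius k p) ((δt (dsr_red y) : Ft) : LaurentSeries k) *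
          qExpand k p ((dsr_red y : Ft) : LaurentSeries k) := by
  obtain ⟨yδ, hyδg, hyδr⟩ := hδ y
  have hζpow : ζ ^ p = 1 := hζ.pow_eq_one
  set ζA : Aˣ := dsh_nl_unit A (NeZero.ne p) ζ hζpow with hζA
  have hζAmap : Units.map (A.subtype : A →* L) ζA = ζ := dsh_nl_map_unit A _ ζ hζpow
  have hζApow : ζA ^ p = 1 := dsh_nl_unit_pow A _ ζ hζpow
  -- the norm formula
  have hnorm := dsh_nl_norm (F := F) (F' := F') (algebraMap F (LaurentSeries L))
    (algebraMap F' (LaurentSeries L)) ι p hp.out α β δ hα hβ hdeg w hwα hwβ s hs ζ hζ (dsr_gen y)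
  set Znorm : F := (letI := algebraAlong α; Algebra.norm F (β (dsr_gen y))) with hZnorm
  set Z : LaurentSeries L := (Znorm : LaurentSeries L) with hZ
  change qExpand L p Z = qExpand L (p ^ 2) ((dsr_gen y : F) : LaurentSeries L) *
    ∏ b ∈ Finset.range p, fs_twist (ζ ^ b) ((δ (dsr_gen y) : F) : LaurentSeries L) at hnorm
  set R1 : LaurentSeries A :=
    qExpand A (p ^ 2) y.1 * ∏ b ∈ Finset.range p, fs_twist (ζA ^ b) yδ.1 with hR1
  have hR1map : coeffMap A.subtype R1 = qExpand L p Z := by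
    rw [hnorm, hR1, map_mul, map_prod, coeffMap_qExpand, ← hyδg]
    congr 1
    refine Finset.prod_congr rfl fun b _ => ?_
    rw [fs_coeffMap_twist, map_pow, hζAmap]
    rfl
  -- the coefficients of `Z` lie in `A`
  have hZA : ∀ n, Z.coeff n ∈ A := by
    intro n
    have h1 : Z.coeff n = (qExpand L p Z).coeff ((p : ℤ) * n) := (qExpand_coeff_mul p Z n).symm
    rw [h1, ← hR1map, coeffMap_coeff]
    exact (R1.coeff _).2
  obtain ⟨z1, hz1⟩ := dsh_nl_exists_coeff_lift A Z hZA
  have hinjA : Function.Injective (coeffMap A.subtype : LaurentSeries A → LaurentSeries L) :=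
    dsr_coeffMap_subtype_injective
  have hz1R : qExpand A p z1 = R1 := by
    apply hinjA
    rw [coeffMap_qExpand, hz1, hR1map]
  -- reduction
  set ybar : LaurentSeries k := coeffMap π y.1 with hybar
  set ydbar : LaurentSeries k := coeffMap π yδ.1 with hydbar
  have hone : Units.map ((π : A →+* k) : A →* k) ζA = 1 :=
    kc_map_zeta_eq_one hp.out ζA hζApow π
  have hred : qExpand k p (coeffMap π z1)
      = qExpand k p (coeffMap (frobenius k p) ydbar * qExpand k p ybar) := by
    rw [← coeffMap_qExpand, hz1R, hR1, map_mul, map_prod, coeffMap_qExpand]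
    have h1 : ∀ b ∈ Finset.range p, coeffMap π (fs_twist (ζA ^ b) yδ.1) = ydbar := by
      intro b _
      rw [fs_coeffMap_twist, map_pow, hone, one_pow, fs_twist_one]
    rw [Finset.prod_congr rfl h1, Finset.prod_const, Finset.card_range,
      ca_pow_eq_qExpand_frobenius k p ydbar, map_mul, qExpand_qExpand,
      qExpand_congr (sq p), mul_comm]
  have hzred : coeffMap π z1 = coeffMap (frobenius k p) ydbar * qExpand k p ybar :=
    qExpand_injective p hred
  have hybar_mem : ybar ∈ Ft := y.2.2.1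
  have hybar_ne : ybar ≠ 0 := y.2.2.2
  have hydbar_mem : ydbar ∈ Ft := yδ.2.2.1
  have hydbar_ne : ydbar ≠ 0 := yδ.2.2.2
  have hfrob_ne : coeffMap (frobenius k p) ydbar ≠ 0 := by
    intro h0
    apply hydbar_ne
    ext n
    have := congrArg (fun s => HahnSeries.coeff s n) h0
    simp only [coeffMap_coeff, HahnSeries.coeff_zero] at this
    have h2 : ydbar.coeff n ^ p = 0 := by rw [← frobenius_def]; exact this
    exact pow_eq_zero_iff (NeZero.ne p) |>.mp h2
  have hq_ne : qExpand k p ybar ≠ 0 := fun h0 =>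
    hybar_ne (qExpand_injective p (by rw [h0, map_zero]))
  have hydbar_eq : ((δt (dsr_red y) : Ft) : LaurentSeries k) = ydbar := by
    rw [← hyδr]; rfl
  refine ⟨⟨z1, ?_, ?_, ?_⟩, ?_, ?_⟩
  · rw [hz1]; exact Znorm.2
  · rw [hzred]
    exact mul_mem (hfrob _ hydbar_mem) (hqexp _ hybar_mem)
  · rw [hzred]; exact mul_ne_zero hfrob_ne hq_ne
  · exact Subtype.ext hz1
  · rw [hydbar_eq]; exact hzred

end Main

end Fermat.Agent.DS

end
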