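/-
DS (Deligne–Serre) / DS-T / cell [H1], leaf [NL1]: THE SEAM `[NL1]` ON A CLASS `𝒞` (prefix `dsh_nlc_`).

* `dsh_nlc_seam` : `dsh_nl_seam` (helper24, `NormRed.lean`) with the global diamond hypothesis `hδ`
  replaced by ONE instance `(yδ, hyδg, hyδr)` (item (i) of finding #1746);
* `dsh_nlc_NLC`  : for a tower `T`, a diamond `δ` with reduction `δt` on a class `𝒞` of `q`-integral
  functions (`hδ` only on `𝒞`) and the swap embedding `w`, the seam `dsh_NLC A π T Ft 𝒞 δt` holds.
-/
import Mathlib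
import Fermat.Agent.DS.Hecke.NormRed
import Fermat.Agent.DS.Hecke.ESC

set_option autoImplicit false
set_option synthInstance.maxHeartbeats 400000
set_option maxHeartbeats 1000000
set_option linter.style.haveILetI false
set_option linter.unusedSectionVars false

noncomputable section

namespace Fermat.Agent.DS

open ModularCurve AlgebraicCurve HahnSeries Fermat.Agent.S28 Fermat.Agent.JT Fermat.Agent.JT3

section Main

variable {L : Type*} [Field L] [CharZero L] {A : ValuationSubring L}
  {k : Type*} [Field k] {π : A →+* k} {p : ℕ} [NeZero p] [hp : Fact p.Prime] [CharP k p]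
  {F F' : IntermediateField L (LaurentSeries L)} {Ft : IntermediateField k (LaurentSeries k)}
  {Ω : Type*} [Field Ω]

/-- **[NL1]-generic, one function at a time**: `dsh_nl_seam` with the diamond hypothesis only for
the function `y` at hand. -/
theorem dsh_nlc_seam (α β : F →ₐ[L] F') (δ : F → F) (δt : Ft → Ft)
    (hα : ∀ x : F, ((α x : F') : LaurentSeries L) = x)
    (hβ : ∀ y : F, ((β y : F') : LaurentSeries L) = qExpand L p (y : LaurentSeries L))
    (hdeg : finrankAlong L α = p + 1)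
    (ι : L →+* Ω) (w : F' →+* LaurentSeries Ω)
    (hwα : ∀ x : F, w (α x) = coeffMap ι (qExpand L p (x : LaurentSeries L)))
    (hwβ : ∀ y : F, w (β y) = coeffMap ι ((δ y : F) : LaurentSeries L))
    (s : F) (hs : ((δ s : F) : LaurentSeries L).coeff (-1) ≠ 0)
    (ζ : Lˣ) (hζ : IsPrimitiveRoot ζ p)
    (hfrob : ∀ x : LaurentSeries k, x ∈ Ft → coeffMap (frobenius k p) x ∈ Ft)
    (hqexp : ∀ x : LaurentSeries k, x ∈ Ft → qExpand k p x ∈ Ft)
    (y : dsr_IntFun A π F Ft) (yδ : dsr_IntFun A π F Ft)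
    (hyδg : dsr_gen yδ = δ (dsr_gen y)) (hyδr : dsr_red yδ = δt (dsr_red y)) :
    ∃ z : dsr_IntFun A π F Ft,
      dsr_gen z = (letI := algebraAlong α; Algebra.norm F (β (dsr_gen y))) ∧
      ((dsr_red z : Ft) : LaurentSeries k) =
        coeffMap (frobenius k p) ((δt (dsr_red y) : Ft) : LaurentSeries k) *
          qExpand k p ((dsr_red y : Ft) : LaurentSeries k) := by
  have hζpow : ζ ^ p = 1 := hζ.pow_eq_one
  set ζA : Aˣ := dsh_nl_unit A (NeZero.ne p) ζ hζpow with hζA
  have hζAmap : Units.map (A.subtype : A →* L) ζA = ζ := dsh_nl_map_unit A _ ζ hζpow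
  have hζApow : ζA ^ p = 1 := dsh_nl_unit_pow A _ ζ hζpow
  -- the norm formula
  have hnorm := dsh_nl_norm (F := F) (F' := F') (algebraMap F (LaurentSeries L))
    (algebraMap F' (LaurentSeries L)) ι p hp.out α β δ hα hβ hdeg w hwα hwβ s hs ζ hζ (dsr_gen y)
  set Znorm : F := (letI := algebraAlong α; Algebra.norm F (β (dsr_gen y))) with hZnorm
  set Z : LaurentSeries L := (Znorm : LaurentSeries L) with hZ
  change qExpand L p Z = qExpand L (p ^ 2) ((dsr_gen y : F) : LaurentSeries L) *
    ∏ b ∈ Finset.range p, fs_twist (ζ ^ b) ((δ (dsr_gen y) : F) : LaurentSeries L) at hnorm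
  set R1 : LaurentSeries A :=
    qExpand A (p ^ 2) y.1 * ∏ b ∈ Finset.range p, fs_twist (ζA ^ b) yδ.1 with hR1
  have hR1map : coeffMap A.subtype R1 = qExpand L p Z := by
    rw [hnorm, hR1, map_mul, map_prod, coeffMap_qExpand, ← hyδg]
    congr 1
    refine Finset.prod_congr rfl fun b _ => ?_
    rw [fs_coeffMap_twist, map_pow, hζAmap]
    rfl
  -- the coefficients of `Z` lie in `A`
  have hZA : ∀ n, Z.coeff n ∈ A := by
    intro n
    have h1 : Z.coeff n = (qExpand L p Z).coeff ((p : ℤ) * n) := (qExpand_coeff_mul p Z n).symm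
    rw [h1, ← hR1map, coeffMap_coeff]
    exact (R1.coeff _).2
  obtain ⟨z1, hz1⟩ := dsh_nl_exists_coeff_lift A Z hZA
  have hinjA : Function.Injective (coeffMap A.subtype : LaurentSeries A → LaurentSeries L) :=
    dsr_coeffMap_subtype_injective
  have hz1R : qExpand A p z1 = R1 := by
    apply hinjA
    rw [coeffMap_qExpand, hz1, hR1map]
  -- reduction
  set ybar : LaurentSeries k := coeffMap π y.1 with hybar
  set ydbar : LaurentSeries k := coeffMap π yδ.1 with hydbar
  have hone : Units.map ((π : A →+* k) : A →* k) ζA = 1 :=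
    kc_map_zeta_eq_one hp.out ζA hζApow π
  have hred : qExpand k p (coeffMap π z1)
      = qExpand k p (coeffMap (frobenius k p) ydbar * qExpand k p ybar) := by
    rw [← coeffMap_qExpand, hz1R, hR1, map_mul, map_prod, coeffMap_qExpand]
    have h1 : ∀ b ∈ Finset.range p, coeffMap π (fs_twist (ζA ^ b) yδ.1) = ydbar := by
      intro b _
      rw [fs_coeffMap_twist, map_pow, hone, one_pow, fs_twist_one]
    rw [Finset.prod_congr rfl h1, Finset.prod_const, Finset.card_range,
      ca_pow_eq_qExpand_frobenius k p ydbar, map_mul, qExpand_qExpand,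
      qExpand_congr (sq p), mul_comm]
  have hzred : coeffMap π z1 = coeffMap (frobenius k p) ydbar * qExpand k p ybar :=
    qExpand_injective p hred
  have hybar_mem : ybar ∈ Ft := y.2.2.1
  have hybar_ne : ybar ≠ 0 := y.2.2.2
  have hydbar_mem : ydbar ∈ Ft := yδ.2.2.1
  have hydbar_ne : ydbar ≠ 0 := yδ.2.2.2
  have hfrob_ne : coeffMap (frobenius k p) ydbar ≠ 0 := by
    intro h0
    apply hydbar_ne
    ext n
    have := congrArg (fun s => HahnSeries.coeff s n) h0
    simp only [coeffMap_coeff, HahnSeries.coeff_zero] at this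
    have h2 : ydbar.coeff n ^ p = 0 := by rw [← frobenius_def]; exact this
    exact pow_eq_zero_iff (NeZero.ne p) |>.mp h2
  have hq_ne : qExpand k p ybar ≠ 0 := fun h0 =>
    hybar_ne (qExpand_injective p (by rw [h0, map_zero]))
  have hydbar_eq : ((δt (dsr_red y) : Ft) : LaurentSeries k) = ydbar := by
    rw [← hyδr]; rfl
  refine ⟨⟨z1, ?_, ?_, ?_⟩, ?_, ?_⟩
  · rw [hz1]; exact Znorm.2
  · rw [hzred]
    exact mul_mem (hfrob _ hydbar_mem) (hqexp _ hybar_mem)
  · rw [hzred]; exact mul_ne_zero hfrob_ne hq_ne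
  · exact Subtype.ext hz1
  · rw [hydbar_eq]; exact hzred

end Main

/-! ### the seam on a class, for a tower -/

section Tower

variable {L : Type*} [Field L] [CharZero L] [Algebra ℚ L] {A : ValuationSubring L}
  {k : Type*} [Field k] {π : A →+* k} {p : ℕ} [NeZero p] [hp : Fact p.Prime] [CharP k p]
  (T : dsh_Tower p) {Ft : IntermediateField k (LaurentSeries k)}
  {Ω : Type*} [Field Ω]

/-- **the seam `[NL1]` on a class `𝒞`** from the swap embedding and a diamond which reduces to `δt`
on `𝒞`. -/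
theorem dsh_nlc_NLC (δ : laurentBaseChange L T.F₀ → laurentBaseChange L T.F₀) (δt : Ft → Ft)
    (𝒞 : Set (dsr_IntFun A π (laurentBaseChange L T.F₀) Ft))
    (hδ : ∀ y ∈ 𝒞, ∃ z : dsr_IntFun A π (laurentBaseChange L T.F₀) Ft,
      dsr_gen z = δ (dsr_gen y) ∧ dsr_red z = δt (dsr_red y))
    (hdeg : finrankAlong L (dsh_alpha L T) = p + 1)
    (ι : L →+* Ω) (w : laurentBaseChange L T.F₁ →+* LaurentSeries Ω)
    (hwα : ∀ x : laurentBaseChange L T.F₀,
      w (dsh_alpha L T x) = coeffMap ι (qExpand L p (x : LaurentSeries L)))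
    (hwβ : ∀ y : laurentBaseChange L T.F₀,
      w (dsh_beta L T y) = coeffMap ι ((δ y : laurentBaseChange L T.F₀) : LaurentSeries L))
    (s : laurentBaseChange L T.F₀)
    (hs : ((δ s : laurentBaseChange L T.F₀) : LaurentSeries L).coeff (-1) ≠ 0)
    (ζ : Lˣ) (hζ : IsPrimitiveRoot ζ p)
    (hfrob : ∀ x : LaurentSeries k, x ∈ Ft → coeffMap (frobenius k p) x ∈ Ft)
    (hqexp : ∀ x : LaurentSeries k, x ∈ Ft → qExpand k p x ∈ Ft) :
    dsh_NLC A π T Ft 𝒞 δt := by
  intro y hy
  obtain ⟨yδ, hyδg, hyδr⟩ := hδ y hy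
  exact dsh_nlc_seam (dsh_alpha L T) (dsh_beta L T) δ δt (fun x => dsh_coe_alpha L T x)
    (fun x => dsh_coe_beta L T x) hdeg ι w hwα hwβ s hs ζ hζ hfrob hqexp y yδ hyδg hyδr

end Tower

end Fermat.Agent.DS

end
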