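/-
DS (Deligne–Serre) / DS-T / cell [H1] (helper24): THE SEAM [NL1] FOR THE `Γ₁(M)` TOWER.

`dsh_nl_seam` (`NormRed.lean`) + the swap embedding `dsh_sw_swap` (`SwapG1.lean`) give helper1's seam
`dsh_NL A π (dsh_sw_tower M p) Ft δt` (`ES.lean`) from

* a diamond operator `δ = ⟨p⟩` on `F̄1_M` (`dsh_sw_IsDiamond`) preserving `q`-integrality with
  reduction `δt` (`hδ`);
* the degree `[F̄1_{M,p} : F̄1_M] = p + 1` along the inclusion (`hdeg`);
* stability of the reduced field `Ft` under Frobenius on coefficients and under `q ↦ q^p`.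
Prefix `dsh_sw_`.
-/
import Mathlib
import Fermat.Agent.DS.Hecke.SwapG1
import Fermat.Agent.DS.Hecke.NormRed
import Fermat.Agent.DS.Hecke.ES

set_option autoImplicit false
set_option synthInstance.maxHeartbeats 400000
set_option maxHeartbeats 1000000
set_option linter.unusedSectionVars false
set_option linter.style.haveILetI false

namespace Fermat.Agent.DS

open ModularCurve AlgebraicCurve HahnSeries Fermat.Agent.JT3
open Fermat.Agent.S24 Fermat.Agent.S24.Br

noncomputable section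

local notation "Kbar" => AlgebraicClosure ℚ

variable {M p : ℕ} [NeZero M] [NeZero p] [hp : Fact p.Prime]
  {A : ValuationSubring Kbar} {k : Type*} [Field k] {π : A →+* k} [CharP k p]
  {Ft : IntermediateField k (LaurentSeries k)}

/-- **the seam [NL1] for the `Γ₁(M)` tower at `p ∤ M`** -/
theorem dsh_sw_NL (hM : M ≠ 1) (hpM : ¬ p ∣ M)
    (δ : laurentBaseChange Kbar (dsh_sw_tower M p).F₀ →+*
      laurentBaseChange Kbar (dsh_sw_tower M p).F₀)
    (hδd : dsh_sw_IsDiamond M p δ) (δt : Ft → Ft)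
    (hδ : ∀ y : dsr_IntFun A π (laurentBaseChange Kbar (dsh_sw_tower M p).F₀) Ft,
      ∃ z : dsr_IntFun A π (laurentBaseChange Kbar (dsh_sw_tower M p).F₀) Ft,
        dsr_gen z = δ (dsr_gen y) ∧ dsr_red z = δt (dsr_red y))
    (hdeg : finrankAlong Kbar (dsh_alpha Kbar (dsh_sw_tower M p)) = p + 1)
    (hfrob : ∀ x : LaurentSeries k, x ∈ Ft → coeffMap (frobenius k p) x ∈ Ft)
    (hqexp : ∀ x : LaurentSeries k, x ∈ Ft → qExpand k p x ∈ Ft) :
    dsh_NL A π (dsh_sw_tower M p) Ft δt := by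
  intro y
  -- a primitive `p`-th root of unity
  haveI : NeZero ((p : ℕ) : Kbar) := NeZero.charZero
  obtain ⟨ζ₀, hζ₀⟩ := HasEnoughRootsOfUnity.exists_primitiveRoot Kbar p
  have hζ₀0 : ζ₀ ≠ 0 := hζ₀.ne_zero (NeZero.ne p)
  set ζ : Kbarˣ := Units.mk0 ζ₀ hζ₀0 with hζdef
  have hζ : IsPrimitiveRoot ζ p := by
    rw [← IsPrimitiveRoot.coe_units_iff]
    exact hζ₀
  obtain ⟨w, hwα, hwβ⟩ := dsh_sw_swap M p hM hp.out hpM δ hδd
  exact dsh_nl_seam (dsh_alpha Kbar (dsh_sw_tower M p)) (dsh_beta Kbar (dsh_sw_tower M p))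
    (fun y => δ y) δt (dsh_coe_alpha Kbar _) (dsh_coe_beta Kbar _) hδ hdeg
    (algebraMap Kbar ℂ) w hwα hwβ (dsh_sw_jBar M) hδd.coeff_jBar ζ hζ hfrob hqexp y

end

end Fermat.Agent.DS
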